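import Fermat.Agent.ModCurve.Fun.Psi
import Fermat.Agent.Curve.Basics.Along
import Fermat.Agent.ModCurve.Fun.Instances
import Fermat.Prelude.Def_ModularCurve_HeckeOperator

/-!
The degree of `X₀(Nℓ) → X₀(N)` is `ψ(Nℓ)/ψ(N)`, equal to `ℓ + 1` or `ℓ`.
-/

set_option autoImplicit false

noncomputable section

namespace FermatAgent.ModCurveTorsion

open ModularCurve AlgebraicCurve IntermediateField
open FermatAgent.ModFun (jBar)

theorem dedekindPsi_pos {N : ℕ} (hN : N ≠ 0) : 0 < dedekindPsi N := by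
  unfold dedekindPsi
  refine Finset.sum_pos' (fun d _ => Nat.zero_le _) ⟨1, ?_, ?_⟩
  · rw [Finset.mem_filter, Nat.mem_divisors]
    exact ⟨⟨one_dvd N, hN⟩, squarefree_one⟩
  · rw [Nat.div_one]; exact Nat.pos_of_ne_zero hN

theorem dedekindPsi_mul_of_dvd {N ℓ : ℕ} (hN : N ≠ 0) (hℓ : ℓ.Prime) (h : ℓ ∣ N) :
    dedekindPsi (N * ℓ) = ℓ * dedekindPsi N := by
  have hset : (N * ℓ).divisors.filter Squarefree = N.divisors.filter Squarefree := by
    ext d
    simp only [Finset.mem_filter, Nat.mem_divisors, mul_ne_zero_iff]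
    refine ⟨fun ⟨⟨hd, _⟩, hsq⟩ => ⟨⟨?_, hN⟩, hsq⟩,
      fun ⟨⟨hd, _⟩, hsq⟩ => ⟨⟨hd.mul_right _, hN, hℓ.ne_zero⟩, hsq⟩⟩
    by_cases hdl : ℓ ∣ d
    · obtain ⟨e, rfl⟩ := hdl
      have hcop : ℓ.Coprime e := Nat.coprime_of_squarefree_mul hsq
      refine Nat.Coprime.mul_dvd_of_dvd_of_dvd hcop h ?_
      exact hcop.symm.dvd_of_dvd_mul_right ((dvd_mul_left e ℓ).trans hd)
    · exact ((hℓ.coprime_iff_not_dvd.mpr hdl).symm).dvd_of_dvd_mul_right hd
  unfold dedekindPsi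
  rw [hset, Finset.mul_sum]
  refine Finset.sum_congr rfl fun d hd => ?_
  have hd' : d ∣ N := Nat.dvd_of_mem_divisors (Finset.mem_filter.mp hd).1
  rw [mul_comm N, Nat.mul_div_assoc _ hd']

theorem dedekindPsi_mul_of_not_dvd {N ℓ : ℕ} (hN : N ≠ 0) (hℓ : ℓ.Prime) (h : ¬ ℓ ∣ N) :
    dedekindPsi (N * ℓ) = (ℓ + 1) * dedekindPsi N := by
  set S := N.divisors.filter Squarefree with hS
  have hSd : ∀ {d}, d ∈ S → d ∣ N := fun hd => Nat.dvd_of_mem_divisors (Finset.mem_filter.mp hd).1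
  have hdisj : Disjoint S (S.image (ℓ * ·)) := by
    rw [Finset.disjoint_left]
    intro d hd hd'
    obtain ⟨e, -, rfl⟩ := Finset.mem_image.mp hd'
    exact h ((dvd_mul_right ℓ e).trans (hSd hd))
  have hset : (N * ℓ).divisors.filter Squarefree = S ∪ S.image (ℓ * ·) := by
    ext d
    simp only [hS, Finset.mem_union, Finset.mem_image, Finset.mem_filter, Nat.mem_divisors,
      mul_ne_zero_iff]
    constructor
    · rintro ⟨⟨hd, -⟩, hsq⟩
      by_cases hdl : ℓ ∣ d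
      · obtain ⟨e, rfl⟩ := hdl
        refine Or.inr ⟨e, ⟨⟨?_, hN⟩, (Nat.squarefree_mul_iff.mp hsq).2.2⟩, rfl⟩
        rw [mul_comm N] at hd
        exact Nat.dvd_of_mul_dvd_mul_left hℓ.pos hd
      · exact Or.inl ⟨⟨((hℓ.coprime_iff_not_dvd.mpr hdl).symm).dvd_of_dvd_mul_right hd, hN⟩, hsq⟩
    · rintro (⟨⟨hd, -⟩, hsq⟩ | ⟨e, ⟨⟨he, -⟩, hsq⟩, rfl⟩)
      · exact ⟨⟨hd.mul_right _, hN, hℓ.ne_zero⟩, hsq⟩
      · refine ⟨⟨by rw [mul_comm N]; exact mul_dvd_mul_left _ he, hN, hℓ.ne_zero⟩, ?_⟩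
        exact Nat.squarefree_mul_iff.mpr
          ⟨hℓ.coprime_iff_not_dvd.mpr fun h' => h (h'.trans he), hℓ.squarefree, hsq⟩
  show ((N * ℓ).divisors.filter Squarefree).sum (fun d => N * ℓ / d) = _
  rw [hset, Finset.sum_union hdisj, Finset.sum_image (fun a _ b _ hab =>
    Nat.eq_of_mul_eq_mul_left hℓ.pos hab), add_mul, one_mul]
  refine congrArg₂ (· + ·) ?_ ?_
  · show _ = ℓ * S.sum (fun d => N / d)
    rw [Finset.mul_sum]
    exact Finset.sum_congr rfl fun d hd => by rw [mul_comm N, Nat.mul_div_assoc _ (hSd hd)]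
  · show _ = S.sum (fun d => N / d)
    exact Finset.sum_congr rfl fun d _ => by rw [mul_comm N, Nat.mul_div_mul_left _ _ hℓ.pos]

theorem finrankAlong_mul_finrank {K F F' : Type*} [Field K] [Field F] [Field F'] [Algebra K F]
    [Algebra K F'] (φ : F →ₐ[K] F') (x : F) :
    Module.finrank K⟮x⟯ F * finrankAlong K φ = Module.finrank K⟮φ x⟯ F' := by
  let := algebraAlong φ
  have := isScalarTower_along φ
  show Module.finrank K⟮x⟯ F * Module.finrank F F' = Module.finrank K⟮algebraMap F F' x⟯ F'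
  rw [FermatAgent.Curve.finrank_adjoin_algebraMap, Module.finrank_mul_finrank]

variable (N ℓ : ℕ) [NeZero N] [NeZero ℓ]

theorem heckeAlphaBar_jBar (L : Type*) [Field L] [Algebra ℚ L] :
    heckeAlphaBar L N ℓ (jBar L N) = jBar L (N * ℓ) := by
  have : NeZero (N * ℓ) := ⟨mul_ne_zero (NeZero.ne N) (NeZero.ne ℓ)⟩
  exact Subtype.ext (coe_heckeAlphaBar N ℓ _)

theorem finrankAlong_heckeAlphaBar (L : Type*) [Field L] [Algebra ℚ L] :
    dedekindPsi N * finrankAlong L (heckeAlphaBar L N ℓ) = dedekindPsi (N * ℓ) := by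
  have : NeZero (N * ℓ) := ⟨mul_ne_zero (NeZero.ne N) (NeZero.ne ℓ)⟩
  have h := finrankAlong_mul_finrank (heckeAlphaBar L N ℓ) (jBar L N)
  rwa [heckeAlphaBar_jBar, FermatAgent.ModFun.finrank_adjoin_jBar_eq_dedekindPsi,
    FermatAgent.ModFun.finrank_adjoin_jBar_eq_dedekindPsi] at h

end FermatAgent.ModCurveTorsion

end
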