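import Fermat.Agent.ModCurve.Torsion.Interface
import Fermat.Agent.GalRep.Construct.Interface
import Mathlib.LinearAlgebra.Matrix.ToLin

/-!
The torsion model in the shape `GalRep.HeckeTorsionData` consumed by the construction of the
Galois representations attached to eigensystems.
-/

set_option autoImplicit false

noncomputable section

namespace FermatAgent.ModCurveTorsion

open ModularCurve AlgebraicCurve

namespace TorsionModel

variable {N : ℕ} [NeZero N] (M : TorsionModel N)

/-- The reduction `Λ → Λ / n` in coordinates. -/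
def redMod (n : ℕ) : (Fin M.rank → ℤ) →+ (Fin M.rank → ZMod n) :=
  (Int.castAddHom (ZMod n)).compLeft (Fin M.rank)

@[simp]
theorem redMod_apply (n : ℕ) (v : Fin M.rank → ℤ) (i : Fin M.rank) :
    M.redMod n v i = (v i : ZMod n) := rfl

theorem redMod_surjective (n : ℕ) : Function.Surjective (M.redMod n) := fun x =>
  ⟨fun i => (ZMod.intCast_surjective (x i)).choose,
    funext fun i => (ZMod.intCast_surjective (x i)).choose_spec⟩

theorem proj_eq_iff {n : ℕ} (hn : 0 < n) (v w : Fin M.rank → ℤ) :
    M.proj n v = M.proj n w ↔ M.redMod n v = M.redMod n w := by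
  rw [← sub_eq_zero, ← map_sub, M.proj_eq_zero_iff n hn, funext_iff]
  refine forall_congr' fun i => ?_
  rw [redMod_apply, redMod_apply, eq_comm, ZMod.intCast_eq_intCast_iff_dvd_sub, Pi.sub_apply]

/-- The projection onto the `n`-torsion subgroup. -/
def projTorsion {n : ℕ} (hn : 0 < n) :
    (Fin M.rank → ℤ) →+ Pic0.torsion (AlgebraicClosure ℚ) (modularFunctionFieldBar N) n :=
  (M.proj n).codRestrict _ fun v => Pic0.mem_torsion.mpr (M.zsmul_proj_self hn v)

@[simp]
theorem coe_projTorsion {n : ℕ} (hn : 0 < n) (v : Fin M.rank → ℤ) :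
    ((M.projTorsion hn v : Pic0.torsion (AlgebraicClosure ℚ) (modularFunctionFieldBar N) n) :
      JZero N) = M.proj n v := rfl

theorem projTorsion_surjective {n : ℕ} (hn : 0 < n) : Function.Surjective (M.projTorsion hn) := by
  intro x
  obtain ⟨v, hv⟩ := (M.mem_range_proj_iff n hn _).mpr (Pic0.mem_torsion.mp x.2)
  exact ⟨v, Subtype.ext hv⟩

theorem ker_projTorsion {n : ℕ} (hn : 0 < n) : (M.projTorsion hn).ker = (M.redMod n).ker := by
  ext v
  rw [AddMonoidHom.mem_ker, AddMonoidHom.mem_ker, Subtype.ext_iff, coe_projTorsion,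
    ZeroMemClass.coe_zero, ← map_zero (M.proj n), M.proj_eq_iff hn, map_zero]

/-- `J[n] ≃ (ℤ/n)^rank`. -/
def torsionEquiv {n : ℕ} (hn : 0 < n) :
    Pic0.torsion (AlgebraicClosure ℚ) (modularFunctionFieldBar N) n ≃+
      (Fin M.rank → ZMod n) :=
  ((QuotientAddGroup.quotientKerEquivOfSurjective _ (M.projTorsion_surjective hn)).symm.trans
    (QuotientAddGroup.quotientAddEquivOfEq (M.ker_projTorsion hn))).trans
    (QuotientAddGroup.quotientKerEquivOfSurjective _ (M.redMod_surjective n))

theorem torsionEquiv_proj {n : ℕ} (hn : 0 < n) (v : Fin M.rank → ℤ) :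
    M.torsionEquiv hn (M.projTorsion hn v) = M.redMod n v := by
  have h : (QuotientAddGroup.quotientKerEquivOfSurjective _ (M.projTorsion_surjective hn)).symm
      (M.projTorsion hn v) = (v : (Fin M.rank → ℤ) ⧸ (M.projTorsion hn).ker) := by
    rw [AddEquiv.symm_apply_eq]
    rfl
  show QuotientAddGroup.quotientKerEquivOfSurjective _ (M.redMod_surjective n)
    (QuotientAddGroup.quotientAddEquivOfEq (M.ker_projTorsion hn)
      ((QuotientAddGroup.quotientKerEquivOfSurjective _ (M.projTorsion_surjective hn)).symm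
        (M.projTorsion hn v))) = _
  rw [h]
  rfl

/-- The Hecke action as integral matrices. -/
def heckeMatrixAway (S : Set ℕ) :
    CuspForm.heckeAlgebra N 2 S →+* Matrix (Fin M.rank) (Fin M.rank) ℤ :=
  (LinearMap.toMatrixAlgEquiv' (R := ℤ) (n := Fin M.rank)).toRingHom.comp (M.heckeAway S)

theorem heckeMatrixAway_injective (S : Set ℕ) : Function.Injective (M.heckeMatrixAway S) :=
  (LinearMap.toMatrixAlgEquiv' (R := ℤ) (n := Fin M.rank)).injective.comp (M.heckeAway_injective S)

theorem redMod_hecke (S : Set ℕ) (n : ℕ) (t : CuspForm.heckeAlgebra N 2 S) (v : Fin M.rank → ℤ) :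
    M.redMod n (M.heckeAway S t v) =
      ((M.heckeMatrixAway S t).map (Int.cast : ℤ → ZMod n)).mulVec (M.redMod n v) := by
  have h : (M.heckeMatrixAway S t).mulVec v = M.heckeAway S t v := by
    rw [← Matrix.toLinAlgEquiv'_apply, ← LinearMap.toMatrixAlgEquiv'_symm]
    exact LinearMap.congr_fun ((LinearMap.toMatrixAlgEquiv').symm_apply_apply _) v
  funext i
  rw [← h, redMod_apply]
  simp only [Matrix.mulVec, dotProduct, Matrix.map_apply, redMod_apply]
  push_cast
  rfl

end TorsionModel

theorem heckeTorsionInput : GalRep.HeckeTorsionInput := by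
  intro N p _ hp S _
  refine ⟨{
    rank := (torsionModel N).rank
    ι := (torsionModel N).heckeMatrixAway S
    ι_injective := (torsionModel N).heckeMatrixAway_injective S
    e := fun n => (torsionModel N).torsionEquiv (pow_pos hp.pos n)
    e_mul := ?_
    e_hecke := ?_
    hecke_smul := fun n ℓ hℓ _ _ σ x _ => (galois_smul_heckeOperatorBar N σ ⟨ℓ, hℓ⟩ x).symm
    finite_level := ?_ }⟩
  · intro n x y hxy i
    obtain ⟨v, rfl⟩ := (torsionModel N).projTorsion_surjective (pow_pos hp.pos (n + 1)) x
    have hy : y = (torsionModel N).projTorsion (pow_pos hp.pos n) v := by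
      refine Subtype.ext ?_
      rw [hxy, TorsionModel.coe_projTorsion, TorsionModel.coe_projTorsion, ← natCast_zsmul]
      have := (torsionModel N).smul_proj p (p ^ n) hp.pos (pow_pos hp.pos n) v
      rw [← pow_succ'] at this
      exact this
    rw [hy, TorsionModel.torsionEquiv_proj, TorsionModel.torsionEquiv_proj]
    simp
  · intro n ℓ hℓ hℓN hℓS x y hxy
    obtain ⟨v, rfl⟩ := (torsionModel N).projTorsion_surjective (pow_pos hp.pos n) x
    have hy : y = (torsionModel N).projTorsion (pow_pos hp.pos n)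
        ((torsionModel N).heckeAway S (CuspForm.heckeAlgebra.T hℓ hℓN hℓS) v) := by
      refine Subtype.ext ?_
      rw [hxy, TorsionModel.coe_projTorsion, TorsionModel.coe_projTorsion,
        TorsionModel.heckeAway_T]
      exact (torsionModel N).proj_T _ (pow_pos hp.pos n) ⟨ℓ, hℓ⟩ hℓN v
    rw [hy, TorsionModel.torsionEquiv_proj, TorsionModel.torsionEquiv_proj,
      TorsionModel.redMod_hecke]
  · intro n
    have hfin := (torsionModel N).torsion_finite (pow_pos hp.pos n)
    choose E hE hfix using fun x : JZero N => exists_finiteDimensional_fixing N x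
    have := hfin.fintype
    have : ∀ x : {x : JZero N | ((p ^ n : ℕ) : ℤ) • x = 0}, FiniteDimensional ℚ (E x.1) :=
      fun x => hE x.1
    refine ⟨⨆ x : {x : JZero N | ((p ^ n : ℕ) : ℤ) • x = 0}, E x.1,
      IntermediateField.finiteDimensional_iSup_of_finite, fun σ hσ x hx => ?_⟩
    refine hfix x σ ((IntermediateField.mem_fixingSubgroup_iff _ _).mpr fun a ha => hσ a ?_)
    exact le_iSup (fun x : {x : JZero N | ((p ^ n : ℕ) : ℤ) • x = 0} => E x.1)
      ⟨x, (natCast_zsmul x (p ^ n)).trans hx⟩ ha

end FermatAgent.ModCurveTorsion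

end
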