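import Fermat.Agent.ModCurve.Torsion.Construction

/-!
The torsion model of `J₀(N)(ℚ̄)`, commutativity and Galois equivariance of its Hecke operators
and smoothness of the Galois action.
-/

set_option autoImplicit false

noncomputable section

namespace FermatAgent.ModCurveTorsion

open ModularCurve

variable (N : ℕ) [NeZero N]

theorem nonempty_torsionModel : Nonempty (TorsionModel N) := ⟨constructedTorsionModel N⟩

/-- A chosen torsion model of `JZero N`. -/
def torsionModel : TorsionModel N := (nonempty_torsionModel N).some

theorem heckeOperatorsCommuteBar : HeckeOperatorsCommuteBar N := heckeOperatorsCommuteBar_proof N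

theorem galois_smul_heckeOperatorBar (σ : AlgebraicClosure ℚ ≃ₐ[ℚ] AlgebraicClosure ℚ)
    (ℓ : Nat.Primes) (x : JZero N) :
    σ • heckeOperatorBar N ℓ x = heckeOperatorBar N ℓ (σ • x) := by
  have : NeZero (ℓ : ℕ) := ⟨ℓ.2.ne_zero⟩
  rw [heckeOperatorBar_apply, heckeOperatorBar_apply]
  exact galois_smul_heckeOperatorAlong N ℓ σ x

/-- Every point of `JZero N` is fixed by the Galois group of a finite extension of `ℚ`. -/
theorem exists_finiteDimensional_fixing (x : JZero N) :
    ∃ E : IntermediateField ℚ (AlgebraicClosure ℚ), FiniteDimensional ℚ E ∧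
      ∀ σ ∈ E.fixingSubgroup, σ • x = x :=
  exists_fixing_point N x

end FermatAgent.ModCurveTorsion

end
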