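import Fermat.Agent.ModCurve.Torsion.AtkinLehner
import Fermat.Prelude.Def_CuspForm_HeckeAlgebra

/-!
The action of the weight-two Hecke algebra on the lattice of integral parabolic homomorphisms,
deduced from Hecke equivariance of the period map and Eichler-Shimura.
-/

set_option autoImplicit false

noncomputable section

namespace FermatAgent.ModCurveTorsion

open CongruenceSubgroup FermatAgent.Periods ModularCurve.Period ModularCurve
open scoped MatrixGroups

variable (N : ℕ) [NeZero N]

local notation "S₂" => CuspForm (Gamma0 N) 2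
local notation "P_ℂ" => parabolicHoms ℂ (Gamma0 N) ℂ
local notation "Λ" => parabolicHoms ℤ (Gamma0 N) ℤ

/-- Hecke equivariance of the period map. -/
structure PeriodEquivariance : Prop where
  linear : ExistsPeriodMapLinear N
  map_T : ∀ {p : ℕ} (hp : p.Prime) (hpN : ¬ p ∣ N) (f : S₂),
    periodMap N (CuspForm.heckeTLin 2 hp hpN f) = heckeHomT ℂ N hp hpN (periodMap N f)
  map_U : ∀ {q : ℕ} [NeZero q] (hqN : q ∣ N) (f : S₂),
    periodMap N (CuspForm.heckeULin 2 hqN f) = heckeHomU ℂ N hqN (periodMap N f)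

/-- Eichler-Shimura for the pair of period maps. -/
def EichlerShimuraBij : Prop :=
  Function.Injective (periodHomPair N) ∧ LinearMap.range (periodHomPair N) = P_ℂ

variable {N}

theorem PeriodEquivariance.periodHomPair_of_comm (h : PeriodEquivariance N)
    (t : Module.End ℂ S₂) (u : (Additive (Gamma0 N) →+ ℂ) →ₗ[ℂ] (Additive (Gamma0 N) →+ ℂ))
    (htu : ∀ f, periodMap N (t f) = u (periodMap N f))
    (huc : ∀ φ, u (charInvolution N ℂ ℂ φ) = charInvolution N ℂ ℂ (u φ)) (x : S₂ × S₂) :
    periodHomPair N (t x.1, t x.2) = u (periodHomPair N x) := by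
  obtain ⟨pml, hpml, hdef⟩ := periodHomPair_def N h.linear
  rw [hdef]
  simp only [LinearMap.coprod_apply, LinearMap.comp_apply, LinearMap.add_apply,
    LinearMap.sub_apply, LinearMap.id_apply, hpml, htu, map_add, map_sub, huc]

/-- The casts of integral parabolic homs. -/
def castHom : (Λ) →+ (Additive (Gamma0 N) →+ ℂ) where
  toFun φ := (Int.castAddHom ℂ).comp φ.1
  map_zero' := by ext; simp
  map_add' φ ψ := by ext; simp

omit [NeZero N] in
theorem castHom_mem (φ : Λ) : castHom φ ∈ P_ℂ := fun γ hγ => by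
  show ((φ.1 (Additive.ofMul γ) : ℤ) : ℂ) = 0
  rw [φ.2 γ hγ, Int.cast_zero]

omit [NeZero N] in
theorem castHom_injective : Function.Injective (castHom (N := N)) := fun _ _ h =>
  Subtype.ext (AddMonoidHom.ext fun x => Int.cast_injective (α := ℂ) (DFunLike.congr_fun h x))

/-- Operators on the space of parabolic homs preserving the integral lattice. -/
def latticeStable : Subalgebra ℤ (Module.End ℂ P_ℂ) where
  carrier := {E | ∀ φ : Λ, ∃ ψ : Λ, (E ⟨castHom φ, castHom_mem φ⟩ : Additive (Gamma0 N) →+ ℂ) =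
    castHom ψ}
  mul_mem' := by
    intro E E' hE hE' φ
    obtain ⟨ψ, hψ⟩ := hE' φ
    obtain ⟨χ, hχ⟩ := hE ψ
    refine ⟨χ, ?_⟩
    rw [Module.End.mul_apply,
      show E' ⟨castHom φ, castHom_mem φ⟩ = ⟨castHom ψ, castHom_mem ψ⟩ from Subtype.ext hψ, hχ]
  add_mem' := by
    intro E E' hE hE' φ
    obtain ⟨ψ, hψ⟩ := hE φ
    obtain ⟨χ, hχ⟩ := hE' φ
    exact ⟨ψ + χ, by rw [LinearMap.add_apply, Submodule.coe_add, hψ, hχ, map_add]⟩
  algebraMap_mem' n φ := ⟨n • φ, by
    rw [map_zsmul, Algebra.algebraMap_eq_smul_one, LinearMap.smul_apply, Module.End.one_apply,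
      Submodule.coe_smul_of_tower]⟩

omit [NeZero N] in
theorem latticeStable_existsUnique (E : latticeStable (N := N)) (φ : Λ) :
    ∃! ψ : Λ, (E.1 ⟨castHom φ, castHom_mem φ⟩ : Additive (Gamma0 N) →+ ℂ) = castHom ψ := by
  obtain ⟨ψ, hψ⟩ := E.2 φ
  exact ⟨ψ, hψ, fun χ hχ => castHom_injective (hχ.symm.trans hψ)⟩

/-- Restriction of a stable operator to the lattice. -/
def latticeRestrictFun (E : latticeStable (N := N)) (φ : Λ) : Λ :=
  (latticeStable_existsUnique E φ).choose

omit [NeZero N] in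
theorem castHom_latticeRestrictFun (E : latticeStable (N := N)) (φ : Λ) :
    castHom (latticeRestrictFun E φ) =
      (E.1 ⟨castHom φ, castHom_mem φ⟩ : Additive (Gamma0 N) →+ ℂ) :=
  (latticeStable_existsUnique E φ).choose_spec.1.symm

/-- Restriction to the lattice as a ring homomorphism. -/
def latticeRestrict : latticeStable (N := N) →+* Module.End ℤ Λ where
  toFun E :=
    (AddMonoidHom.mk' (latticeRestrictFun E) fun φ ψ => castHom_injective <| by
      rw [map_add, castHom_latticeRestrictFun, castHom_latticeRestrictFun,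
        castHom_latticeRestrictFun, ← Submodule.coe_add, ← map_add]
      exact congrArg (fun v => ((E.1 v : P_ℂ) : Additive (Gamma0 N) →+ ℂ))
        (Subtype.ext (map_add castHom φ ψ))).toIntLinearMap
  map_one' := LinearMap.ext fun φ => castHom_injective <| by
    show castHom (latticeRestrictFun 1 φ) = castHom φ
    rw [castHom_latticeRestrictFun]
    rfl
  map_mul' E E' := LinearMap.ext fun φ => castHom_injective <| by
    show castHom (latticeRestrictFun (E * E') φ) =
      castHom (latticeRestrictFun E (latticeRestrictFun E' φ))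
    rw [castHom_latticeRestrictFun, castHom_latticeRestrictFun]
    exact congrArg (fun v => ((E.1 v : P_ℂ) : Additive (Gamma0 N) →+ ℂ))
      (Subtype.ext (castHom_latticeRestrictFun E' φ).symm)
  map_zero' := LinearMap.ext fun φ => castHom_injective <| by
    show castHom (latticeRestrictFun 0 φ) = castHom 0
    rw [castHom_latticeRestrictFun, map_zero]
    rfl
  map_add' E E' := LinearMap.ext fun φ => castHom_injective <| by
    show castHom (latticeRestrictFun (E + E') φ) =
      castHom (latticeRestrictFun E φ + latticeRestrictFun E' φ)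
    rw [map_add, castHom_latticeRestrictFun, castHom_latticeRestrictFun,
      castHom_latticeRestrictFun]
    rfl

section Period

variable (hES : EichlerShimuraBij N)

/-- `S × S ≃ parabolicHoms`. -/
def periodEquiv : (S₂ × S₂) ≃ₗ[ℂ] P_ℂ :=
  (LinearEquiv.ofInjective (periodHomPair N) hES.1).trans (LinearEquiv.ofEq _ _ hES.2)

omit [NeZero N] in
theorem coe_periodEquiv (x : S₂ × S₂) :
    (periodEquiv hES x : Additive (Gamma0 N) →+ ℂ) = periodHomPair N x := rfl

/-- An endomorphism of cusp forms acting diagonally on parabolic homs. -/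
def diagOp : Module.End ℂ S₂ →ₐ[ℤ] Module.End ℂ P_ℂ where
  toFun t := (periodEquiv hES).conj (t.prodMap t)
  map_one' := LinearMap.ext fun v => by
    simp [LinearEquiv.conj_apply_apply]
  map_mul' t t' := LinearMap.ext fun v => by
    simp [LinearEquiv.conj_apply_apply]
  map_zero' := LinearMap.ext fun v => by simp
  map_add' t t' := LinearMap.ext fun v => by
    simp only [LinearEquiv.conj_apply_apply, LinearMap.add_apply, ← map_add]
    rfl
  commutes' n := LinearMap.ext fun v => by
    simp only [Algebra.algebraMap_eq_smul_one, LinearEquiv.conj_apply_apply, LinearMap.smul_apply,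
      Module.End.one_apply]
    rw [show ((n • (1 : Module.End ℂ S₂)).prodMap (n • (1 : Module.End ℂ S₂)))
      ((periodEquiv hES).symm v) = n • (periodEquiv hES).symm v from rfl, map_zsmul,
      LinearEquiv.apply_symm_apply]

omit [NeZero N] in
theorem diagOp_apply_periodEquiv (t : Module.End ℂ S₂) (x : S₂ × S₂) :
    diagOp hES t (periodEquiv hES x) = periodEquiv hES (t x.1, t x.2) := by
  show (periodEquiv hES).conj (t.prodMap t) _ = _
  simp [LinearEquiv.conj_apply_apply, LinearMap.prodMap_apply]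

omit [NeZero N] in
theorem diagOp_injective : Function.Injective (diagOp hES) := by
  intro t t' h
  refine LinearMap.ext fun f => ?_
  have h1 := LinearMap.congr_fun h (periodEquiv hES (f, 0))
  rw [diagOp_apply_periodEquiv, diagOp_apply_periodEquiv] at h1
  exact congrArg Prod.fst ((periodEquiv hES).injective h1)

theorem diagOp_eq (h : PeriodEquivariance N) (t : Module.End ℂ S₂)
    (u : (Additive (Gamma0 N) →+ ℂ) →ₗ[ℂ] (Additive (Gamma0 N) →+ ℂ))
    (htu : ∀ f, periodMap N (t f) = u (periodMap N f))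
    (huc : ∀ φ, u (charInvolution N ℂ ℂ φ) = charInvolution N ℂ ℂ (u φ)) (v : P_ℂ) :
    (diagOp hES t v : Additive (Gamma0 N) →+ ℂ) = u v := by
  obtain ⟨x, rfl⟩ := (periodEquiv hES).surjective v
  rw [diagOp_apply_periodEquiv, coe_periodEquiv, coe_periodEquiv,
    h.periodHomPair_of_comm t u htu huc]

variable (h : PeriodEquivariance N)

include h in
theorem diagOp_T_apply {p : ℕ} (hp : p.Prime) (hpN : ¬ p ∣ N) (φ : Λ) :
    (diagOp hES (CuspForm.heckeTLin 2 hp hpN) ⟨castHom φ, castHom_mem φ⟩ :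
        Additive (Gamma0 N) →+ ℂ) =
      castHom ⟨heckeHomT ℤ N hp hpN φ.1, heckeHomT_mem_parabolicHoms N hp hpN φ.2⟩ := by
  rw [diagOp_eq hES h _ (heckeHomT ℂ N hp hpN) (h.map_T hp hpN)
    (fun ψ => heckeHomT_charInvolution N hp hpN ψ)]
  refine AddMonoidHom.ext fun x => ?_
  exact DFunLike.congr_fun (heckeHomT_map (R := ℤ) N hp hpN (Int.castAddHom ℂ) φ.1) x

include h in
theorem diagOp_U_apply {q : ℕ} [NeZero q] (hqN : q ∣ N) (φ : Λ) :
    (diagOp hES (CuspForm.heckeULin 2 hqN) ⟨castHom φ, castHom_mem φ⟩ :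
        Additive (Gamma0 N) →+ ℂ) =
      castHom ⟨heckeHomU ℤ N hqN φ.1, heckeHomU_mem_parabolicHoms N hqN φ.2⟩ := by
  rw [diagOp_eq hES h _ (heckeHomU ℂ N hqN) (h.map_U hqN)
    (fun ψ => heckeHomU_charInvolution N hqN ψ)]
  refine AddMonoidHom.ext fun x => ?_
  exact DFunLike.congr_fun (heckeHomU_map (R := ℤ) N hqN (Int.castAddHom ℂ) φ.1) x

include h in
theorem heckeAlgebra_le_comap_latticeStable :
    CuspForm.heckeAlgebra N 2 (∅ : Set ℕ) ≤ (latticeStable (N := N)).comap (diagOp hES) := by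
  refine Algebra.adjoin_le ?_
  rintro t (⟨ℓ, hℓ, hℓN, -, rfl⟩ | ⟨q, hqN, hq, -, rfl⟩) φ
  · exact ⟨_, diagOp_T_apply hES h hℓ hℓN φ⟩
  · have : NeZero q := ⟨hq.ne_zero⟩
    exact ⟨_, diagOp_U_apply hES h hqN φ⟩

/-- The Hecke algebra on the lattice. -/
def heckeOnLattice : CuspForm.heckeAlgebra N 2 (∅ : Set ℕ) →+* Module.End ℤ Λ :=
  latticeRestrict.comp (((diagOp hES).comp (CuspForm.heckeAlgebra N 2 (∅ : Set ℕ)).val).codRestrict
    latticeStable fun t => heckeAlgebra_le_comap_latticeStable hES h t.2).toRingHom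

theorem castHom_heckeOnLattice (t : CuspForm.heckeAlgebra N 2 (∅ : Set ℕ)) (φ : Λ) :
    castHom (heckeOnLattice hES h t φ) =
      (diagOp hES t.1 ⟨castHom φ, castHom_mem φ⟩ : Additive (Gamma0 N) →+ ℂ) :=
  castHom_latticeRestrictFun _ φ

theorem heckeOnLattice_T {p : ℕ} (hp : p.Prime) (hpN : ¬ p ∣ N) (φ : Λ) :
    ((heckeOnLattice hES h (CuspForm.heckeAlgebra.T hp hpN (Set.notMem_empty p)) φ : Λ) :
        Additive (Gamma0 N) →+ ℤ) = heckeHomT ℤ N hp hpN φ.1 := by
  have key : heckeOnLattice hES h (CuspForm.heckeAlgebra.T hp hpN (Set.notMem_empty p)) φ =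
      (⟨heckeHomT ℤ N hp hpN φ.1, heckeHomT_mem_parabolicHoms N hp hpN φ.2⟩ : Λ) := by
    apply castHom_injective
    rw [castHom_heckeOnLattice, CuspForm.heckeAlgebra.coe_T]
    exact diagOp_T_apply hES h hp hpN φ
  rw [key]

theorem heckeOnLattice_U {q : ℕ} (hq : q.Prime) [NeZero q] (hqN : q ∣ N) (φ : Λ) :
    ((heckeOnLattice hES h (CuspForm.heckeAlgebra.U hq hqN (Set.notMem_empty q)) φ : Λ) :
        Additive (Gamma0 N) →+ ℤ) = heckeHomU ℤ N hqN φ.1 := by
  have key : heckeOnLattice hES h (CuspForm.heckeAlgebra.U hq hqN (Set.notMem_empty q)) φ =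
      (⟨heckeHomU ℤ N hqN φ.1, heckeHomU_mem_parabolicHoms N hqN φ.2⟩ : Λ) := by
    apply castHom_injective
    rw [castHom_heckeOnLattice, CuspForm.heckeAlgebra.coe_U]
    exact diagOp_U_apply hES h hqN φ
  rw [key]

theorem heckeOnLattice_injective
    (hspan : P_ℂ ≤ Submodule.span ℂ (Set.range (castHom (N := N)))) :
    Function.Injective (heckeOnLattice hES h) := by
  intro t t' htt
  refine Subtype.ext (diagOp_injective hES (LinearMap.ext fun v => ?_))
  have hv : ∀ w ∈ Submodule.span ℂ (Set.range (castHom (N := N))), ∀ hw : w ∈ P_ℂ,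
      diagOp hES t.1 ⟨w, hw⟩ = diagOp hES t'.1 ⟨w, hw⟩ := by
    intro w hw
    induction hw using Submodule.span_induction with
    | mem w hw =>
      obtain ⟨φ, rfl⟩ := hw
      intro hw
      refine Subtype.ext ?_
      rw [← castHom_heckeOnLattice hES h t φ, ← castHom_heckeOnLattice hES h t' φ, htt]
    | zero => intro hw; simp [show (⟨0, hw⟩ : P_ℂ) = 0 from rfl]
    | add a b ha hb iha ihb =>
      intro hab
      have ha' : a ∈ P_ℂ := (Submodule.span_le.mpr (Set.range_subset_iff.mpr castHom_mem)) ha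
      have hb' : b ∈ P_ℂ := (Submodule.span_le.mpr (Set.range_subset_iff.mpr castHom_mem)) hb
      rw [show (⟨a + b, hab⟩ : P_ℂ) = ⟨a, ha'⟩ + ⟨b, hb'⟩ from rfl, map_add, map_add, iha ha',
        ihb hb']
    | smul c a ha iha =>
      intro hca
      have ha' : a ∈ P_ℂ := (Submodule.span_le.mpr (Set.range_subset_iff.mpr castHom_mem)) ha
      rw [show (⟨c • a, hca⟩ : P_ℂ) = c • ⟨a, ha'⟩ from rfl, map_smul, map_smul, iha ha']
  exact hv v.1 (hspan v.2) v.2

end Period

end FermatAgent.ModCurveTorsion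

end
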