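import Fermat.Agent.ModCurve.Torsion.HeckeChar
import Fermat.Agent.ModCurve.Torsion.Lattice
import Fermat.Agent.ModCurve.Group.Rank
import Fermat.Agent.ModCurve.Forms.Genus
import Fermat.Agent.Periods.WeightTwo

/-!
The torsion of `Pic⁰` of `X₀(N)` over `ℂ` as reductions of a lattice of rank `2g` with an action
of the Hecke algebra.
-/

set_option autoImplicit false

noncomputable section

namespace FermatAgent.ModCurveTorsion

open CongruenceSubgroup AlgebraicCurve ModularCurve ModularCurve.Period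
open FermatAgent.ModCurveGroup FermatAgent.Periods
open FermatAgent.ModCurve.Points (FieldC)
open scoped MatrixGroups

variable (N : ℕ) [NeZero N]

local notation "S₂" => CuspForm (Gamma0 N) 2
local notation "P_ℂ" => parabolicHoms ℂ (Gamma0 N) ℂ
local notation "Λ" => parabolicHoms ℤ (Gamma0 N) ℤ

theorem eichlerShimuraBij : EichlerShimuraBij N :=
  ⟨FermatAgent.ModCurve.Forms.periodHomPair_injective N,
    FermatAgent.ModCurve.Forms.range_periodHomPair N⟩

theorem periodEquivariance : PeriodEquivariance N :=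
  ⟨FermatAgent.Periods.existsPeriodMapLinear N,
    fun hp hpN f => FermatAgent.Periods.periodMap_heckeTLin hp hpN f,
    fun hqN f => FermatAgent.Periods.periodMap_heckeULin hqN f⟩

variable (R : Type*) [CommRing R]

/-- `w_N` on parabolic homomorphisms. -/
def wParabolic (A : Type*) [AddCommGroup A] [Module R A] :
    parabolicHoms R (Gamma0 N) A ≃ₗ[R] parabolicHoms R (Gamma0 N) A :=
  LinearEquiv.ofInvolutive
    ((wInvolution N R A).restrict fun φ (hφ : φ ∈ parabolicHoms R (Gamma0 N) A) =>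
      wInvolution_mem_parabolicHoms hφ)
    fun φ => Subtype.ext (wInvolution_wInvolution (R := R) φ.1)

/-- The lattice in coordinates, twisted by `w_N`. -/
def latticeCoord : Λ ≃ₗ[ℤ] (Fin (2 * genusX0 N) → ℤ) :=
  (wParabolic N ℤ ℤ).trans (parabolicHomsEquivPi N ℤ ℤ)

/-- The space of parabolic homomorphisms in coordinates, twisted by `w_N`. -/
def complexCoord : P_ℂ ≃ₗ[ℂ] (Fin (2 * genusX0 N) → ℂ) :=
  (wParabolic N ℂ ℂ).trans (parabolicHomsEquivPi N ℂ ℂ)

theorem complexCoord_castHom (φ : Λ) :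
    complexCoord N ⟨castHom φ, castHom_mem φ⟩ = fun i => ((latticeCoord N φ i : ℤ) : ℂ) := by
  funext i
  obtain ⟨γ, hγ⟩ := homProj_surjective (Gamma0 N) (basisH1X0 N i)
  simp only [complexCoord, latticeCoord, LinearEquiv.trans_apply]
  rw [parabolicHomsEquivPi_apply N ℂ ℂ _ i hγ, parabolicHomsEquivPi_apply N ℤ ℤ _ i hγ]
  rfl

theorem span_castHom : P_ℂ ≤ Submodule.span ℂ (Set.range (castHom (N := N))) := by
  intro φ hφ
  classical
  set c := complexCoord N ⟨φ, hφ⟩ with hc
  have h : (⟨φ, hφ⟩ : P_ℂ) = ∑ i, c i •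
      (⟨castHom ((latticeCoord N).symm (Pi.single i 1)), castHom_mem _⟩ : P_ℂ) := by
    refine (complexCoord N).injective ?_
    rw [map_sum, ← hc]
    simp only [map_smul, complexCoord_castHom, LinearEquiv.apply_symm_apply]
    funext j
    simp [Finset.sum_apply, Pi.single_apply, apply_ite (Int.cast : ℤ → ℂ)]
  have := congrArg Subtype.val h
  rw [Submodule.coe_sum] at this
  rw [show φ = _ from this]
  exact Submodule.sum_mem _ fun i _ => Submodule.smul_mem _ _ (Submodule.subset_span ⟨_, rfl⟩)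

/-- The Hecke algebra on the coordinate lattice. -/
def latticeHecke :
    CuspForm.heckeAlgebra N 2 (∅ : Set ℕ) →+* Module.End ℤ (Fin (2 * genusX0 N) → ℤ) :=
  (latticeCoord N).conjRingEquiv.toRingHom.comp
    (heckeOnLattice (eichlerShimuraBij N) (periodEquivariance N))

theorem latticeHecke_apply (t : CuspForm.heckeAlgebra N 2 (∅ : Set ℕ)) (φ : Λ) :
    latticeHecke N t (latticeCoord N φ) =
      latticeCoord N (heckeOnLattice (eichlerShimuraBij N) (periodEquivariance N) t φ) := by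
  simp [latticeHecke]

theorem latticeHecke_injective : Function.Injective (latticeHecke N) :=
  (latticeCoord N).conjRingEquiv.injective.comp
    (heckeOnLattice_injective _ _ (span_castHom N))

/-- Eichler-Shimura in coordinates. -/
def latticeRealization : (Fin (2 * genusX0 N) → ℂ) ≃ₗ[ℂ] S₂ × S₂ :=
  (complexCoord N).symm.trans (periodEquiv (eichlerShimuraBij N)).symm

theorem latticeRealization_hecke (t : CuspForm.heckeAlgebra N 2 (∅ : Set ℕ))
    (v : Fin (2 * genusX0 N) → ℤ) :
    latticeRealization N (fun i => ((latticeHecke N t v i : ℤ) : ℂ)) =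
      ((t : Module.End ℂ S₂) (latticeRealization N fun i => ((v i : ℤ) : ℂ)).1,
        (t : Module.End ℂ S₂) (latticeRealization N fun i => ((v i : ℤ) : ℂ)).2) := by
  obtain ⟨φ, rfl⟩ := (latticeCoord N).surjective v
  rw [latticeHecke_apply, ← complexCoord_castHom, ← complexCoord_castHom]
  simp only [latticeRealization, LinearEquiv.trans_apply, LinearEquiv.symm_apply_apply]
  set x := (periodEquiv (eichlerShimuraBij N)).symm ⟨castHom φ, castHom_mem φ⟩ with hx
  rw [LinearEquiv.symm_apply_eq, ← diagOp_apply_periodEquiv, hx, LinearEquiv.apply_symm_apply]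
  exact Subtype.ext (castHom_heckeOnLattice _ _ t φ)

variable {N}

/-- The character modulo `n` attached to a lattice vector. -/
def charMod (n : ℕ) (v : Fin (2 * genusX0 N) → ℤ) :
    {φ : Additive (Gamma0 N) →+ ZMod n // KillsEP (Gamma0 N) φ} :=
  (killsEPEquivPi N (ZMod n)).symm fun i => (v i : ZMod n)

omit [NeZero N] in
theorem killsEP_of_mem_parabolicHoms {A : Type*} [AddCommGroup A] [IsAddTorsionFree A]
    {φ : Additive (Gamma0 N) →+ A} (hφ : φ ∈ parabolicHoms ℤ (Gamma0 N) A) :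
    KillsEP (Gamma0 N) φ :=
  (killsEP_iff_isParabolicHom (Gamma0 N) φ).mpr ((mem_parabolicHoms_iff).mp hφ)

theorem coe_charMod (n : ℕ) (φ : Λ) :
    (charMod n (parabolicHomsEquivPi N ℤ ℤ φ)).1 = (Int.castAddHom (ZMod n)).comp φ.1 := by
  have h : KillsEP (Gamma0 N) ((Int.castAddHom (ZMod n)).comp φ.1) := fun γ hγ => by
    rw [AddMonoidHom.comp_apply, killsEP_of_mem_parabolicHoms φ.2 γ hγ, map_zero]
  suffices charMod n (parabolicHomsEquivPi N ℤ ℤ φ) = ⟨_, h⟩ by rw [this]
  rw [charMod, Equiv.symm_apply_eq]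
  funext i
  obtain ⟨γ, hγ⟩ := homProj_surjective (Gamma0 N) (basisH1X0 N i)
  rw [killsEPEquivPi_apply N _ i hγ, parabolicHomsEquivPi_apply N ℤ ℤ _ i hγ]
  rfl

theorem charMod_add (n : ℕ) (v w : Fin (2 * genusX0 N) → ℤ) :
    (charMod n (v + w)).1 = (charMod n v).1 + (charMod n w).1 := by
  obtain ⟨φ, rfl⟩ := (parabolicHomsEquivPi N ℤ ℤ).surjective v
  obtain ⟨ψ, rfl⟩ := (parabolicHomsEquivPi N ℤ ℤ).surjective w
  rw [← map_add, coe_charMod, coe_charMod, coe_charMod]
  ext γ
  simp

theorem charMod_surjective {n : ℕ} (φ : Additive (Gamma0 N) →+ ZMod n)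
    (hφ : KillsEP (Gamma0 N) φ) : ∃ v, (charMod n v).1 = φ := by
  choose v hv using fun i => ZMod.intCast_surjective (killsEPEquivPi N (ZMod n) ⟨φ, hφ⟩ i)
  refine ⟨v, ?_⟩
  simp only [charMod, hv]
  rw [Equiv.symm_apply_apply]

theorem charMod_eq_zero_iff {n : ℕ} (v : Fin (2 * genusX0 N) → ℤ) :
    (charMod n v).1 = 0 ↔ ∀ i, (n : ℤ) ∣ v i := by
  obtain ⟨γ, hγ⟩ : ∃ γ : Fin (2 * genusX0 N) → Additive (Gamma0 N),
      ∀ i, homProj (Gamma0 N) (γ i) = basisH1X0 N i :=
    ⟨_, fun i => (homProj_surjective (Gamma0 N) (basisH1X0 N i)).choose_spec⟩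
  constructor
  · intro h i
    rw [← ZMod.intCast_zmod_eq_zero_iff_dvd]
    have h1 := congrFun ((killsEPEquivPi N (ZMod n)).apply_symm_apply fun i => (v i : ZMod n)) i
    rw [killsEPEquivPi_apply N _ i (hγ i)] at h1
    rw [← h1]
    exact DFunLike.congr_fun h (γ i)
  · intro h
    have h0 : KillsEP (Gamma0 N) (0 : Additive (Gamma0 N) →+ ZMod n) := fun _ _ => rfl
    suffices charMod n v = ⟨0, h0⟩ by rw [this]
    rw [charMod, Equiv.symm_apply_eq]
    funext i
    rw [killsEPEquivPi_apply N _ i (hγ i), (ZMod.intCast_zmod_eq_zero_iff_dvd _ _).mpr (h i)]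
    rfl

/-- The class with character `v mod n`. -/
def projFun (n : ℕ) [NeZero n] (v : Fin (2 * genusX0 N) → ℤ) : Pic0 ℂ (FieldC N) :=
  classOfChar n (charMod n v).1 (charMod n v).2

theorem isKummerChar_projFun (n : ℕ) [NeZero n] (v : Fin (2 * genusX0 N) → ℤ) :
    IsKummerChar n (projFun n v) (charMod n v).1 :=
  isKummerChar_classOfChar (charMod n v).2

/-- `Λ → Pic⁰[n]`. -/
def projC (n : ℕ) : (Fin (2 * genusX0 N) → ℤ) →+ Pic0 ℂ (FieldC N) :=
  if h : n = 0 then 0 else
    haveI : NeZero n := ⟨h⟩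
    AddMonoidHom.mk' (projFun n) fun v w => by
      have h1 := (isKummerChar_projFun n v).add (isKummerChar_projFun n w)
      rw [← charMod_add] at h1
      exact (isKummerChar_projFun n (v + w)).injective h1

theorem isKummerChar_projC (n : ℕ) [NeZero n] (v : Fin (2 * genusX0 N) → ℤ) :
    IsKummerChar n (projC n v) (charMod n v).1 := by
  rw [projC, dif_neg (NeZero.ne n)]
  exact isKummerChar_projFun n v

theorem mem_range_projC_iff {n : ℕ} (hn : 0 < n) (x : Pic0 ℂ (FieldC N)) :
    x ∈ Set.range (projC n) ↔ (n : ℤ) • x = 0 := by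
  have : NeZero n := ⟨hn.ne'⟩
  refine ⟨fun ⟨v, hv⟩ => hv ▸ (isKummerChar_projC n v).zsmul_eq_zero, fun hx => ?_⟩
  obtain ⟨φ, hφ⟩ := exists_isKummerChar hx
  obtain ⟨v, hv⟩ := charMod_surjective φ hφ.killsEP
  exact ⟨v, (hv ▸ isKummerChar_projC n v).injective hφ⟩

theorem projC_eq_zero_iff {n : ℕ} (hn : 0 < n) (v : Fin (2 * genusX0 N) → ℤ) :
    projC n v = 0 ↔ ∀ i, (n : ℤ) ∣ v i := by
  have : NeZero n := ⟨hn.ne'⟩
  rw [← charMod_eq_zero_iff]
  constructor
  · intro h
    exact (h ▸ isKummerChar_projC n v).unique_of_zero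
  · intro h
    exact (h ▸ isKummerChar_projC n v).eq_zero_of_char

theorem smul_projC {m n : ℕ} (hm : 0 < m) (hn : 0 < n) (v : Fin (2 * genusX0 N) → ℤ) :
    (m : ℤ) • projC (m * n) v = projC n v := by
  have : NeZero m := ⟨hm.ne'⟩
  have : NeZero n := ⟨hn.ne'⟩
  have h := isKummerChar_smul (isKummerChar_projC (m * n) v)
  suffices e : (ZMod.castHom (dvd_mul_left n m) (ZMod n)).toAddMonoidHom.comp (charMod (m * n) v).1 =
      (charMod n v).1 from (e ▸ h).injective (isKummerChar_projC n v)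
  obtain ⟨φ, rfl⟩ := (parabolicHomsEquivPi N ℤ ℤ).surjective v
  rw [coe_charMod, coe_charMod]
  ext γ
  simp

theorem charMod_latticeCoord (n : ℕ) (φ : Λ) :
    (charMod n (latticeCoord N φ)).1 =
      wInvolution N ℤ (ZMod n) ((Int.castAddHom (ZMod n)).comp φ.1) := by
  show (charMod n (parabolicHomsEquivPi N ℤ ℤ (wParabolic N ℤ ℤ φ))).1 = _
  rw [coe_charMod]
  rfl

theorem heckeOperatorAlong_projC_T {n : ℕ} (hn : 0 < n) {p : ℕ} (hp : p.Prime) (hpN : ¬ p ∣ N)
    [NeZero p] (v : Fin (2 * genusX0 N) → ℤ) :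
    heckeOperatorAlong ℂ N p (projC n v) =
      projC n (latticeHecke N (CuspForm.heckeAlgebra.T hp hpN (Set.notMem_empty p)) v) := by
  have : NeZero n := ⟨hn.ne'⟩
  obtain ⟨φ, rfl⟩ := (latticeCoord N).surjective v
  have h := isKummerChar_heckeT hp hpN (isKummerChar_projC n (latticeCoord N φ))
  refine h.injective ?_
  convert isKummerChar_projC n
    (latticeHecke N (CuspForm.heckeAlgebra.T hp hpN (Set.notMem_empty p)) (latticeCoord N φ)) using 1
  rw [latticeHecke_apply, charMod_latticeCoord, charMod_latticeCoord, heckeOnLattice_T,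
    wInvolution_wInvolution, heckeHomT_map]

theorem heckeOperatorAlong_projC_U {n : ℕ} (hn : 0 < n) {q : ℕ} (hq : q.Prime) (hqN : q ∣ N)
    [NeZero q] (v : Fin (2 * genusX0 N) → ℤ) :
    heckeOperatorAlong ℂ N q (projC n v) =
      projC n (latticeHecke N (CuspForm.heckeAlgebra.U hq hqN (Set.notMem_empty q)) v) := by
  have : NeZero n := ⟨hn.ne'⟩
  obtain ⟨φ, rfl⟩ := (latticeCoord N).surjective v
  have h := isKummerChar_heckeU hq hqN (isKummerChar_projC n (latticeCoord N φ))
  refine h.injective ?_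
  convert isKummerChar_projC n
    (latticeHecke N (CuspForm.heckeAlgebra.U hq hqN (Set.notMem_empty q)) (latticeCoord N φ)) using 1
  rw [latticeHecke_apply, charMod_latticeCoord, charMod_latticeCoord, heckeOnLattice_U,
    wInvolution_wInvolution, heckeHomU_map]

theorem rank_eq_genusFormula : ((2 * genusX0 N : ℕ) : ℚ) = 2 * genusFormula N := by
  rw [← genusX0_eq_genusFormula]
  push_cast
  ring

end FermatAgent.ModCurveTorsion

end
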