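import Fermat.Agent.ModCurve.Torsion.BaseToComplex
import Fermat.Agent.ModCurve.Torsion.ComplexModel
import Fermat.Agent.Curve.RR.Main
import Fermat.Agent.Curve.RR.Setup

/-!
Every torsion point of `J₀(N)(ℂ)` is defined over `ℚ̄`.
-/

set_option autoImplicit false
set_option maxHeartbeats 1600000

noncomputable section

namespace FermatAgent.ModCurveTorsion

open ModularCurve AlgebraicCurve FermatAgent.Curve.RR
open FermatAgent.Curve (IsFunctionField1)
open FermatAgent.Curve.Descent
open FermatAgent.ModCurve.Points (FieldC)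

local notation "ℚbar" => AlgebraicClosure ℚ

attribute [local instance] qbarAlgebraC qbarAlgebraFieldC fieldBarAlgebraC
  qbar_isScalarTower_const qbar_isScalarTower_ext qbar_isConstantExtension

variable (N : ℕ) [NeZero N]

theorem torsionC_finite {n : ℕ} (hn : 0 < n) :
    {x : Pic0 ℂ (FieldC N) | (n : ℤ) • x = 0}.Finite := by
  have hn' : (n : ℤ) ≠ 0 := by exact_mod_cast hn.ne'
  refine Set.Finite.subset (Set.finite_range
    fun w : Fin (2 * FermatAgent.ModCurveGroup.genusX0 N) → Fin n =>
      projC n fun i => ((w i : ℕ) : ℤ)) fun x hx => ?_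
  obtain ⟨v, rfl⟩ := (mem_range_projC_iff hn x).mpr hx
  refine ⟨fun i => ⟨(v i % n).toNat, ?_⟩, ?_⟩
  · have := Int.emod_lt_of_pos (v i) (show (0 : ℤ) < n by exact_mod_cast hn)
    omega
  · rw [← sub_eq_zero, ← map_sub, projC_eq_zero_iff hn]
    intro i
    have h0 := Int.emod_nonneg (v i) hn'
    refine ⟨-(v i / n), ?_⟩
    simp only [Pi.sub_apply, Int.toNat_of_nonneg h0]
    rw [Int.emod_def]
    ring

theorem smul_sub_mem_principal_of_smul_mk_eq {K F : Type*} [Field K] [Field F] [Algebra K F]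
    (g : SemilinearAut K F) (D : Divisor.degZero (K := K) (F := F))
    (h : g • Pic0.mk D = Pic0.mk D) :
    g • (D : Divisor K F) - (D : Divisor K F) ∈ Divisor.principal (K := K) (F := F) := by
  have h' := (QuotientAddGroup.eq (s := (Divisor.principal (K := K) (F := F)).addSubgroupOf _)).mp
    h.symm
  rw [AddSubgroup.mem_addSubgroupOf] at h'
  rwa [AddSubgroup.coe_add, AddSubgroup.coe_neg, neg_add_eq_sub] at h'

theorem exists_jBaseC_eq {n : ℕ} (hn : 0 < n) {x : Pic0 ℂ (FieldC N)} (hx : (n : ℤ) • x = 0) :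
    ∃ y : JZero N, jBaseC N y = x := by
  classical
  obtain ⟨D, rfl⟩ := Pic0.mk_surjective x
  obtain ⟨P₀⟩ := RRSetting.nonempty_place (K := ℚbar) (F := FieldBar N)
  set Pc := extPlace ℂ (FieldC N) P₀ with hPc
  let g : (ℂ ≃ₐ[ℚbar] ℂ) → SemilinearAut ℂ (FieldC N) :=
    fun τ => laurentAut (modularFunctionFieldFull N) τ
  have hgF : ∀ τ (y : FieldBar N),
      g τ • algebraMap (FieldBar N) (FieldC N) y = algebraMap (FieldBar N) (FieldC N) y :=
    fun τ y => laurentAut_smul_map ℚbar ℂ (modularFunctionFieldFull N) τ y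
  have hgP : ∀ τ, g τ • Pc = Pc := fun τ => smul_extPlace (g τ) (hgF τ) P₀
  -- the least twist with a section
  have hDdeg : Divisor.degree (D : Divisor ℂ (FieldC N)) = 0 := Divisor.mem_degZero.mp D.2
  let T : ℕ → Divisor ℂ (FieldC N) := fun d => (D : Divisor ℂ (FieldC N)) + Finsupp.single Pc (d : ℤ)
  have hTdeg : ∀ d, Divisor.degree (T d) = d := fun d => by
    simp only [T, map_add, hDdeg, zero_add]
    rw [Divisor.degree_single, RRSetting.deg_eq_one]
    simp
  have hex : ∃ d, ell (T d) ≠ 0 := by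
    refine ⟨genusFF ℂ (FieldC N), ?_⟩
    have := riemann_inequality (T (genusFF ℂ (FieldC N)))
    rw [hTdeg] at this
    omega
  set d := Nat.find hex with hd
  have hne : ell (T d) ≠ 0 := Nat.find_spec hex
  have hone : ell (T d) = 1 := by
    rcases Nat.eq_zero_or_eq_succ_pred d with h0 | hsucc
    · have := ell_le_degree_add_one (D := T d) (by rw [hTdeg]; positivity)
      rw [hTdeg, h0] at this
      rw [h0] at hne ⊢
      omega
    · set e := d.pred
      have he : ell (T e) = 0 := by
        by_contra hc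
        have := Nat.find_min' hex hc
        rw [← hd] at this
        omega
      have hT : T d = T e + Finsupp.single Pc 1 := by
        simp only [T, hsucc, add_assoc, ← Finsupp.single_add]
        push_cast
        ring_nf
      have := (FermatAgent.Curve.riemannRoch_step (T e) Pc).2
      rw [← hT] at this
      change ell (T d) ≤ ell (T e) + 1 at this
      omega
  obtain ⟨E, hE, hEp⟩ := ell_pos_iff.mp (Nat.pos_of_ne_zero hne)
  have hEone : ell E = 1 := (ell_eq_of_sub_mem_principal hEp).trans hone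
  -- the orbit of `E` is finite
  have key : ∀ τ σ, g τ • Pic0.mk D = g σ • Pic0.mk D → g τ • E = g σ • E := by
    intro τ σ h
    set h₀ := (g σ)⁻¹ * g τ with hh₀
    have hfix : h₀ • Pic0.mk D = Pic0.mk D := by
      rw [hh₀, mul_smul, h, inv_smul_smul]
    have hP : h₀ • Pc = Pc := by
      rw [hh₀, mul_smul, hgP, inv_smul_eq_iff, hgP]
    have hE' : h₀ • E = E := by
      refine eq_of_ell_eq_one hE (fun v => ?_) hEone ?_
      · rw [SemilinearAut.divisor_smul_apply]
        exact hE _
      · have h1 := SemilinearAut.smul_mem_principal h₀ hEp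
        have h2 := smul_sub_mem_principal_of_smul_mk_eq h₀ D hfix
        have e : h₀ • E - E = h₀ • (E - T d) + (h₀ • (D : Divisor ℂ (FieldC N)) - D) - (E - T d) := by
          simp only [T, smul_sub, smul_add, SemilinearAut.smul_single, hP]
          abel
        rw [e]
        exact sub_mem (add_mem h1 h2) hEp
    have := congrArg (g σ • ·) hE'
    simpa [hh₀, mul_smul] using this
  have horbit : (Set.range fun τ => g τ • E).Finite := by
    have hsub : (Set.range fun τ => g τ • Pic0.mk D) ⊆ {x | (n : ℤ) • x = 0} := by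
      rintro _ ⟨τ, rfl⟩
      show (n : ℤ) • (g τ • Pic0.mk D) = 0
      rw [← SemilinearAut.smul_zsmul, hx]
      exact smul_zero (A := Pic0 ℂ (FieldC N)) (g τ)
    have hfin := (torsionC_finite N hn).subset hsub
    choose! sec hsec using fun y (hy : y ∈ Set.range fun τ => g τ • Pic0.mk D) => hy
    refine (hfin.image fun y => g (sec y) • E).subset ?_
    rintro _ ⟨τ, rfl⟩
    exact ⟨g τ • Pic0.mk D, ⟨τ, rfl⟩, key _ _ (hsec _ ⟨τ, rfl⟩)⟩
  -- so its places come from `ℚ̄`
  have hplaces : ∀ Q ∈ E.support, Q ∈ Set.range (extPlace (K := ℚbar) (F := FieldBar N) ℂ (FieldC N)) := by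
    intro Q hQ
    obtain ⟨P, hP⟩ := exists_extPlace_eq_of_finite_orbit (K := ℚbar) (F := FieldBar N) g
      (fun τ a => baseAut_laurentAut ℚbar ℂ (modularFunctionFieldFull N) τ a) hgF (Q := Q) (by
      refine Set.Finite.subset (Set.Finite.biUnion horbit fun R _ => R.support.finite_toSet) ?_
      rintro _ ⟨τ, rfl⟩
      refine Set.mem_biUnion ⟨τ, rfl⟩ ?_
      rw [Finset.mem_coe, Finsupp.mem_support_iff, SemilinearAut.divisor_smul_apply_smul]
      exact Finsupp.mem_support_iff.mp hQ)
    exact ⟨P, hP⟩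
  obtain ⟨E₀, hE₀⟩ : ∃ E₀ : Divisor ℚbar (FieldBar N), divBaseC N E₀ = E := by
    refine ⟨E.comapDomain (extPlace (K := ℚbar) (F := FieldBar N) ℂ (FieldC N))
      extPlace_injective.injOn, ?_⟩
    exact Finsupp.mapDomain_comapDomain _ extPlace_injective _ hplaces
  have hdeg₀ : Divisor.degree (E₀ - Finsupp.single P₀ (d : ℤ)) = 0 := by
    have h1 := degree_eq_zero_of_mem_principal hEp
    rw [map_sub, hTdeg, ← hE₀, degree_divBaseC] at h1
    rw [map_sub, Divisor.degree_single, RRSetting.deg_eq_one]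
    simpa using h1
  refine ⟨Pic0.mk ⟨E₀ - Finsupp.single P₀ (d : ℤ), hdeg₀⟩, ?_⟩
  rw [jBaseC_mk]
  refine (QuotientAddGroup.eq (s := (Divisor.principal (K := ℂ) (F := FieldC N)).addSubgroupOf _)).mpr ?_
  rw [AddSubgroup.mem_addSubgroupOf]
  have hs : divBaseC N (Finsupp.single P₀ (d : ℤ)) = Finsupp.single Pc (d : ℤ) :=
    extDivisor_single P₀ _
  simp only [AddSubgroup.coe_add, AddSubgroup.coe_neg, map_sub, hE₀, hs]
  have e : -(E - Finsupp.single Pc (d : ℤ)) + (D : Divisor ℂ (FieldC N)) = -(E - T d) := by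
    simp only [T]
    abel
  rw [e]
  exact neg_mem hEp

end FermatAgent.ModCurveTorsion

end
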