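import Fermat.Agent.ModCurve.Torsion.KillsElliptic
import Fermat.Agent.ModCurve.Fun.FieldC

/-!
An invariant `n`-th root of an element of `ℂ(X₀(N))` is again in `ℂ(X₀(N))`: clear the finitely
many poles by powers of `j - c` and check the growth at the cusps.
-/

set_option autoImplicit false

noncomputable section

open scoped MatrixGroups Manifold
open UpperHalfPlane hiding I
open Filter Topology CongruenceSubgroup Function AlgebraicCurve

namespace FermatAgent.ModCurveTorsion

open FermatAgent.ModCurve.Points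
open FermatAgent.ModFun (levelRing levelToField qLaurentHom cuspRing jFun IsTame)
open FermatAgent.Periods (mob mob_mul)

local notation "ℍo" => UpperHalfPlane.upperHalfPlaneSet
local notation "M₂" => Matrix (Fin 2) (Fin 2) ℤ

variable {N : ℕ} [NeZero N]

/-- Two germwise equal functions agree at every common continuity point. -/
theorem eq_of_germEq {F G : ℂ → ℂ} (h : GermEq F G) {z : ℂ} (hz : z ∈ ℍo)
    (hF : ContinuousAt F z) (hG : ContinuousAt G z) : F z = G z :=
  ((hF.eventuallyEq_nhds_iff_eventuallyEq_nhdsNE hG).mp (h z hz)).eq_of_nhds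

theorem evalFun_levelToField (u : levelRing N) :
    GermEq (evalFun (levelToField N u)) ((u : ℍ → ℂ) ∘ ofComplex) := by
  set x := levelToField N u with hx
  have hd : toField N (evalDen x) ≠ 0 :=
    fun h => evalDen_ne_zero x (toField_injective N (h.trans (map_zero _).symm))
  have h1 : (x : LaurentSeries ℂ) * (toField N (evalDen x) : LaurentSeries ℂ) =
      (toField N (evalNum x) : LaurentSeries ℂ) := by
    rw [← IntermediateField.coe_mul, show x * toField N (evalDen x) = toField N (evalNum x) from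
      (eq_div_iff hd).mp (eq_evalNum_div_evalDen x)]
  have h2 : (⟨(u : ℍ → ℂ), FermatAgent.ModFun.levelRing_le_cuspRing N u.2⟩ : cuspRing) *
      ((evalDen x : regRing N) : cuspRing) = ((evalNum x : regRing N) : cuspRing) := by
    refine FermatAgent.ModFun.qLaurentHom_injective ?_
    rw [map_mul]
    exact h1
  intro z hz
  have hne : ∀ᶠ w in 𝓝[≠] z, evalC 1 (evalDen x) w ≠ 0 := by
    refine (meromorphicOrderAt_ne_top_iff_eventually_ne_zero
      (analyticAt_evalC 1 _ ⟨z, hz⟩).meromorphicAt).mp fun htop => ?_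
    refine evalDen_ne_zero x (germHom_injective ⟨z, hz⟩ 1 ?_)
    rw [map_zero, germHom_apply, MeroGerm.mk_eq_zero_iff]
    exact htop
  filter_upwards [hne] with w hw
  simp only [evalC, one_smul] at hw
  have h3 := congrFun (congrArg Subtype.val h2) (ofComplex w)
  simp only [evalFun, evalC, one_smul, Function.comp_apply, div_eq_iff hw]
  exact h3.symm

omit [NeZero N] in
theorem ellIndex_le_three [NeZero N] (z : ℍ) : ellIndex N z ≤ 3 := by
  refine (Nat.le_of_dvd (localMonodromy z).M_pos (ellIndex_dvd N z)).trans ?_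
  by_cases h0 : jFun z = 0
  · rw [localMonodromy_M_eq_three h0]
  · by_cases h1 : jFun z = 1728
    · rw [localMonodromy_M_eq_two h1]; norm_num
    · rw [localMonodromy_M_eq_one h0 h1]; norm_num

/-- An element of the regular ring vanishing to high order at the poles of `f`. -/
theorem exists_clearing (f : FieldC N) :
    ∃ P : regRing N, P ≠ 0 ∧ ∀ z : ℍ,
      (((3 * ((pointPlace N z).ord f).natAbs : ℕ) : ℤ) : WithTop ℤ) ≤
        meromorphicOrderAt (evalC 1 P) (z : ℂ) := by
  classical
  let m : Place ℂ (FieldC N) → ℕ := fun v => 3 * (v.ord f).natAbs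
  let c : Place ℂ (FieldC N) → ℂ := fun v => FermatAgent.Curve.valueAt v (FermatAgent.ModFun.jBar ℂ N)
  let S := (FermatAgent.Curve.divisorOf (K := ℂ) f).support
  let P : regRing N := ∏ v ∈ S, (jElt N - algebraMap ℂ (regRing N) (c v)) ^ m v
  have hfac : ∀ v, jElt N - algebraMap ℂ (regRing N) (c v) ≠ 0 := fun v h => by
    refine transcendental_jSubC N (c v) ?_
    rw [jSubC, h, map_zero]
    exact isAlgebraic_zero
  refine ⟨P, Finset.prod_ne_zero_iff.mpr fun v _ => pow_ne_zero _ (hfac v), fun z => ?_⟩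
  set v := pointPlace N z with hv
  by_cases hm : v ∈ S
  swap
  · rw [Finsupp.notMem_support_iff, FermatAgent.Curve.divisorOf_apply] at hm
    rw [hm]
    simpa using (analyticAt_evalC 1 P z).meromorphicOrderAt_nonneg
  have hc : c v = jFun z := by
    refine FermatAgent.Curve.valueAt_eq_of v (Or.inr ?_)
    rw [← jSubC_eq]
    exact ord_jSubC_pointPlace N z
  obtain ⟨Q, hQ⟩ : (jElt N - algebraMap ℂ (regRing N) (c v)) ^ m v ∣ P :=
    Finset.dvd_prod_of_mem _ hm
  set a := jElt N - algebraMap ℂ (regRing N) (c v) with ha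
  have hmul : evalC 1 P = evalC 1 a ^ m v * evalC 1 Q := by
    rw [hQ]
    funext w
    have hp : ∀ k : ℕ, evalC 1 (a ^ k) w = evalC 1 a w ^ k := fun k => by
      induction k with
      | zero => rfl
      | succ k ih => rw [pow_succ, pow_succ, ← ih]; rfl
    rw [Pi.mul_apply, Pi.pow_apply, ← hp]
    rfl
  have haz : evalC 1 a z = 0 := by
    rw [evalC_coe, one_smul]
    show jFun z - c v = 0
    rw [hc, sub_self]
  have h1 : (1 : WithTop ℤ) ≤ meromorphicOrderAt (evalC 1 a) (z : ℂ) := by
    have han := analyticAt_evalC 1 a z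
    rw [han.meromorphicOrderAt_eq]
    have h0 : analyticOrderAt (evalC 1 a) (z : ℂ) ≠ 0 :=
      fun h => (han.analyticOrderAt_eq_zero.mp h) haz
    cases hk : analyticOrderAt (evalC 1 a) (z : ℂ) with
    | top => simp
    | coe k =>
      rw [hk] at h0
      have : 1 ≤ k := Nat.one_le_iff_ne_zero.mpr fun hk0 => h0 (by rw [hk0]; rfl)
      exact WithTop.coe_le_coe.mpr (show (1 : ℤ) ≤ (k : ℤ) by exact_mod_cast this)
  rw [hmul, meromorphicOrderAt_mul
    ((analyticAt_evalC 1 a z).meromorphicAt.pow _) (analyticAt_evalC 1 Q z).meromorphicAt,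
    meromorphicOrderAt_pow (analyticAt_evalC 1 a z).meromorphicAt]
  refine le_add_of_le_of_nonneg ?_ (analyticAt_evalC 1 Q z).meromorphicOrderAt_nonneg
  cases hk : meromorphicOrderAt (evalC 1 a) (z : ℂ) with
  | top =>
    rcases Nat.eq_zero_or_pos (m v) with h | h
    · simp [m] at h
      simp [h, m]
    · have hm0 : ((m v : ℕ) : WithTop ℤ) ≠ 0 := Nat.cast_ne_zero.mpr h.ne'
      rw [WithTop.mul_top hm0]
      exact le_top
  | coe k =>
    rw [hk] at h1
    have hk1 : (1 : ℤ) ≤ k := WithTop.coe_le_coe.mp h1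
    show ((((m v : ℕ) : ℤ)) : WithTop ℤ) ≤ _
    exact_mod_cast le_mul_of_one_le_right (Int.natCast_nonneg (m v)) hk1

/-- An invariant `n`-th root of an element of the function field lies in the function field. -/
theorem exists_evalFun_eq {n : ℕ} (hn : n ≠ 0) {f : FieldC N} (hf : f ≠ 0) {g : ℂ → ℂ}
    (hg : MeromorphicOn g ℍo) (hgn : GermEq (g ^ n) (evalFun f))
    (hinv : ∀ γ : Gamma0 N, GermEq (g ∘ mob (slMat γ)) g) :
    ∃ u : FieldC N, GermEq (evalFun u) g := by
  obtain ⟨P, hP0, hP⟩ := exists_clearing f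
  set Pc := evalC 1 P with hPc
  have hPm : MeromorphicOn Pc ℍo := fun z hz => (analyticAt_evalC 1 P ⟨z, hz⟩).meromorphicAt
  set G := toMeromorphicNFOn (g * Pc) ℍo with hG
  have hgm : MeromorphicOn (g * Pc) ℍo := fun z hz => (hg z hz).mul (hPm z hz)
  have hGg : GermEq G (g * Pc) := fun z hz => hgm.toMeromorphicNFOn_eq_self_on_nhdsNE hz
  have hg0 : NowhereZero g := nowhereZero_of_pow hn hgn (nowhereZero_evalFun hf)
  have hGan : ∀ z : ℍ, AnalyticAt ℂ G (z : ℂ) := by
    intro z
    have hz : (z : ℂ) ∈ ℍo := z.2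
    rw [← (meromorphicNFOn_toMeromorphicNFOn (g * Pc) ℍo hz).meromorphicOrderAt_nonneg_iff_analyticAt,
      meromorphicOrderAt_congr (hGg _ hz), meromorphicOrderAt_mul (hg _ hz) (hPm _ hz)]
    obtain ⟨k, hk⟩ := WithTop.ne_top_iff_exists.mp (hg0 _ hz)
    have hord : meromorphicOrderAt (g ^ n) (z : ℂ) =
        ((ellIndex N z * (pointPlace N z).ord f : ℤ) : WithTop ℤ) := by
      rw [meromorphicOrderAt_congr (hgn _ hz), meromorphicOrderAt_evalFun hf]
    rw [meromorphicOrderAt_pow (hg _ hz), ← hk] at hord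
    norm_cast at hord
    have hell := ellIndex_le_three (N := N) z
    have hbound : -(((3 * ((pointPlace N z).ord f).natAbs : ℕ) : ℤ)) ≤ k := by
      have h1 : |(n : ℤ) * k| = (ellIndex N z : ℤ) * |(pointPlace N z).ord f| := by
        rw [hord, abs_mul, Nat.abs_cast]
      have h2 : |k| ≤ |(n : ℤ) * k| := by
        rw [abs_mul, Nat.abs_cast]
        exact le_mul_of_one_le_left (abs_nonneg k) (by exact_mod_cast Nat.one_le_iff_ne_zero.mpr hn)
      have h3 : (ellIndex N z : ℤ) * |(pointPlace N z).ord f| ≤ 3 * |(pointPlace N z).ord f| :=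
        mul_le_mul_of_nonneg_right (by exact_mod_cast hell) (abs_nonneg _)
      push_cast
      linarith [neg_abs_le k]
    rw [← hk]
    refine le_trans ?_ (add_le_add le_rfl (hP z))
    norm_cast
    omega
  -- invariance
  have hGinv : ∀ γ ∈ Gamma0 N, ∀ τ : ℍ, G ((γ • τ : ℍ) : ℂ) = G τ := by
    intro γ hγ τ
    have hdet : 0 < (slMat (⟨γ, hγ⟩ : Gamma0 N)).det := det_slMat_pos _
    have hmob : mob (slMat (⟨γ, hγ⟩ : Gamma0 N)) (τ : ℂ) = ((γ • τ : ℍ) : ℂ) :=
      (mob_eq_moeb γ _).trans (moeb_coe γ τ)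
    rw [← hmob]
    refine eq_of_germEq ((hGg.comp_mob hdet).trans (((hinv ⟨γ, hγ⟩).mul ?_).trans hGg.symm)) τ.2
      ?_ (hGan τ).continuousAt
    · refine GermEq.of_eqOn fun w hw => ?_
      simp only [hPc, evalC, one_smul, slMat, ofComplex_mob γ hw,
        evalH_smul _ hγ]
    · rw [← hmob] at *
      exact ContinuousAt.comp (g := G) (f := mob (slMat (⟨γ, hγ⟩ : Gamma0 N)))
        (hGan ⟨_, mob_mem hdet τ.2⟩).continuousAt (analyticAt_mob hdet τ.2).continuousAt
  -- growth at the cusps
  set F := f * toField N P ^ n with hF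
  have hF0 : F ≠ 0 :=
    mul_ne_zero hf (pow_ne_zero _ fun h => hP0 (toField_injective N (h.trans (map_zero _).symm)))
  have hGF : GermEq (G ^ n) (evalFun F) := by
    refine (hGg.pow n).trans ?_
    rw [mul_pow]
    exact (hgn.mul ((evalFun_toField P).symm.pow n)).trans
      (((GermEq.refl _).mul (evalFun_pow _ n).symm).trans (evalFun_mul _ _).symm)
  have htame : ∀ h : SL(2, ℤ), IsTame fun τ : ℍ => G ((h • τ : ℍ) : ℂ) := by
    intro h
    have hdet : 0 < (h : M₂).det := by simp
    obtain ⟨u, hu, hu0, hev⟩ := (meromorphicOrderAt_eq_int_iff (meromorphicAt_evalAtCusp h F)).mp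
      (meromorphicOrderAt_evalAtCusp h hF0)
    set k := ordCusp N h F with hk
    simp only [sub_zero, smul_eq_mul] at hev
    obtain ⟨δ, hδ, hball⟩ := Metric.eventually_nhds_iff_ball.mp ((eventually_nhdsWithin_iff.mp hev).and
      (hu.eventually_analyticAt.and
        (hu.continuousAt.norm.eventually (eventually_le_nhds (lt_add_one ‖u 0‖)))))
    have hN : (0 : ℝ) < N := Nat.cast_pos.mpr (NeZero.pos N)
    refine ⟨max 0 (-2 * Real.pi * k / N) / n, ?_⟩
    refine Asymptotics.IsBigO.of_bound ((‖u 0‖ + 1) + 1) ?_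
    obtain ⟨Y, hY⟩ : ∃ Y : ℝ, ∀ w : ℂ, Y ≤ w.im → Periodic.qParam (N : ℝ) w ∈ Metric.ball (0 : ℂ) δ := by
      refine ⟨-N * Real.log δ / (2 * Real.pi) + 1, fun w hw => ?_⟩
      rw [mem_ball_zero_iff, Periodic.norm_qParam, ← Real.lt_log_iff_exp_lt hδ, div_lt_iff₀ hN]
      have hw' : -N * Real.log δ / (2 * Real.pi) < w.im := by linarith
      rw [div_lt_iff₀ (by positivity)] at hw'
      linarith
    filter_upwards [(atImInfty_mem _).mpr ⟨max (Y + 1) 0, fun τ hτ => hτ⟩] with τ hτ
    have h' : max (Y + 1) 0 ≤ τ.im := hτ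
    have hτY : Y < τ.im := by linarith [le_max_left (Y + 1) 0]
    have hq := hball _ (hY (τ : ℂ) hτY.le)
    -- value of `G ^ n` at `h τ`
    have hval : G ((h • τ : ℍ) : ℂ) ^ n =
        Periodic.qParam (N : ℝ) (τ : ℂ) ^ k * u (Periodic.qParam (N : ℝ) (τ : ℂ)) := by
      have hmob : mob (h : M₂) (τ : ℂ) = ((h • τ : ℍ) : ℂ) := (mob_eq_moeb h _).trans (moeb_coe h τ)
      rw [← hmob]
      show ((G ^ n) ∘ mob (h : M₂)) (τ : ℂ) =
        (fun w => Periodic.qParam (N : ℝ) w ^ k * u (Periodic.qParam (N : ℝ) w)) (τ : ℂ)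
      have hev' : (evalFun F ∘ mob (h : M₂)) =ᶠ[𝓝 (τ : ℂ)]
          fun w => Periodic.qParam (N : ℝ) w ^ k * u (Periodic.qParam (N : ℝ) w) := by
        filter_upwards [(isOpen_lt continuous_const Complex.continuous_im).mem_nhds
          (show Y < (τ : ℂ).im from hτY), eventually_im_pos τ] with w hwY hw
        rw [Function.comp_apply, evalFun_mob_eq_evalAtCusp h F hw,
          (hball _ (hY w (le_of_lt hwY))).1 (Periodic.qParam_ne_zero w)]
      have hc1 : ContinuousAt ((G ^ n) ∘ mob (h : M₂)) (τ : ℂ) := by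
        refine ContinuousAt.comp ?_ (analyticAt_mob hdet τ.2).continuousAt
        exact ((hGan ⟨_, mob_mem hdet τ.2⟩).continuousAt).pow n
      refine ((hc1.eventuallyEq_nhds_iff_eventuallyEq_nhdsNE ?_).mp
        (((hGF.comp_mob hdet) _ τ.2).trans (hev'.filter_mono nhdsWithin_le_nhds))).eq_of_nhds
      exact ((Periodic.differentiable_qParam _).continuousAt.zpow₀ k
        (Or.inl (Periodic.qParam_ne_zero _))).mul
        (hq.2.1.continuousAt.comp (Periodic.differentiable_qParam _).continuousAt)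
    set a := max 0 (-2 * Real.pi * k / N) with ha
    set C := ‖u 0‖ + 1 with hC
    have hC1 : 1 ≤ C := le_add_of_nonneg_left (norm_nonneg _)
    have h1 : ‖G ((h • τ : ℍ) : ℂ)‖ ^ n ≤ C * Real.exp (a * τ.im) := by
      rw [← norm_pow, hval, norm_mul, mul_comm]
      refine mul_le_mul hq.2.2 ?_ (norm_nonneg _) (by positivity)
      rw [norm_zpow, Periodic.norm_qParam, ← Real.rpow_intCast, ← Real.exp_mul, Real.exp_le_exp,
        show -2 * Real.pi * ((τ : ℂ)).im / (N : ℝ) * (k : ℝ) =
          (-2 * Real.pi * k / N) * τ.im by rw [UpperHalfPlane.coe_im]; ring]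
      exact mul_le_mul_of_nonneg_right (le_max_right _ _) τ.im_pos.le
    rw [Real.norm_of_nonneg (Real.exp_pos _).le]
    set E := Real.exp (a / n * τ.im) with hE
    have hEn : E ^ n = Real.exp (a * τ.im) := by
      rw [hE, ← Real.exp_nat_mul]
      congr 1
      field_simp
    refine le_of_pow_le_pow_left₀ hn (by positivity) (h1.trans ?_)
    rw [mul_pow, hEn]
    refine mul_le_mul_of_nonneg_right (le_trans ?_ (le_self_pow₀ (by linarith) hn)) (Real.exp_pos _).le
    linarith
  let v : levelRing N := ⟨fun τ : ℍ => G (τ : ℂ), UpperHalfPlane.mdifferentiable_iff.mpr (by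
      refine DifferentiableOn.congr (f := G) (fun z hz => ?_) fun z hz => ?_
      · exact (hGan ⟨z, hz⟩).differentiableAt.differentiableWithinAt
      · simp [ofComplex_apply_of_im_pos hz]), hGinv, htame⟩
  refine ⟨levelToField N v / toField N P, ?_⟩
  intro z hz
  have hPne : ∀ᶠ w in 𝓝[≠] z, Pc w ≠ 0 := by
    refine (meromorphicOrderAt_ne_top_iff_eventually_ne_zero (hPm z hz)).mp fun htop => ?_
    refine hP0 (germHom_injective ⟨z, hz⟩ 1 ?_)
    rw [map_zero, germHom_apply, MeroGerm.mk_eq_zero_iff]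
    exact htop
  rw [div_eq_mul_inv]
  filter_upwards [evalFun_mul (levelToField N v) (toField N P)⁻¹ z hz,
    evalFun_levelToField v z hz, evalFun_inv (toField N P) z hz, evalFun_toField P z hz, hPne,
    hGg z hz, mem_nhdsWithin_of_mem_nhds (UpperHalfPlane.isOpen_upperHalfPlaneSet.mem_nhds hz)]
    with w e1 e2 e3 e4 e5 e6 hw
  simp only [Pi.mul_apply, Pi.inv_apply, Function.comp_apply] at e1 e2 e3 e4 e6 ⊢
  rw [e1, e2, e3, e4]
  simp only [v, ofComplex_apply_of_im_pos (show 0 < w.im from hw)]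
  rw [e6, mul_inv_cancel_right₀ e5]

end FermatAgent.ModCurveTorsion

end
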