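import Fermat.Agent.ModCurve.Torsion.CharEisenstein
import Fermat.Agent.ModCurve.Torsion.Descend
import Mathlib.Analysis.Complex.Periodic
import Mathlib.NumberTheory.ModularForms.BoundedAtCusp

/-!
Every character of `Γ₀(N)` of order dividing `n` killing elliptic and parabolic elements is the
multiplier of an `n`-th root of a function whose divisor is divisible by `n`: take the quotient
of two weight four Eisenstein series.
-/

set_option autoImplicit false

noncomputable section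

open scoped MatrixGroups ModularForm Manifold
open UpperHalfPlane hiding I
open Filter Topology CongruenceSubgroup AlgebraicCurve OnePoint

namespace FermatAgent.ModCurveTorsion

open FermatAgent.ModCurve.Points
open FermatAgent.ModFun (levelRing levelToField mul_div_discriminant_mem_levelRing)
open FermatAgent.Periods (mob mob_mul mob_denom_ne_zero hasDerivAt_mob)

local notation "ℍo" => UpperHalfPlane.upperHalfPlaneSet
local notation "M₂" => Matrix (Fin 2) (Fin 2) ℤ

/-- If `g ∘ φ = g` near a fixed point of `φ` with derivative a primitive `e`-th root of unity,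
then `e` divides the order of `g`. -/
theorem dvd_order_of_rotation {g φ : ℂ → ℂ} {z₀ : ℂ} {k : ℤ} {e : ℕ}
    (hg : MeromorphicAt g z₀) (hk : meromorphicOrderAt g z₀ = k) (hφ : AnalyticAt ℂ φ z₀)
    (hfix : φ z₀ = z₀) (hd : IsPrimitiveRoot (deriv φ z₀) e) (he : e ≠ 0)
    (h : g ∘ φ =ᶠ[𝓝[≠] z₀] g) : (e : ℤ) ∣ k := by
  have h1 : g ∘ φ =ᶠ[𝓝[≠] z₀] fun w => (1 : ℂ) * g w := by simpa using h
  exact (hd.zpow_eq_one_iff_dvd k).mp
    (multiplier_eq_deriv_zpow hg hk hφ hfix (hd.ne_zero he) h1).symm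

/-- An element fixing a point of the upper half plane has trace of square at most four. -/
theorem trace_sq_le_four_of_fixed (γ : SL(2, ℤ)) {z : ℂ} (hz : z ∈ ℍo)
    (hfix : mob (γ : M₂) z = z) : (γ : M₂).trace ^ 2 ≤ 4 := by
  have hz' : 0 < z.im := hz
  have hdet := γ.det_coe
  rw [Matrix.det_fin_two] at hdet
  rw [mob, div_eq_iff (mob_denom_ne_zero (γ : M₂) (by simp) hz)] at hfix
  rw [Matrix.trace_fin_two]
  generalize (γ : M₂) 0 0 = a, (γ : M₂) 0 1 = b, (γ : M₂) 1 0 = c, (γ : M₂) 1 1 = d at *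
  have him := congrArg Complex.im hfix
  have hre := congrArg Complex.re hfix
  simp only [Complex.add_re, Complex.mul_re, Complex.add_im, Complex.mul_im, Complex.intCast_re,
    Complex.intCast_im, zero_mul, add_zero, sub_zero] at him hre
  have h1 : (a : ℝ) = 2 * c * z.re + d :=
    mul_right_cancel₀ hz'.ne' (by linear_combination him)
  have hd : (a : ℝ) * d - b * c = 1 := by exact_mod_cast hdet
  have h2 : ((a : ℝ) + d) ^ 2 ≤ 4 := by
    have h3 : ((a : ℝ) + d) ^ 2 = 4 - 4 * ((c : ℝ) * z.im) ^ 2 := by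
      linear_combination (4 : ℝ) * hd + (4 * c : ℝ) * hre + ((a : ℝ) - d - 2 * c * z.re) * h1
    nlinarith [sq_nonneg ((c : ℝ) * z.im)]
  exact_mod_cast h2

theorem isBoundedAtImInfty_pow {F : ℍ → ℂ} (hF : IsBoundedAtImInfty F) (n : ℕ) :
    IsBoundedAtImInfty fun τ => F τ ^ n := by
  rw [UpperHalfPlane.isBoundedAtImInfty_iff] at hF ⊢
  obtain ⟨M, A, h⟩ := hF
  refine ⟨M ^ n, A, fun τ hτ => ?_⟩
  rw [norm_pow]
  exact pow_le_pow_left₀ (norm_nonneg _) (h τ hτ) n

variable {N : ℕ} [NeZero N]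

theorem isPrimitiveRoot_deriv_stabilizer (z : ℍ) (he : 1 < ellIndex N z) :
    ∃ γ : Gamma0 N, mob (slMat γ) (z : ℂ) = z ∧
      IsPrimitiveRoot (deriv (mob (slMat γ)) (z : ℂ)) (ellIndex N z) := by
  set D := localMonodromy z with hD
  have hM : (ellIndex N z).Prime ∧ ellIndex N z = D.M := by
    have hdvd := ellIndex_dvd N z
    by_cases h0 : FermatAgent.ModFun.jFun z = 0
    · rw [localMonodromy_M_eq_three h0] at hdvd ⊢
      rcases (Nat.dvd_prime Nat.prime_three).mp hdvd with h | h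
      · omega
      · exact ⟨h ▸ Nat.prime_three, h⟩
    · by_cases h1 : FermatAgent.ModFun.jFun z = 1728
      · rw [localMonodromy_M_eq_two h1] at hdvd ⊢
        rcases (Nat.dvd_prime Nat.prime_two).mp hdvd with h | h
        · omega
        · exact ⟨h ▸ Nat.prime_two, h⟩
      · rw [localMonodromy_M_eq_one h0 h1] at hdvd
        have := Nat.le_of_dvd one_pos hdvd
        omega
  obtain ⟨hp, heM⟩ := hM
  have hram : (affineSheets N z).ram (baseCoset N) = 1 := by
    refine Nat.eq_of_mul_eq_mul_left (ellIndex_pos N z) ?_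
    rw [ellIndex_mul_ram N z, mul_one, heM]
  have hmem : D.g ∈ Gamma0 N := by
    have h := (pow_mem_Gamma0_iff N z 1).mpr (by rw [hram])
    rwa [pow_one] at h
  set γ : Gamma0 N := ⟨D.g, hmem⟩ with hγ
  have hfix : mob (slMat γ) (z : ℂ) = z := by
    rw [mob_eq_moeb D.g, moeb_coe, D.fix]
  have hpow : slMat (γ ^ ellIndex N z) = 1 ∨ slMat (γ ^ ellIndex N z) = -1 := by
    show ((D.g ^ ellIndex N z : SL(2, ℤ)) : M₂) = 1 ∨ ((D.g ^ ellIndex N z : SL(2, ℤ)) : M₂) = -1
    rw [heM]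
    rcases D.pow_M with h | h <;> rw [h]
    · left; rfl
    · right; simp
  have : Fact (ellIndex N z).Prime := ⟨hp⟩
  refine ⟨γ, hfix, IsPrimitiveRoot.iff_orderOf.mpr (orderOf_eq_prime
    (deriv_pow_eq_one_of_fixed z.2 hfix hpow) fun h1 => ?_)⟩
  have hg1 := D.min 1 one_pos (heM ▸ hp.one_lt)
  rw [pow_one] at hg1
  have hdet : (D.g : M₂).det ≠ 0 := by simp
  rw [(hasDerivAt_mob _ hdet z.2).deriv] at h1
  -- derivative one forces a translation
  have hcd : ((((D.g : M₂) 1 0 : ℤ) : ℂ) * z + (((D.g : M₂) 1 1 : ℤ) : ℂ)) ^ 2 = 1 := by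
    have h2 := mob_denom_ne_zero (D.g : M₂) hdet z.2
    rw [div_eq_iff (pow_ne_zero _ h2), one_mul] at h1
    rw [← h1]
    simp
  have hc : (D.g : M₂) 1 0 = 0 := by
    rcases sq_eq_one_iff.mp hcd with h | h <;>
    · have := congrArg Complex.im h
      simp at this
      rcases this with h' | h'
      · exact_mod_cast h'
      · exact absurd h' z.im_pos.ne'
  have hdet1 := D.g.det_coe
  rw [Matrix.det_fin_two, hc, mul_zero, sub_zero] at hdet1
  have hb : (D.g : M₂) 0 1 = 0 := by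
    have h2 := hfix
    simp only [mob, hγ, slMat, hc, Int.cast_zero, zero_mul, zero_add] at h2
    rcases Int.mul_eq_one_iff_eq_one_or_neg_one.mp hdet1 with ⟨ha, hd⟩ | ⟨ha, hd⟩ <;>
      rw [ha, hd] at h2 <;> simp [div_neg] at h2 <;> exact h2
  rcases Int.mul_eq_one_iff_eq_one_or_neg_one.mp hdet1 with ⟨ha, hd⟩ | ⟨ha, hd⟩
  · refine hg1.1 (Matrix.SpecialLinearGroup.ext _ _ fun i j => ?_)
    fin_cases i <;> fin_cases j <;> simp [ha, hb, hc, hd]
  · refine hg1.2 (Matrix.SpecialLinearGroup.ext _ _ fun i j => ?_)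
    fin_cases i <;> fin_cases j <;> simp [ha, hb, hc, hd]

/-- The value at infinity in `q = exp (2πiτ/w)` of a `w`-periodic holomorphic function bounded at
infinity is analytic. -/
theorem analyticAt_cuspFunction {F : ℍ → ℂ} {w : ℝ} (hw : 0 < w)
    (hper : Function.Periodic (↑ₕF) (w : ℂ)) (hF : MDiff F) (hb : IsBoundedAtImInfty F) :
    AnalyticAt ℂ (Function.Periodic.cuspFunction w (↑ₕF)) 0 := by
  have hol : ∀ᶠ z in comap Complex.im atTop, DifferentiableAt ℂ (↑ₕF) z := by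
    filter_upwards [tendsto_comap.eventually (eventually_gt_atTop (0 : ℝ))] with z hz
    exact (UpperHalfPlane.mdifferentiable_iff.mp hF).differentiableAt
      (UpperHalfPlane.isOpen_upperHalfPlaneSet.mem_nhds hz)
  have hbd : BoundedAtFilter (comap Complex.im atTop) (↑ₕF) :=
    hb.comp_tendsto tendsto_comap_im_ofComplex
  rw [Complex.analyticAt_iff_eventually_differentiableAt]
  rw [← nhdsNE_sup_pure, eventually_sup]
  exact ⟨Function.Periodic.eventually_differentiableAt_cuspFunction_nhds_ne_zero hw hper hol,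
    Function.Periodic.differentiableAt_cuspFunction_zero hw hper hol hbd⟩

variable {χ : Gamma0 N → ℂ}

namespace IsEPChar

/-- The power `Eⁿ` as a modular form. -/
def eisPow (hχ : IsEPChar χ) {n : ℕ} (hχn : ∀ γ, χ γ ^ n = 1) :
    ModularForm (Gamma0 N) (4 * n : ℤ) where
  toFun τ := hχ.eis τ ^ n
  slash_action_eq' A hA := by
    obtain ⟨γ, hγ, rfl⟩ := hA
    funext τ
    show ((fun τ => hχ.eis τ ^ n) ∣[(4 * n : ℤ)] γ) τ = hχ.eis τ ^ n
    have h := hχ.eis_smul ⟨γ, hγ⟩ τ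
    simp only [ModularForm.SL_slash_apply, h, mul_pow, hχn, one_mul]
    rw [← zpow_natCast (denom (γ : GL (Fin 2) ℝ) τ ^ (4 : ℤ)) n, ← zpow_mul,
      mul_right_comm, ← zpow_add₀ (denom_ne_zero _ τ)]
    simp
  holo' := (hχ.mdifferentiable_eis).pow n
  bdd_at_cusps' {c} hc := by
    rw [Subgroup.IsArithmetic.isCusp_iff_isCusp_SL2Z] at hc
    rw [OnePoint.isBoundedAt_iff_forall_SL2Z hc]
    intro A _
    have h : (fun τ => hχ.eis τ ^ n) ∣[(4 * n : ℤ)] A = fun τ => (hχ.eis ∣[(4 : ℤ)] A) τ ^ n := by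
      funext τ
      simp only [ModularForm.SL_slash_apply, mul_pow]
      rw [← zpow_natCast (denom (A : GL (Fin 2) ℝ) τ ^ (-4 : ℤ)) n, ← zpow_mul, neg_mul]
    rw [h]
    exact isBoundedAtImInfty_pow (hχ.isBoundedAtImInfty_eis A) n

/-- The quotient `E_χ / E_1` on the complex plane. -/
def eisQuot (hχ : IsEPChar χ) : ℂ → ℂ :=
  (↑ₕhχ.eis) / (↑ₕ(IsEPChar.one (N := N)).eis)

omit [NeZero N] in
theorem analyticAt_eis (hχ : IsEPChar χ) {z : ℂ} (hz : z ∈ ℍo) : AnalyticAt ℂ (↑ₕhχ.eis) z :=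
  DifferentiableOn.analyticAt (UpperHalfPlane.mdifferentiable_iff.mp hχ.mdifferentiable_eis)
    (UpperHalfPlane.isOpen_upperHalfPlaneSet.mem_nhds hz)

omit [NeZero N] in
theorem nowhereZero_eis (hχ : IsEPChar χ) : NowhereZero (↑ₕhχ.eis) := by
  intro z hz
  obtain ⟨τ, hτ⟩ := hχ.exists_eis_ne_zero
  refine MeromorphicOn.meromorphicOrderAt_ne_top_of_isPreconnected
    (fun w hw => (hχ.analyticAt_eis hw).meromorphicAt) isPreconnected_halfPlane
    (τ.2 : (τ : ℂ) ∈ ℍo) hz ?_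
  rw [(hχ.analyticAt_eis τ.2).meromorphicOrderAt_eq,
    (hχ.analyticAt_eis τ.2).analyticOrderAt_eq_zero.mpr (by simpa using hτ)]
  simp

omit [NeZero N] in
theorem meromorphicOn_eisQuot (hχ : IsEPChar χ) : MeromorphicOn hχ.eisQuot ℍo :=
  fun _ hz => (hχ.analyticAt_eis hz).meromorphicAt.div (IsEPChar.one.analyticAt_eis hz).meromorphicAt

omit [NeZero N] in
theorem eisQuot_mob (hχ : IsEPChar χ) (γ : Gamma0 N) {w : ℂ} (hw : w ∈ ℍo) :
    hχ.eisQuot (mob (slMat γ) w) = χ γ * hχ.eisQuot w := by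
  simp only [eisQuot, Pi.div_apply, Function.comp_apply, slMat,
    ofComplex_mob (γ : SL(2, ℤ)) (show 0 < w.im from hw), hχ.eis_smul γ,
    IsEPChar.one.eis_smul γ, Pi.one_apply]
  have hd := zpow_ne_zero (4 : ℤ) (denom_ne_zero ((γ : SL(2, ℤ)) : GL (Fin 2) ℝ) (ofComplex w))
  field_simp

omit [NeZero N] in
theorem hasMultiplier_eisQuot (hχ : IsEPChar χ) : HasMultiplier hχ.eisQuot χ :=
  fun γ => GermEq.of_eqOn fun _ hw => hχ.eisQuot_mob γ hw

theorem exists_evalFun_eq_eisQuot_pow (hχ : IsEPChar χ) {n : ℕ} (hχn : ∀ γ, χ γ ^ n = 1) :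
    ∃ f : FieldC N, f ≠ 0 ∧ GermEq (hχ.eisQuot ^ n) (evalFun f) := by
  set one' := IsEPChar.one (N := N)
  have h1n : ∀ γ : Gamma0 N, (1 : Gamma0 N → ℂ) γ ^ n = 1 := fun _ => one_pow n
  set E := hχ.eisPow hχn
  set F := one'.eisPow h1n
  set u : levelRing N := ⟨_, mul_div_discriminant_mem_levelRing E F⟩ with hu
  set v : levelRing N := ⟨_, mul_div_discriminant_mem_levelRing F F⟩ with hv
  have hne : ∀ {ψ : Gamma0 N → ℂ} (hψ : IsEPChar ψ) {z : ℂ}, z ∈ ℍo →
      ∀ᶠ w in 𝓝[≠] z, (↑ₕhψ.eis) w ≠ 0 := fun hψ z hz =>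
    hψ.nowhereZero_eis.eventually_ne (fun w hw => (hψ.analyticAt_eis hw).meromorphicAt) hz
  have hΔ : ∀ τ : ℍ, ModularForm.discriminant τ ^ (-(4 * n : ℤ)) ≠ 0 := fun τ =>
    zpow_ne_zero _ (ModularForm.discriminant_ne_zero τ)
  have hquot : GermEq (hχ.eisQuot ^ n) (((u : ℍ → ℂ) ∘ ofComplex) / ((v : ℍ → ℂ) ∘ ofComplex)) := by
    intro z hz
    filter_upwards [hne one' hz] with w hw
    simp only [eisQuot, Pi.pow_apply, Pi.div_apply, Function.comp_apply, hu, hv] at hw ⊢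
    show _ = E (ofComplex w) * F (ofComplex w) ^ 11 * _ / (F (ofComplex w) * F (ofComplex w) ^ 11 * _)
    show _ = hχ.eis (ofComplex w) ^ n * _ * _ / (one'.eis (ofComplex w) ^ n * _ * _)
    rw [mul_assoc, mul_assoc, mul_div_mul_right, div_pow]
    exact mul_ne_zero (pow_ne_zero _ (pow_ne_zero _ hw)) (hΔ _)
  have hv0 : levelToField N v ≠ 0 := by
    intro h0
    have hI : Complex.I ∈ ℍo := show 0 < Complex.I.im by simp
    obtain ⟨w, h1, h2, h3⟩ := ((hne one' hI).and ((evalFun_levelToField v _ hI).and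
      (evalFun_algebraMap (N := N) 0 _ hI))).exists
    rw [h0] at h2
    rw [map_zero, h2] at h3
    simp only [hv, Function.comp_apply] at h1 h3
    exact mul_ne_zero (mul_ne_zero (pow_ne_zero n h1) (pow_ne_zero 11 (pow_ne_zero n h1)))
      (hΔ _) h3
  have hfg : GermEq (hχ.eisQuot ^ n) (evalFun (levelToField N u / levelToField N v)) := by
    refine hquot.trans ?_
    rw [div_eq_mul_inv, div_eq_mul_inv]
    intro z hz
    filter_upwards [evalFun_mul (levelToField N u) (levelToField N v)⁻¹ z hz,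
      evalFun_inv (levelToField N v) z hz, evalFun_levelToField u z hz,
      evalFun_levelToField v z hz] with w e1 e2 e3 e4
    simp only [Pi.mul_apply, Pi.inv_apply] at e1 e2 ⊢
    rw [e1, e2, e3, e4]
  refine ⟨_, ?_, hfg⟩
  intro h0
  rw [h0] at hfg
  have hI : Complex.I ∈ ℍo := show 0 < Complex.I.im by simp
  obtain ⟨w, h1, h2, h3, h4⟩ := ((hne hχ hI).and ((hne one' hI).and ((hfg _ hI).and
    (evalFun_algebraMap (N := N) 0 _ hI)))).exists
  rw [map_zero] at h4
  rw [h4, Pi.pow_apply] at h3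
  exact pow_ne_zero n (div_ne_zero h1 h2) h3

theorem dvd_ord_pointPlace (hχ : IsEPChar χ) {n : ℕ} (hn : n ≠ 0) {f : FieldC N} (hf : f ≠ 0)
    (hfg : GermEq (hχ.eisQuot ^ n) (evalFun f)) (z : ℍ) :
    (n : ℤ) ∣ (pointPlace N z).ord f := by
  obtain ⟨k, hk⟩ := WithTop.ne_top_iff_exists.mp
    (nowhereZero_of_pow hn hfg (nowhereZero_evalFun hf) _ z.2)
  have h1 : meromorphicOrderAt (hχ.eisQuot ^ n) (z : ℂ) =
      ((ellIndex N z * (pointPlace N z).ord f : ℤ) : WithTop ℤ) := by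
    rw [meromorphicOrderAt_congr (hfg _ z.2), meromorphicOrderAt_evalFun hf]
  rw [meromorphicOrderAt_pow (hχ.meromorphicOn_eisQuot _ z.2), ← hk] at h1
  norm_cast at h1
  have he : (ellIndex N z : ℤ) ∣ k := by
    rcases lt_or_eq_of_le (Nat.one_le_iff_ne_zero.mpr (ellIndex_pos N z).ne') with he | he
    · obtain ⟨γ, hfix, hprim⟩ := isPrimitiveRoot_deriv_stabilizer z he
      have hγ : χ γ = 1 := by
        refine hχ.eq_one γ ?_
        have h4 : (slMat γ).trace ^ 2 < 4 ∨ (slMat γ).trace ^ 2 = 4 ∨ 4 < (slMat γ).trace ^ 2 :=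
          lt_trichotomy _ _
        rcases h4 with h | h | h
        · exact h.le
        · exact h.le
        · exfalso
          exact absurd h (not_lt.mpr (trace_sq_le_four_of_fixed (γ : SL(2, ℤ)) z.2 hfix))
      refine dvd_order_of_rotation (hχ.meromorphicOn_eisQuot _ z.2) hk.symm
        (analyticAt_mob (det_slMat_pos γ) z.2) hfix hprim (ellIndex_pos N z).ne' ?_
      have h5 := hχ.hasMultiplier_eisQuot γ (z : ℂ) z.2
      simp only [hγ, one_mul] at h5
      exact h5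
    · rw [← he]; exact one_dvd k
  obtain ⟨k', rfl⟩ := he
  refine ⟨k', mul_left_cancel₀ (Nat.cast_ne_zero.mpr (ellIndex_pos N z).ne' : (ellIndex N z : ℤ) ≠ 0) ?_⟩
  linarith

theorem slash_periodic (hχ : IsEPChar χ) (δ : SL(2, ℤ)) :
    Function.Periodic (↑ₕ(hχ.eis ∣[(4 : ℤ)] δ)) ((cuspWidth N δ : ℝ) : ℂ) := by
  intro w
  by_cases hw : 0 < w.im
  swap
  · have hw' : (w + ((cuspWidth N δ : ℝ) : ℂ)).im ≤ 0 := by simpa using not_lt.mp hw
    simp only [Function.comp_apply, ofComplex_apply_of_im_nonpos hw',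
      ofComplex_apply_of_im_nonpos (not_lt.mp hw)]
  set τ := ofComplex w
  have hmem : δ * ModularGroup.T ^ cuspWidth N δ * δ⁻¹ ∈ Gamma0 N :=
    (conj_T_pow_mem_iff N δ _).mpr dvd_rfl
  have htr := FermatAgent.ModCurveGroup.trace_conj_SL (ModularGroup.T ^ cuspWidth N δ) δ⁻¹
  rw [inv_inv, ← zpow_natCast, FermatAgent.ModCurveGroup.trace_T_zpow, zpow_natCast] at htr
  have hone : χ ⟨_, hmem⟩ = 1 := hχ.eq_one _ (by
    show ((δ * ModularGroup.T ^ cuspWidth N δ * δ⁻¹ : SL(2, ℤ)) : M₂).trace ^ 2 ≤ 4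
    rw [htr]
    norm_num)
  have hT : ofComplex (w + ((cuspWidth N δ : ℝ) : ℂ)) = ModularGroup.T ^ cuspWidth N δ • τ := by
    rw [← zpow_natCast, UpperHalfPlane.modular_T_zpow_smul]
    apply UpperHalfPlane.ext
    rw [ofComplex_apply_of_im_pos (by simpa using hw)]
    simp only [τ, ofComplex_apply_of_im_pos hw, UpperHalfPlane.coe_vadd]
    push_cast
    ring
  have hs : (hχ.eis ∣[(4 : ℤ)] δ) ∣[(4 : ℤ)] (ModularGroup.T ^ cuspWidth N δ) = hχ.eis ∣[(4 : ℤ)] δ := by
    rw [← SlashAction.slash_mul, show δ * ModularGroup.T ^ cuspWidth N δ =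
      (δ * ModularGroup.T ^ cuspWidth N δ * δ⁻¹) * δ by group, SlashAction.slash_mul,
      hχ.eis_slash ⟨_, hmem⟩, hone, one_smul]
  have h := congrFun hs τ
  rw [ModularForm.SL_slash_apply] at h
  have hd : denom ((ModularGroup.T ^ cuspWidth N δ : SL(2, ℤ)) : GL (Fin 2) ℝ) τ = 1 := by
    rw [ModularGroup.denom_apply, ← zpow_natCast, ModularGroup.coe_T_zpow]
    simp
  rw [hd, one_zpow, mul_one] at h
  rw [Function.comp_apply, hT, h]
  rfl

theorem dvd_ord_cuspPlace (hχ : IsEPChar χ) {n : ℕ} (hn : n ≠ 0) {f : FieldC N} (hf : f ≠ 0)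
    (hfg : GermEq (hχ.eisQuot ^ n) (evalFun f)) (δ : SL(2, ℤ)) :
    (n : ℤ) ∣ (cuspPlace N δ).ord f := by
  set one' := IsEPChar.one (N := N)
  set w : ℝ := (cuspWidth N δ : ℝ) with hwdef
  have hw : 0 < w := Nat.cast_pos.mpr (cuspWidth_pos N δ)
  obtain ⟨K, hK⟩ := cuspWidth_dvd N δ
  have hK0 : K ≠ 0 := fun h => NeZero.ne N (by rw [hK, h, mul_zero])
  have han : ∀ {ψ : Gamma0 N → ℂ} (hψ : IsEPChar ψ),
      AnalyticAt ℂ (Function.Periodic.cuspFunction w (↑ₕ(hψ.eis ∣[(4 : ℤ)] δ))) 0 := fun hψ =>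
    analyticAt_cuspFunction hw (hψ.slash_periodic δ) (hψ.mdifferentiable_eis.slash _ _)
      (hψ.isBoundedAtImInfty_eis δ)
  have hval : ∀ {ψ : Gamma0 N → ℂ} (hψ : IsEPChar ψ) {z : ℂ}, 0 < z.im →
      Function.Periodic.cuspFunction w (↑ₕ(hψ.eis ∣[(4 : ℤ)] δ)) (Function.Periodic.qParam w z) =
        hψ.eis (δ • ofComplex z) * denom (δ : GL (Fin 2) ℝ) (ofComplex z) ^ (-4 : ℤ) := fun hψ z hz => by
    rw [Function.Periodic.eq_cuspFunction hw.ne' (hψ.slash_periodic δ), Function.comp_apply,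
      ModularForm.SL_slash_apply]
  set A := Function.Periodic.cuspFunction w (↑ₕ(hχ.eis ∣[(4 : ℤ)] δ))
  set B := Function.Periodic.cuspFunction w (↑ₕ(one'.eis ∣[(4 : ℤ)] δ))
  set G := evalAtCusp δ f
  have hN : (0 : ℝ) < N := Nat.cast_pos.mpr (NeZero.pos N)
  have hGAB : ∀ᶠ q in 𝓝[≠] (0 : ℂ), G q = ((A / B) (q ^ K)) ^ n := by
    -- pull back the identity `hⁿ = f` along `δ`
    have hmero : MeromorphicAt (fun q : ℂ => G q - ((A / B) (q ^ K)) ^ n) 0 := by
      refine (meromorphicAt_evalAtCusp δ f).sub (MeromorphicAt.pow ?_ n)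
      have hp : AnalyticAt ℂ (fun q : ℂ => q ^ K) 0 := analyticAt_id.pow K
      refine MeromorphicAt.comp_analyticAt (f := A / B) ?_ hp
      simpa [zero_pow hK0] using (han hχ).meromorphicAt.div (han one').meromorphicAt
    rcases hmero.eventually_eq_zero_or_eventually_ne_zero with h | h
    · filter_upwards [h] with q hq using sub_eq_zero.mp hq
    exfalso
    obtain ⟨r, hr, hball⟩ := Metric.eventually_nhds_iff_ball.mp (eventually_nhdsWithin_iff.mp h)
    obtain ⟨Y, hY0, hY⟩ : ∃ Y : ℝ, 0 < Y ∧ ∀ z : ℂ, Y ≤ z.im →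
        Function.Periodic.qParam (N : ℝ) z ∈ Metric.ball (0 : ℂ) r := by
      refine ⟨max 1 (-N * Real.log r / (2 * Real.pi) + 1), lt_max_of_lt_left one_pos, fun z hz => ?_⟩
      rw [mem_ball_zero_iff, Function.Periodic.norm_qParam, ← Real.lt_log_iff_exp_lt hr,
        div_lt_iff₀ hN]
      have hz' : -N * Real.log r / (2 * Real.pi) < z.im := by
        linarith [le_max_right (1 : ℝ) (-N * Real.log r / (2 * Real.pi) + 1)]
      rw [div_lt_iff₀ (by positivity)] at hz'
      linarith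
    set z₀ : ℂ := ((Y + 1 : ℝ) : ℂ) * Complex.I
    have hz₀ : 0 < z₀.im := by simp [z₀]; linarith
    have hdet : 0 < (δ : M₂).det := by simp
    obtain ⟨z, hzY, h1, h2⟩ := ((((isOpen_lt continuous_const Complex.continuous_im).eventually_mem
      (show z₀ ∈ {z : ℂ | Y < z.im} by simp [z₀])).filter_mono nhdsWithin_le_nhds).and
      (((hfg.comp_mob hdet) z₀ hz₀).and
        ((one'.nowhereZero_eis.comp_mob hdet).eventually_ne
          (meromorphicOn_comp_mob (fun w hw => (one'.analyticAt_eis hw).meromorphicAt) hdet) hz₀))).exists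
    have hz : 0 < z.im := hY0.trans hzY
    refine (hball _ (hY z (le_of_lt hzY))) (Function.Periodic.qParam_ne_zero z) ?_
    have hqK : Function.Periodic.qParam (N : ℝ) z ^ K = Function.Periodic.qParam w z := by
      rw [Function.Periodic.qParam, Function.Periodic.qParam, ← Complex.exp_nat_mul, hwdef]
      congr 1
      push_cast
      have hNK : (N : ℂ) = (cuspWidth N δ : ℂ) * K := by exact_mod_cast hK
      rw [hNK]
      have : (K : ℂ) ≠ 0 := Nat.cast_ne_zero.mpr hK0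
      have : (cuspWidth N δ : ℂ) ≠ 0 := Nat.cast_ne_zero.mpr (cuspWidth_pos N δ).ne'
      field_simp
    rw [hqK, show G (Function.Periodic.qParam (N : ℝ) z) = _ from
      (evalFun_mob_eq_evalAtCusp δ f hz).symm, Pi.div_apply,
      show A (Function.Periodic.qParam w z) = _ from hval hχ hz,
      show B (Function.Periodic.qParam w z) = _ from hval one' hz]
    simp only [eisQuot, Function.comp_apply, Pi.pow_apply, Pi.div_apply, ofComplex_mob δ hz] at h1 h2
    rw [← h1, mul_div_mul_right _ _ (zpow_ne_zero _ (denom_ne_zero _ _)), sub_self]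
  have hAB : MeromorphicAt (A / B) 0 := (han hχ).meromorphicAt.div (han one').meromorphicAt
  have htend : Tendsto (fun q : ℂ => q ^ K) (𝓝[≠] 0) (𝓝[≠] 0) := by
    refine tendsto_nhdsWithin_iff.mpr ⟨?_, ?_⟩
    · simpa [zero_pow hK0] using tendsto_nhdsWithin_of_tendsto_nhds
        ((continuous_pow K).tendsto (0 : ℂ))
    · filter_upwards [self_mem_nhdsWithin] with q hq using pow_ne_zero K hq
  have hord : ∃ m : ℤ, ordCusp N δ f = (K : ℤ) * ((n : ℤ) * m) := by
    by_cases htop : meromorphicOrderAt (A / B) 0 = ⊤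
    · exfalso
      have hG : meromorphicOrderAt G 0 = ⊤ := by
        rw [meromorphicOrderAt_eq_top_iff]
        filter_upwards [hGAB, htend.eventually (meromorphicOrderAt_eq_top_iff.mp htop)] with q h1 h2
        rw [h1, h2, zero_pow hn]
      rw [meromorphicOrderAt_evalAtCusp δ hf] at hG
      exact WithTop.coe_ne_top hG
    obtain ⟨m, hm⟩ := WithTop.ne_top_iff_exists.mp htop
    obtain ⟨u, hu, hu0, hev⟩ := (meromorphicOrderAt_eq_int_iff hAB).mp hm.symm
    simp only [sub_zero, smul_eq_mul] at hev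
    refine ⟨m, ?_⟩
    have hG : meromorphicOrderAt G 0 = (((K : ℤ) * ((n : ℤ) * m) : ℤ) : WithTop ℤ) := by
      rw [meromorphicOrderAt_eq_int_iff (meromorphicAt_evalAtCusp δ f)]
      refine ⟨fun q => u (q ^ K) ^ n, ((hu.comp_of_eq (analyticAt_id.pow K)
        (by simp [zero_pow hK0]))).pow n, pow_ne_zero n (by simpa [zero_pow hK0] using hu0), ?_⟩
      filter_upwards [hGAB, htend.eventually hev] with q h1 h2
      simp only [sub_zero, smul_eq_mul]
      rw [show evalAtCusp δ f q = _ from h1, h2, mul_pow, ← zpow_natCast q K, ← zpow_mul, ← zpow_natCast (q ^ (_ : ℤ)) n, ← zpow_mul,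
        mul_assoc (K : ℤ) m, mul_comm m (n : ℤ)]
    rw [meromorphicOrderAt_evalAtCusp δ hf] at hG
    exact_mod_cast hG
  obtain ⟨m, hm⟩ := hord
  refine ⟨m, mul_left_cancel₀ (NeZero.ne (N : ℤ)) ?_⟩
  rw [← ordCusp_eq, hm]
  have hK' : (N : ℤ) = (cuspWidth N δ : ℤ) * K := by exact_mod_cast hK
  linear_combination (-((n : ℤ) * m)) * hK'

/-- Every character killing elliptic and parabolic elements of order dividing `n` is the
multiplier of a Kummer root. -/
theorem exists_kummerRoot (hχ : IsEPChar χ) {n : ℕ} (hn : n ≠ 0) (hχn : ∀ γ, χ γ ^ n = 1) :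
    ∃ (D : Divisor ℂ (FieldC N)) (f : FieldC N) (g : ℂ → ℂ),
      KummerRoot n D f g ∧ HasMultiplier g χ := by
  obtain ⟨f, hf, hfg⟩ := hχ.exists_evalFun_eq_eisQuot_pow hχn
  have hdvd : ∀ v : Place ℂ (FieldC N), (n : ℤ) ∣ v.ord f := by
    intro v
    rcases exists_point_or_cusp N v with ⟨z, rfl⟩ | ⟨δ, rfl⟩
    · exact hχ.dvd_ord_pointPlace hn hf hfg z
    · exact hχ.dvd_ord_cuspPlace hn hf hfg δ
  refine ⟨(FermatAgent.Curve.divisorOf (K := ℂ) f).mapRange (· / (n : ℤ)) (Int.zero_ediv _), f,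
    hχ.eisQuot, ⟨hf, fun v => ?_, hχ.meromorphicOn_eisQuot, hfg⟩, hχ.hasMultiplier_eisQuot⟩
  rw [Finsupp.mapRange_apply, FermatAgent.Curve.divisorOf_apply,
    Int.mul_ediv_cancel' (hdvd v)]

end IsEPChar

end FermatAgent.ModCurveTorsion

end
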