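import Fermat.Agent.ModCurve.Torsion.Multiplier

/-!
Multipliers are trivial at elliptic elements when the order at the fixed point is divisible by the
order of the element modulo `±1`.
-/

set_option autoImplicit false

noncomputable section

namespace FermatAgent.ModCurveTorsion

open Filter Topology Complex CongruenceSubgroup
open FermatAgent.Periods (mob mob_denom_ne_zero hasDerivAt_mob im_mob_pos mob_mul)
open scoped MatrixGroups

local notation "ℍo" => UpperHalfPlane.upperHalfPlaneSet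

variable {Γ : Subgroup SL(2, ℤ)} {γ : Γ} {z₀ : ℂ}

theorem mob_pow_fixed_deriv (hz₀ : z₀ ∈ ℍo) (hfix : mob (slMat γ) z₀ = z₀) (m : ℕ) :
    mob (slMat (γ ^ m)) z₀ = z₀ ∧
      HasDerivAt (mob (slMat (γ ^ m))) (deriv (mob (slMat γ)) z₀ ^ m) z₀ := by
  have hev : ∀ A B : Matrix (Fin 2) (Fin 2) ℤ, B.det ≠ 0 →
      (fun w => mob A (mob B w)) =ᶠ[𝓝 z₀] mob (A * B) := fun A B hB => by
    filter_upwards [UpperHalfPlane.isOpen_upperHalfPlaneSet.mem_nhds hz₀] with w hw
    exact (mob_mul A B hB hw).symm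
  induction m with
  | zero =>
    rw [pow_zero, slMat_one, pow_zero]
    refine ⟨mob_one z₀, (hasDerivAt_id z₀).congr_of_eventuallyEq ?_⟩
    exact Eventually.of_forall fun w => mob_one w
  | succ m ih =>
    have hstep : HasDerivAt (mob (slMat γ)) (deriv (mob (slMat γ)) z₀) z₀ :=
      (analyticAt_mob (det_slMat_pos γ) hz₀).differentiableAt.hasDerivAt
    rw [pow_succ γ, slMat_mul, pow_succ]
    refine ⟨?_, ?_⟩
    · rw [mob_mul _ _ (det_slMat_pos γ).ne' hz₀, hfix, ih.1]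
    · refine HasDerivAt.congr_of_eventuallyEq ?_ (hev _ _ (det_slMat_pos γ).ne').symm
      have hm : HasDerivAt (mob (slMat (γ ^ m))) (deriv (mob (slMat γ)) z₀ ^ m)
          (mob (slMat γ) z₀) := by
        rw [hfix]
        exact ih.2
      exact hm.comp z₀ hstep

theorem deriv_pow_eq_one_of_fixed (hz₀ : z₀ ∈ ℍo) (hfix : mob (slMat γ) z₀ = z₀) {e : ℕ}
    (he : slMat (γ ^ e) = 1 ∨ slMat (γ ^ e) = -1) : deriv (mob (slMat γ)) z₀ ^ e = 1 := by
  obtain ⟨-, hd⟩ := mob_pow_fixed_deriv hz₀ hfix e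
  refine hd.unique ((hasDerivAt_id z₀).congr_of_eventuallyEq (Eventually.of_forall fun w => ?_))
  rcases he with he | he <;> rw [he]
  · exact mob_one w
  · rw [mob_neg]; exact mob_one w

theorem HasMultiplier.eq_one_of_fixed {g : ℂ → ℂ} {χ : Γ → ℂ} (h : HasMultiplier g χ)
    (hg : MeromorphicOn g ℍo) (hz₀ : z₀ ∈ ℍo) (hfix : mob (slMat γ) z₀ = z₀) {e : ℕ}
    (he : slMat (γ ^ e) = 1 ∨ slMat (γ ^ e) = -1) {k : ℤ}
    (hk : meromorphicOrderAt g z₀ = k) (hek : (e : ℤ) ∣ k) : χ γ = 1 := by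
  rw [multiplier_eq_deriv_zpow (hg z₀ hz₀) hk (analyticAt_mob (det_slMat_pos γ) hz₀) hfix
    (deriv_mob_ne_zero (det_slMat_pos γ) hz₀) (h γ z₀ hz₀)]
  obtain ⟨l, rfl⟩ := hek
  rw [zpow_mul, zpow_natCast, deriv_pow_eq_one_of_fixed hz₀ hfix he, one_zpow]

end FermatAgent.ModCurveTorsion

end
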