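import Fermat.Agent.ModCurve.Torsion.Mobius
import Mathlib.Analysis.Complex.Periodic

/-!
An `n`-th root of a function which is meromorphic at the cusp `∞` is invariant under a translation
when the order of the function is suitably divisible.
-/

set_option autoImplicit false

noncomputable section

namespace FermatAgent.ModCurveTorsion

open Filter Topology Complex Metric Function

local notation "ℍo" => UpperHalfPlane.upperHalfPlaneSet

theorem isPreconnected_halfPlane_gt (Y : ℝ) : IsPreconnected {w : ℂ | Y < w.im} :=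
  (convex_halfSpace_im_gt Y).isPreconnected

/-- `G` describes `f` at the cusp in the parameter `exp (2πi z / h)`. If `G` has order `n * m` and
`h ∣ j * m`, every `n`-th root of `f` has period `j`. -/
theorem root_translate_eq {n : ℕ} (hn : n ≠ 0) {h : ℝ} (hh : 0 < h) {f g G : ℂ → ℂ} {Y : ℝ}
    (hg : MeromorphicOn g ℍo) (hgn : GermEq (g ^ n) f) (hfG : ∀ w : ℂ, Y < w.im →
      f w = G (Periodic.qParam h w)) (hG : MeromorphicAt G 0) {m : ℤ}
    (hGm : meromorphicOrderAt G 0 = ((n : ℤ) * m : ℤ)) {j : ℝ} (hper : ∀ᶠ q in 𝓝[≠] (0 : ℂ),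
      G (cexp (2 * Real.pi * I * j / h) * q) = G q) (hjm : ∃ l : ℤ, j * m = l * h) :
    GermEq (fun w => g (w + j)) g := by
  obtain ⟨u, hu, hu0, hGu⟩ := (meromorphicOrderAt_eq_int_iff hG).mp hGm
  simp only [sub_zero, smul_eq_mul] at hGu
  set ε : ℂ := cexp (2 * Real.pi * I * j / h) with hε
  have hε0 : ε ≠ 0 := exp_ne_zero _
  have hεm : ε ^ m = 1 := by
    obtain ⟨l, hl⟩ := hjm
    rw [hε, ← exp_int_mul, show (m : ℂ) * (2 * Real.pi * I * j / h) = l * (2 * Real.pi * I) by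
      have hl' : (j : ℂ) * m = l * h := by exact_mod_cast hl
      rw [mul_div_assoc', div_eq_iff (ofReal_ne_zero.mpr hh.ne')]
      linear_combination (2 : ℂ) * I * (Real.pi : ℂ) * hl']
    exact exp_int_mul_two_pi_mul_I l
  obtain ⟨r, hr, hru⟩ : ∃ r > 0, ∀ q ∈ ball (0 : ℂ) r, AnalyticAt ℂ u q ∧ u q ≠ 0 :=
    Metric.eventually_nhds_iff_ball.mp
      (hu.eventually_analyticAt.and (hu.continuousAt.eventually_ne hu0))
  obtain ⟨v, hv, hvu⟩ := exists_analytic_root_ball hn (c := 0) (r := r)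
    (fun q hq => (hru q hq).1) (fun q hq => (hru q hq).2)
  have hεball : ∀ q ∈ ball (0 : ℂ) r, ε * q ∈ ball (0 : ℂ) r := by
    intro q hq
    rw [mem_ball_zero_iff] at hq ⊢
    rw [norm_mul, hε, norm_exp]
    simp only [div_ofReal_re, mul_re, re_ofNat, ofReal_re, im_ofNat, ofReal_im, mul_zero,
      sub_zero, I_re, mul_im, zero_mul, add_zero, I_im, zero_div, Real.exp_zero, one_mul]
    simpa using hq
  have hvε : ∀ᶠ q in 𝓝[≠] (0 : ℂ), v (ε * q) = v q := by
    have hGu' : ∀ᶠ q in 𝓝[≠] (0 : ℂ), G (ε * q) = (ε * q) ^ ((n : ℤ) * m) * u (ε * q) := by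
      refine Tendsto.eventually (tendsto_nhdsWithin_iff.mpr ⟨?_, ?_⟩) hGu
      · simpa using tendsto_nhdsWithin_of_tendsto_nhds
          ((continuous_const_mul ε).tendsto (0 : ℂ))
      · filter_upwards [self_mem_nhdsWithin] with q hq using mul_ne_zero hε0 hq
    have hb : ∀ᶠ q in 𝓝[≠] (0 : ℂ), q ∈ ball (0 : ℂ) r :=
      eventually_nhdsWithin_of_eventually_nhds (isOpen_ball.mem_nhds (mem_ball_self hr))
    have hpow : ∀ᶠ q in 𝓝[≠] (0 : ℂ), (v (ε * q) / v q) ^ n = 1 := by
      filter_upwards [hGu', hGu, hper, hb, self_mem_nhdsWithin] with q h1 h2 h3 h4 h5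
      have hu' : u (ε * q) = u q := by
        rw [h1, h2, mul_zpow, mul_comm (n : ℤ) m, zpow_mul ε, hεm, one_zpow, one_mul] at h3
        exact mul_left_cancel₀ (zpow_ne_zero _ h5) h3
      rw [div_pow, hvu _ (hεball q h4), hvu q h4, hu', div_self (hru q h4).2]
    have hv0 : v 0 ≠ 0 := fun h0 => (hru 0 (mem_ball_self hr)).2 (by
      rw [← hvu 0 (mem_ball_self hr), h0, zero_pow hn])
    have hroots : {a : ℂ | a ^ n = 1}.Finite :=
      (Polynomial.nthRoots n (1 : ℂ)).toFinset.finite_toSet.subset fun a ha => by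
        simpa [Polynomial.mem_nthRoots (Nat.pos_of_ne_zero hn)] using ha
    have hc0 : ContinuousAt v 0 := (hv 0 (mem_ball_self hr)).continuousAt
    have hcont : Tendsto (fun q => v (ε * q) / v q) (𝓝 (0 : ℂ)) (𝓝 1) := by
      have h1 : Tendsto (fun q => v (ε * q)) (𝓝 (0 : ℂ)) (𝓝 (v 0)) :=
        hc0.tendsto.comp (by simpa using (continuous_const_mul ε).tendsto (0 : ℂ))
      have := h1.div hc0.tendsto hv0
      rwa [div_self hv0] at this
    filter_upwards [hpow, eventually_nhdsWithin_of_eventually_nhds (hcont.eventually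
      ((hroots.sdiff (t := {1})).isClosed.isOpen_compl.mem_nhds fun h => h.2 rfl)),
      eventually_nhdsWithin_of_eventually_nhds (hc0.eventually_ne hv0)] with q h1 h2 h3
    have h4 : v (ε * q) / v q = 1 := by
      by_contra h5
      exact h2 ⟨h1, h5⟩
    exact (div_eq_one_iff_eq h3).mp h4
  obtain ⟨δ, hδ, hgood⟩ : ∃ δ > 0, ∀ q ∈ ball (0 : ℂ) δ, q ≠ 0 →
      G q = q ^ ((n : ℤ) * m) * u q ∧ v (ε * q) = v q ∧ q ∈ ball (0 : ℂ) r := by
    obtain ⟨δ, hδ, h⟩ := Metric.eventually_nhds_iff_ball.mp (eventually_nhdsWithin_iff.mp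
      (hGu.and (hvε.and (eventually_nhdsWithin_of_eventually_nhds
        (isOpen_ball.mem_nhds (mem_ball_self hr))))))
    exact ⟨δ, hδ, fun q hq hq0 => h q hq hq0⟩
  obtain ⟨Y', hY', hsmall⟩ : ∃ Y' : ℝ, max Y 0 < Y' ∧ ∀ w : ℂ, Y' < w.im →
      Periodic.qParam h w ∈ ball (0 : ℂ) δ := by
    refine ⟨max (max Y 0 + 1) (-h * Real.log δ / (2 * Real.pi) + 1),
      lt_of_lt_of_le (lt_add_one _) (le_max_left _ _), fun w hw => ?_⟩
    rw [mem_ball_zero_iff, Periodic.norm_qParam, ← Real.lt_log_iff_exp_lt hδ,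
      div_lt_iff₀ hh]
    have hw' : -h * Real.log δ / (2 * Real.pi) < w.im :=
      lt_of_lt_of_le (lt_add_one _) ((le_max_right _ _).trans hw.le)
    rw [div_lt_iff₀ (by positivity)] at hw'
    linarith
  set R : Set ℂ := {w : ℂ | Y' < w.im} with hR
  have hRo : IsOpen R := isOpen_lt continuous_const Complex.continuous_im
  have hRsub : R ⊆ ℍo := fun w hw => show 0 < w.im from
    lt_of_le_of_lt (le_max_right Y 0) (hY'.trans hw)
  set k : ℂ → ℂ := fun w => Periodic.qParam h w ^ m * v (Periodic.qParam h w) with hk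
  have hkper : ∀ w ∈ R, k (w + j) = k w := by
    intro w hw
    have hq : Periodic.qParam h (w + j) = ε * Periodic.qParam h w := by
      rw [Periodic.qParam, Periodic.qParam, hε, ← exp_add]
      congr 1
      ring
    simp only [hk, hq, mul_zpow, hεm, one_mul,
      (hgood _ (hsmall w hw) (Periodic.qParam_ne_zero w)).2.1]
  have hkan : AnalyticOnNhd ℂ k R := by
    refine DifferentiableOn.analyticOnNhd (fun w hw => ?_) hRo
    obtain ⟨-, -, h3⟩ := hgood _ (hsmall w hw) (Periodic.qParam_ne_zero w)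
    exact (((Periodic.differentiable_qParam w).zpow (Or.inl (Periodic.qParam_ne_zero w))).mul
      ((hv _ h3).differentiableAt.comp w (Periodic.differentiable_qParam w))).differentiableWithinAt
  have hkne : ∀ w ∈ R, k w ≠ 0 := by
    intro w hw
    obtain ⟨-, -, h3⟩ := hgood _ (hsmall w hw) (Periodic.qParam_ne_zero w)
    refine mul_ne_zero (zpow_ne_zero _ (Periodic.qParam_ne_zero w)) fun h0 => (hru _ h3).2 ?_
    rw [← hvu _ h3, h0, zero_pow hn]
  have hgk : g ^ n =ᶠ[codiscreteWithin R] k ^ n := by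
    rw [eventuallyEq_codiscreteWithin_iff hRo]
    intro w hw
    filter_upwards [hgn w (hRsub hw), mem_nhdsWithin_of_mem_nhds (hRo.mem_nhds hw)] with x hx hxR
    obtain ⟨h1, -, h3⟩ := hgood _ (hsmall x hxR) (Periodic.qParam_ne_zero x)
    rw [hx, hfG x ((le_max_left Y 0).trans_lt (hY'.trans hxR)), h1, Pi.pow_apply, hk]
    simp only [mul_pow, hvu _ h3]
    rw [← zpow_natCast (Periodic.qParam h x ^ m) n, ← zpow_mul, mul_comm (n : ℤ) m]
  set x₀ : ℂ := ((Y' + 1 : ℝ) : ℂ) * I with hx₀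
  have hx₀R : x₀ ∈ R := by simp [hR, hx₀]
  have hktop : ∀ w ∈ R, meromorphicOrderAt k w ≠ ⊤ := fun w hw => by
    rw [(hkan w hw).meromorphicOrderAt_eq, (hkan w hw).analyticOrderAt_eq_zero.mpr (hkne w hw)]
    simp
  obtain ⟨ζ, -, hζ⟩ := root_unique hn hRo (isPreconnected_halfPlane_gt Y') hx₀R
    (hg.mono_set hRsub) hkan.meromorphicOn hktop hgk
  rw [eventuallyEq_codiscreteWithin_iff hRo] at hζ
  have hgt : MeromorphicOn (fun w => g (w + j)) ℍo := fun w hw => by
    have : w + j ∈ ℍo := by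
      show 0 < (w + (j : ℂ)).im
      simpa using hw
    exact (hg _ this).comp_analyticAt (g := fun x => x + (j : ℂ))
      (analyticAt_id.add analyticAt_const)
  refine germEq_of_eventuallyEq hgt hg (hRsub hx₀R) ?_
  have hx₁ : x₀ + j ∈ R := by simp [hR, hx₀]
  have htr : Tendsto (fun w => w + (j : ℂ)) (𝓝[≠] x₀) (𝓝[≠] (x₀ + j)) :=
    ((hasDerivAt_id x₀).add_const (j : ℂ)).tendsto_nhdsNE one_ne_zero
  filter_upwards [hζ x₀ hx₀R, htr.eventually (hζ _ hx₁),
    mem_nhdsWithin_of_mem_nhds (hRo.mem_nhds hx₀R)] with w h1 h2 hw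
  rw [h1, h2, hkper w hw]

end FermatAgent.ModCurveTorsion

end
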