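import Fermat.Agent.ModCurve.Torsion.EvalFun
import Fermat.Agent.ModCurve.Torsion.Elliptic
import Fermat.Agent.ModCurve.Torsion.Translation
import Fermat.Agent.ModCurve.Group.Conjugacy

/-!
The multiplier of an `n`-th root of a function whose divisor is divisible by `n` is trivial on
elliptic and parabolic elements.
-/

set_option autoImplicit false

noncomputable section

open scoped MatrixGroups
open UpperHalfPlane hiding I
open Filter Topology CongruenceSubgroup Function AlgebraicCurve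

namespace FermatAgent.ModCurveTorsion

open FermatAgent.ModCurve.Points
open FermatAgent.Periods (mob mob_mul)

local notation "ℍo" => UpperHalfPlane.upperHalfPlaneSet
local notation "M₂" => Matrix (Fin 2) (Fin 2) ℤ

theorem exists_fixed_point_of_trace_sq_lt (γ : SL(2, ℤ)) (h : (γ : M₂).trace ^ 2 < 4) :
    ∃ z : ℍ, mob (γ : M₂) (z : ℂ) = z := by
  rw [Matrix.trace_fin_two] at h
  have hdet : γ 0 0 * γ 1 1 - γ 0 1 * γ 1 0 = 1 := by
    rw [← Matrix.det_fin_two]; exact γ.det_coe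
  have hc : γ 1 0 ≠ 0 := by
    intro hc
    rw [hc, mul_zero, sub_zero] at hdet
    nlinarith [sq_nonneg (γ 0 0 - γ 1 1)]
  set a : ℝ := ((γ 0 0 : ℤ) : ℝ) with ha
  set b : ℝ := ((γ 0 1 : ℤ) : ℝ) with hb
  set c : ℝ := ((γ 1 0 : ℤ) : ℝ) with hc'
  set d : ℝ := ((γ 1 1 : ℤ) : ℝ) with hd
  have h4 : 0 < 4 - (a + d) ^ 2 := by
    have : ((γ 0 0 + γ 1 1) ^ 2 : ℤ) < (4 : ℤ) := h
    have : (((γ 0 0 + γ 1 1) ^ 2 : ℤ) : ℝ) < ((4 : ℤ) : ℝ) := by exact_mod_cast this
    push_cast at this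
    rw [ha, hd]
    linarith
  have hcR : c ≠ 0 := Int.cast_ne_zero.mpr hc
  set x : ℝ := (a - d) / (2 * c) with hx
  set y : ℝ := Real.sqrt (4 - (a + d) ^ 2) / (2 * |c|) with hy
  have hy0 : 0 < y := div_pos (Real.sqrt_pos.mpr h4) (by positivity)
  have hre : c * (x ^ 2 - y ^ 2) + (d - a) * x - b = 0 := by
    have hR : a * d - b * c = 1 := by
      rw [ha, hb, hc', hd]; exact_mod_cast hdet
    rw [hx, hy]
    simp only [div_pow, mul_pow, sq_abs, Real.sq_sqrt h4.le]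
    field_simp
    linear_combination (4 : ℝ) * hR
  have him : 2 * c * x * y + (d - a) * y = 0 := by
    rw [hx]
    field_simp
    ring
  let z : ℍ := ⟨⟨x, y⟩, hy0⟩
  refine ⟨z, ?_⟩
  rw [mob, div_eq_iff (FermatAgent.Periods.mob_denom_ne_zero _ (by simp) z.2)]
  show ((γ 0 0 : ℤ) : ℂ) * ⟨x, y⟩ + ((γ 0 1 : ℤ) : ℂ) =
    (⟨x, y⟩ : ℂ) * (((γ 1 0 : ℤ) : ℂ) * ⟨x, y⟩ + ((γ 1 1 : ℤ) : ℂ))
  apply Complex.ext
  · simp only [Complex.add_re, Complex.mul_re, Complex.intCast_re, Complex.intCast_im,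
      Complex.add_im, Complex.mul_im, ← ha, ← hb, ← hc', ← hd]
    linear_combination -hre
  · simp only [Complex.add_re, Complex.mul_re, Complex.intCast_re, Complex.intCast_im,
      Complex.add_im, Complex.mul_im, ← ha, ← hc', ← hd]
    linear_combination -him

variable {N : ℕ} [NeZero N]

/-- `g` is an `n`-th root of `f`, whose divisor is `n` times something. -/
structure KummerRoot (n : ℕ) (D : Divisor ℂ (FieldC N)) (f : FieldC N) (g : ℂ → ℂ) : Prop where
  ne_zero : f ≠ 0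
  ord_eq : ∀ v : Place ℂ (FieldC N), v.ord f = (n : ℤ) * D v
  mero : MeromorphicOn g ℍo
  pow_eq : GermEq (g ^ n) (evalFun f)

namespace KummerRoot

variable {n : ℕ} {D : Divisor ℂ (FieldC N)} {f : FieldC N} {g : ℂ → ℂ}

omit [NeZero N] in
theorem nowhereZero (h : KummerRoot n D f g) (hn : n ≠ 0) : NowhereZero g :=
  nowhereZero_of_pow hn h.pow_eq (nowhereZero_evalFun h.ne_zero)

theorem order_eq (h : KummerRoot n D f g) (hn : n ≠ 0) (z : ℍ) :
    meromorphicOrderAt g (z : ℂ) =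
      ((ellIndex N z * D (pointPlace N z) : ℤ) : WithTop ℤ) := by
  have h1 : meromorphicOrderAt (g ^ n) (z : ℂ) =
      ((ellIndex N z * (pointPlace N z).ord f : ℤ) : WithTop ℤ) := by
    rw [meromorphicOrderAt_congr (h.pow_eq _ z.2), meromorphicOrderAt_evalFun h.ne_zero]
  rw [meromorphicOrderAt_pow (h.mero _ z.2)] at h1
  obtain ⟨k, hk⟩ := WithTop.ne_top_iff_exists.mp ((h.nowhereZero hn) _ z.2)
  rw [← hk] at h1 ⊢
  norm_cast at h1 ⊢
  rw [h.ord_eq] at h1
  refine mul_left_cancel₀ (Nat.cast_ne_zero.mpr hn : (n : ℤ) ≠ 0) ?_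
  linarith

variable {χ : Gamma0 N → ℂ}

theorem multiplier_elliptic (h : KummerRoot n D f g) (hn : n ≠ 0) (hχ : HasMultiplier g χ)
    (γ : Gamma0 N) (hγ : (slMat γ).trace ^ 2 < 4) : χ γ = 1 := by
  obtain ⟨z, hfix⟩ := exists_fixed_point_of_trace_sq_lt (γ : SL(2, ℤ)) hγ
  have hsmul : (γ : SL(2, ℤ)) • z = z := by
    apply UpperHalfPlane.ext
    rw [← moeb_coe, ← mob_eq_moeb]
    exact hfix
  obtain ⟨i, -, hi⟩ := (localMonodromy z).spec _ hsmul
  have hmem : (localMonodromy z).g ^ i ∈ Gamma0 N := by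
    rcases hi with hi | hi
    · rw [← hi]; exact γ.2
    · have h2 : (-1 : SL(2, ℤ)) * (γ : SL(2, ℤ)) ∈ Gamma0 N :=
        mul_mem FermatAgent.ModCurveGroup.ContainsNegOne.neg_one_mem γ.2
      rwa [hi, neg_mul, one_mul, neg_neg] at h2
  obtain ⟨l, hl⟩ := (pow_mem_Gamma0_iff N z i).mp hmem
  have hM : (localMonodromy z).g ^ (i * ellIndex N z) = 1 ∨
      (localMonodromy z).g ^ (i * ellIndex N z) = -1 := by
    rw [hl, show (affineSheets N z).ram (baseCoset N) * l * ellIndex N z =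
      (localMonodromy z).M * l by rw [← ellIndex_mul_ram N z]; ring, pow_mul]
    rcases (localMonodromy z).pow_M with h1 | h1 <;> rw [h1]
    · exact Or.inl (one_pow l)
    · exact neg_one_pow_eq_or (SL(2, ℤ)) l
  have he : slMat (γ ^ ellIndex N z) = 1 ∨ slMat (γ ^ ellIndex N z) = -1 := by
    have h3 : ((γ : SL(2, ℤ)) ^ ellIndex N z) = 1 ∨ ((γ : SL(2, ℤ)) ^ ellIndex N z) = -1 := by
      rcases hi with hi | hi <;> rw [hi]
      · rwa [← pow_mul]
      · rw [neg_pow, ← pow_mul]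
        rcases neg_one_pow_eq_or (SL(2, ℤ)) (ellIndex N z) with h1 | h1 <;> rw [h1] <;>
          rcases hM with h2 | h2 <;> rw [h2] <;> simp
    show (((γ ^ ellIndex N z : Gamma0 N) : SL(2, ℤ)) : M₂) = 1 ∨ _
    rcases h3 with h3 | h3
    · left; rw [SubmonoidClass.coe_pow, h3]; rfl
    · right; rw [slMat, SubmonoidClass.coe_pow, h3]; simp
  exact hχ.eq_one_of_fixed h.mero z.2 hfix he (h.order_eq hn z) (dvd_mul_right _ _)

theorem multiplier_parabolic (h : KummerRoot n D f g) (hn : n ≠ 0) (hχ : HasMultiplier g χ)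
    (γ : Gamma0 N) (hγ : (slMat γ).trace ^ 2 = 4) : χ γ = 1 := by
  obtain ⟨δ, j, hj⟩ := FermatAgent.ModCurveGroup.exists_conj_T_zpow hγ
  have hγeq : (γ : SL(2, ℤ)) = δ * ModularGroup.T ^ j * δ⁻¹ ∨
      (γ : SL(2, ℤ)) = -(δ * ModularGroup.T ^ j * δ⁻¹) := by
    rcases hj with hj | hj
    · left; rw [← hj]; group
    · right
      rw [← neg_neg (ModularGroup.T ^ j), ← hj]
      simp [mul_assoc]
  have hmem : δ * ModularGroup.T ^ j * δ⁻¹ ∈ Gamma0 N := by
    rcases hγeq with h1 | h1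
    · rw [← h1]; exact γ.2
    · have h2 : (-1 : SL(2, ℤ)) * (γ : SL(2, ℤ)) ∈ Gamma0 N :=
        mul_mem FermatAgent.ModCurveGroup.ContainsNegOne.neg_one_mem γ.2
      rwa [h1, neg_mul, one_mul, neg_neg] at h2
  have hwj : (cuspWidth N δ : ℤ) ∣ j := by
    rw [← Int.dvd_natAbs]
    refine Int.natCast_dvd_natCast.mpr ((conj_T_pow_mem_iff N δ j.natAbs).mp ?_)
    rcases j.natAbs_eq with h1 | h1
    · rw [h1, zpow_natCast] at hmem; exact hmem
    · rw [h1, zpow_neg, zpow_natCast] at hmem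
      have h2 := inv_mem hmem
      rwa [mul_inv_rev, mul_inv_rev, inv_inv, inv_inv, ← mul_assoc] at h2
  -- the translation by `j` after conjugating
  have hdet : 0 < (δ : M₂).det := by simp
  have hmob : ∀ w : ℂ, 0 < w.im →
      mob (slMat γ) (mob (δ : M₂) w) = mob (δ : M₂) (w + (j : ℝ)) := by
    intro w hw
    rw [← mob_mul _ _ hdet.ne' hw]
    have hT : mob ((ModularGroup.T ^ j : SL(2, ℤ)) : M₂) w = w + (j : ℝ) := by
      rw [ModularGroup.coe_T_zpow]
      simp [mob]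
    rw [← hT, ← mob_mul _ _ (by simp : ((ModularGroup.T ^ j : SL(2, ℤ)) : M₂).det ≠ 0) hw,
      ← Matrix.SpecialLinearGroup.coe_mul, ← Matrix.SpecialLinearGroup.coe_mul]
    rcases hγeq with h1 | h1 <;> rw [h1]
    · rw [inv_mul_cancel_right]
    · rw [neg_mul, inv_mul_cancel_right, Matrix.SpecialLinearGroup.coe_neg, mob_neg]
  obtain ⟨l, hl⟩ := hwj
  have hw0 : (cuspWidth N δ : ℤ) ≠ 0 := Int.natCast_ne_zero.mpr (cuspWidth_pos N δ).ne'
  obtain ⟨k, hk⟩ := cuspWidth_dvd N δ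
  have hord : ordCusp N δ f = (n : ℤ) * ((k : ℤ) * D (cuspPlace N δ)) := by
    refine mul_left_cancel₀ hw0 ?_
    rw [ordCusp_eq, h.ord_eq]
    have hkZ : (N : ℤ) = (cuspWidth N δ : ℤ) * (k : ℤ) := by exact_mod_cast hk
    linear_combination ((n : ℤ) * D (cuspPlace N δ)) * hkZ
  have htr : GermEq (fun w => (g ∘ mob (δ : M₂)) (w + (j : ℝ))) (g ∘ mob (δ : M₂)) := by
    refine root_translate_eq hn (h := N) (Y := 0) (Nat.cast_pos.mpr (NeZero.pos N))
      (f := evalFun f ∘ mob (δ : M₂)) (G := evalAtCusp δ f) (meromorphicOn_comp_mob h.mero hdet)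
      ?_ (fun w hw => evalFun_mob_eq_evalAtCusp δ f hw) (meromorphicAt_evalAtCusp δ f)
      (by rw [meromorphicOrderAt_evalAtCusp δ h.ne_zero, hord]) ?_
      ⟨l * D (cuspPlace N δ), by
        have hkR : (N : ℝ) = (cuspWidth N δ : ℕ) * (k : ℕ) := by exact_mod_cast hk
        rw [hl, hkR]
        push_cast
        ring⟩
    · refine (GermEq.of_eqOn fun w hw => ?_).trans (h.pow_eq.comp_mob hdet)
      rfl
    · filter_upwards [self_mem_nhdsWithin,
        ((Periodic.invQParam_tendsto (Nat.cast_pos.mpr (NeZero.pos N) : (0 : ℝ) < N))).eventually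
          (preimage_mem_comap (Ioi_mem_atTop (0 : ℝ)))] with q hq hq'
      have hw : 0 < (Periodic.invQParam (N : ℝ) q).im := hq'
      have hqw : Periodic.qParam (N : ℝ) (Periodic.invQParam (N : ℝ) q) = q :=
        Periodic.qParam_right_inv (Nat.cast_ne_zero.mpr (NeZero.ne N)) hq
      have h2 : Periodic.qParam (N : ℝ) (Periodic.invQParam (N : ℝ) q + (j : ℝ)) =
          Complex.exp (2 * Real.pi * Complex.I * ((j : ℝ) : ℂ) / ((N : ℝ) : ℂ)) * q := by
        conv_rhs => rw [← hqw]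
        rw [Periodic.qParam, Periodic.qParam, ← Complex.exp_add]
        congr 1
        ring
      have h3 : 0 < (Periodic.invQParam (N : ℝ) q + (j : ℝ)).im := by simpa using hw
      rw [← h2, ← evalFun_mob_eq_evalAtCusp δ f h3, ← hmob _ hw,
        evalFun_mob_of_mem f γ (mob_mem hdet hw), evalFun_mob_eq_evalAtCusp δ f hw, hqw]
  have hg := h.nowhereZero hn
  refine const_unique (meromorphicOn_comp_mob h.mero hdet) (hg.comp_mob hdet)
    (((hχ γ).comp_mob hdet).symm.trans ?_)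
  refine ((GermEq.of_eqOn fun w hw => ?_).trans htr).trans (GermEq.of_eqOn fun w _ => (one_mul _).symm)
  show g (mob (slMat γ) (mob (δ : M₂) w)) = g (mob (δ : M₂) (w + (j : ℝ)))
  rw [hmob w hw]

end KummerRoot

end FermatAgent.ModCurveTorsion

end
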