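import Fermat.Agent.ModCurve.Torsion.CharRoot
import Fermat.Agent.ModCurve.Group.Universal
import Fermat.Agent.ModCurve.Fun.Field
import Mathlib.Analysis.SpecialFunctions.Complex.CircleAddChar

/-!
The Kummer isomorphism `Pic⁰(X₀(N))(ℂ)[n] ≅ Hom_EP(Γ₀(N), ℤ/n)`.
-/

set_option autoImplicit false

noncomputable section

open scoped MatrixGroups
open CongruenceSubgroup AlgebraicCurve Filter Topology

namespace FermatAgent.ModCurveTorsion

open FermatAgent.ModCurve.Points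
open FermatAgent.ModCurveGroup (KillsEP)
open FermatAgent.Periods (mob)

local notation "ℍo" => UpperHalfPlane.upperHalfPlaneSet

variable {N : ℕ} [NeZero N] {n : ℕ} [NeZero n]

/-- `φ : Γ₀(N) → ℤ/n` is the Kummer character of the `n`-torsion class `x`. -/
def IsKummerChar (n : ℕ) [NeZero n] (x : Pic0 ℂ (FieldC N))
    (φ : Additive (Gamma0 N) →+ ZMod n) : Prop :=
  ∃ (D : Divisor.degZero (K := ℂ) (F := FieldC N)) (f : FieldC N) (g : ℂ → ℂ),
    Pic0.mk D = x ∧ KummerRoot n (D : Divisor ℂ (FieldC N)) f g ∧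
      HasMultiplier g fun γ => ZMod.stdAddChar (φ (Additive.ofMul γ))

theorem exists_eq_stdAddChar {c : ℂ} (hc : c ^ n = 1) : ∃ a : ZMod n, ZMod.stdAddChar a = c := by
  obtain ⟨i, -, hi⟩ := (Complex.isPrimitiveRoot_exp n (NeZero.ne n)).eq_pow_of_pow_eq_one hc
  refine ⟨((i : ℤ) : ZMod n), ?_⟩
  rw [ZMod.stdAddChar_coe, ← hi, ← Complex.exp_nat_mul]
  congr 1
  push_cast
  ring

theorem stdAddChar_pow_self (a : ZMod n) : (ZMod.stdAddChar a) ^ n = 1 := by
  rw [← AddChar.map_nsmul_eq_pow, ZModModule.char_nsmul_eq_zero, AddChar.map_zero_eq_one]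

omit [NeZero N] in
theorem pic0_mk_eq_zero_iff {D : Divisor.degZero (K := ℂ) (F := FieldC N)} :
    Pic0.mk D = 0 ↔ Divisor.IsPrincipal (D : Divisor ℂ (FieldC N)) :=
  (QuotientAddGroup.eq_zero_iff D).trans AddSubgroup.mem_addSubgroupOf

theorem exists_kummerRoot_of_divisor {D : Divisor ℂ (FieldC N)} {f : FieldC N} (hf : f ≠ 0)
    (hord : ∀ v : Place ℂ (FieldC N), v.ord f = (n : ℤ) * D v) :
    ∃ g : ℂ → ℂ, KummerRoot n D f g := by
  obtain ⟨g, hg, hgn⟩ := exists_meromorphic_root (NeZero.ne n) (meromorphicOn_evalFun f)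
    (nowhereZero_evalFun hf) fun z hz =>
    ⟨ellIndex N ⟨z, hz⟩ * D (pointPlace N ⟨z, hz⟩), by
      have h := meromorphicOrderAt_evalFun hf (⟨z, hz⟩ : UpperHalfPlane)
      rw [hord] at h
      rw [show meromorphicOrderAt (evalFun f) z = _ from h, WithTop.untop₀_coe]
      ring⟩
  exact ⟨g, hf, hord, hg,
    (eventuallyEq_codiscreteWithin_iff UpperHalfPlane.isOpen_upperHalfPlaneSet).mp hgn⟩

theorem exists_isKummerChar {x : Pic0 ℂ (FieldC N)} (hx : (n : ℤ) • x = 0) :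
    ∃ φ, IsKummerChar n x φ := by
  obtain ⟨D, rfl⟩ := Pic0.mk_surjective x
  have h0 : Pic0.mk ((n : ℤ) • D) = 0 := by rw [← hx]; rfl
  obtain ⟨f, hf, hfD⟩ := pic0_mk_eq_zero_iff.mp h0
  obtain ⟨g, hg⟩ := exists_kummerRoot_of_divisor (n := n) (D := (D : Divisor ℂ (FieldC N))) hf
    fun v => by rw [← hfD v]; simp
  have hg0 := hg.nowhereZero (NeZero.ne n)
  obtain ⟨χ, hχ, hχn⟩ := exists_multiplier (Γ := Gamma0 N) (NeZero.ne n) hg.mero hg.pow_eq
    (nowhereZero_evalFun hf) (evalFun_invariant f)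
  choose a ha using fun γ => exists_eq_stdAddChar (n := n) (hχn γ)
  let φ : Additive (Gamma0 N) →+ ZMod n :=
    AddMonoidHom.mk' (fun γ => a γ.toMul) fun γ δ => ZMod.injective_stdAddChar (by
      rw [AddChar.map_add_eq_mul, ha, ha, ha, ← hχ.map_mul hg.mero hg0]
      rfl)
  refine ⟨φ, D, f, g, rfl, hg, ?_⟩
  convert hχ using 1
  funext γ
  exact ha γ

omit [NeZero N] in
theorem IsKummerChar.add {x y : Pic0 ℂ (FieldC N)} {φ ψ : Additive (Gamma0 N) →+ ZMod n}
    (hx : IsKummerChar n x φ) (hy : IsKummerChar n y ψ) : IsKummerChar n (x + y) (φ + ψ) := by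
  obtain ⟨D, f, g, rfl, hg, hm⟩ := hx
  obtain ⟨D', f', g', rfl, hg', hm'⟩ := hy
  refine ⟨D + D', f * f', g * g', rfl, ⟨mul_ne_zero hg.ne_zero hg'.ne_zero, fun v => ?_,
    fun z hz => (hg.mero z hz).mul (hg'.mero z hz), ?_⟩, ?_⟩
  · rw [v.ord_mul hg.ne_zero hg'.ne_zero, hg.ord_eq, hg'.ord_eq]
    simp only [AddSubgroup.coe_add, Finsupp.add_apply]
    ring
  · rw [mul_pow]
    exact (hg.pow_eq.mul hg'.pow_eq).trans (evalFun_mul f f').symm
  · convert hm.mul hm' using 1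
    funext γ
    simp [AddChar.map_add_eq_mul]

omit [NeZero N] in
theorem IsKummerChar.zsmul_eq_zero {x : Pic0 ℂ (FieldC N)} {φ : Additive (Gamma0 N) →+ ZMod n}
    (hx : IsKummerChar n x φ) : (n : ℤ) • x = 0 := by
  obtain ⟨D, f, g, rfl, hg, -⟩ := hx
  show Pic0.mk ((n : ℤ) • D) = 0
  exact pic0_mk_eq_zero_iff.mpr ⟨f, hg.ne_zero, fun v => by rw [hg.ord_eq]; simp⟩

theorem IsKummerChar.eq_zero_of_char {x : Pic0 ℂ (FieldC N)} (hx : IsKummerChar n x 0) :
    x = 0 := by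
  obtain ⟨D, f, g, rfl, hg, hm⟩ := hx
  obtain ⟨u, hu⟩ := exists_evalFun_eq (NeZero.ne n) hg.ne_zero hg.mero hg.pow_eq fun γ =>
    (hm γ).trans (GermEq.of_eqOn fun w _ => by simp)
  have hfu : f = u ^ n :=
    evalFun_injective ((hg.pow_eq.symm.trans (hu.symm.pow n)).trans (evalFun_pow u n).symm)
  refine pic0_mk_eq_zero_iff.mpr ⟨u, fun h => hg.ne_zero (by rw [hfu, h, zero_pow (NeZero.ne n)]),
    fun v => ?_⟩
  have h := hg.ord_eq v
  rw [hfu, ← zpow_natCast, Place.ord_zpow] at h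
  exact (mul_left_cancel₀ (Nat.cast_ne_zero.mpr (NeZero.ne n)) h).symm

theorem IsKummerChar.unique_of_zero {φ : Additive (Gamma0 N) →+ ZMod n}
    (h : IsKummerChar n (0 : Pic0 ℂ (FieldC N)) φ) : φ = 0 := by
  obtain ⟨D, f, g, hD, hg, hm⟩ := h
  obtain ⟨u, hu0, hu⟩ := pic0_mk_eq_zero_iff.mp hD
  -- `f / uⁿ` has trivial divisor, hence is a constant
  obtain ⟨c, hc⟩ := (FermatAgent.Curve.forall_ord_eq_zero_iff (K := ℂ) (f := f / u ^ n)).mp
    fun v => by
      rw [div_eq_mul_inv, v.ord_mul hg.ne_zero (inv_ne_zero (pow_ne_zero _ hu0)), Place.ord_inv,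
        ← zpow_natCast, Place.ord_zpow, hg.ord_eq, ← hu v, add_neg_cancel]
  obtain ⟨d, hd⟩ := IsAlgClosed.exists_pow_nat_eq c (NeZero.pos n)
  have hf : f = (algebraMap ℂ (FieldC N) d * u) ^ n := by
    rw [mul_pow, ← map_pow, hd]
    exact ((eq_div_iff (pow_ne_zero _ hu0)).mp hc).symm
  obtain ⟨ζ, -, hζ⟩ := root_unique_halfPlane (NeZero.ne n) hg.mero
    (meromorphicOn_evalFun (algebraMap ℂ (FieldC N) d * u))
    (nowhereZero_evalFun fun h0 => hg.ne_zero (by rw [hf, h0, zero_pow (NeZero.ne n)]))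
    (hg.pow_eq.trans (by rw [hf]; exact evalFun_pow _ n))
  have hinv : HasMultiplier g (1 : Gamma0 N → ℂ) :=
    ((HasMultiplier.of_invariant (evalFun_invariant _)).const_mul ζ).congr hζ.symm
  have h1 := hm.unique hg.mero (hg.nowhereZero (NeZero.ne n)) hinv
  refine AddMonoidHom.ext fun γ => ZMod.injective_stdAddChar ?_
  rw [AddMonoidHom.zero_apply, AddChar.map_zero_eq_one]
  exact congrFun h1 γ.toMul

theorem IsKummerChar.neg {x : Pic0 ℂ (FieldC N)} {φ : Additive (Gamma0 N) →+ ZMod n}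
    (hx : IsKummerChar n x φ) : IsKummerChar n (-x) (-φ) := by
  obtain ⟨ψ, hψ⟩ := exists_isKummerChar (n := n) (x := -x) (by simp [hx.zsmul_eq_zero])
  have h := hx.add hψ
  rw [add_neg_cancel] at h
  rwa [neg_eq_of_add_eq_zero_right h.unique_of_zero]

theorem IsKummerChar.unique {x : Pic0 ℂ (FieldC N)} {φ ψ : Additive (Gamma0 N) →+ ZMod n}
    (h : IsKummerChar n x φ) (h' : IsKummerChar n x ψ) : φ = ψ := by
  have h2 := h.add h'.neg
  rw [add_neg_cancel] at h2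
  exact eq_of_sub_eq_zero (by rw [sub_eq_add_neg]; exact h2.unique_of_zero)

theorem IsKummerChar.injective {x y : Pic0 ℂ (FieldC N)} {φ : Additive (Gamma0 N) →+ ZMod n}
    (hx : IsKummerChar n x φ) (hy : IsKummerChar n y φ) : x = y := by
  have h := hx.add hy.neg
  rw [add_neg_cancel] at h
  exact eq_of_sub_eq_zero (by rw [sub_eq_add_neg]; exact h.eq_zero_of_char)

theorem IsKummerChar.killsEP {x : Pic0 ℂ (FieldC N)} {φ : Additive (Gamma0 N) →+ ZMod n}
    (hx : IsKummerChar n x φ) : KillsEP (Gamma0 N) φ := by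
  obtain ⟨D, f, g, -, hg, hm⟩ := hx
  intro γ hγ
  refine ZMod.injective_stdAddChar ?_
  rw [AddChar.map_zero_eq_one]
  rcases lt_or_eq_of_le hγ with h | h
  · exact hg.multiplier_elliptic (NeZero.ne n) hm γ h
  · exact hg.multiplier_parabolic (NeZero.ne n) hm γ h

theorem exists_isKummerChar_of_killsEP {φ : Additive (Gamma0 N) →+ ZMod n}
    (hφ : KillsEP (Gamma0 N) φ) : ∃ x : Pic0 ℂ (FieldC N), IsKummerChar n x φ := by
  have hχ : IsEPChar (N := N) fun γ => ZMod.stdAddChar (φ (Additive.ofMul γ)) :=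
    { map_mul := fun γ δ => by rw [ofMul_mul, map_add, AddChar.map_add_eq_mul]
      eq_one := fun γ hγ => by rw [hφ γ hγ, AddChar.map_zero_eq_one]
      norm_eq := fun γ => AddChar.norm_apply _ _ }
  obtain ⟨D, f, g, hg, hm⟩ := hχ.exists_kummerRoot (NeZero.ne n) fun γ => stdAddChar_pow_self _
  obtain ⟨E, hE, hdeg⟩ := HasPrincipalDivisors.exists_divisor (K := ℂ) f hg.ne_zero
  have hED : E = (n : ℤ) • D := Finsupp.ext fun v => by rw [hE, hg.ord_eq]; simp
  have hD : D ∈ Divisor.degZero (K := ℂ) (F := FieldC N) := by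
    rw [hED, map_zsmul, smul_eq_zero] at hdeg
    exact hdeg.resolve_left (Nat.cast_ne_zero.mpr (NeZero.ne n))
  exact ⟨_, ⟨D, hD⟩, f, g, rfl, hg, hm⟩

omit [NeZero N] in
theorem isKummerChar_smul {m : ℕ} [NeZero m] {x : Pic0 ℂ (FieldC N)}
    {φ : Additive (Gamma0 N) →+ ZMod (m * n)} (hx : IsKummerChar (m * n) x φ) :
    IsKummerChar n ((m : ℤ) • x)
      ((ZMod.castHom (dvd_mul_left n m) (ZMod n)).toAddMonoidHom.comp φ) := by
  obtain ⟨D, f, g, rfl, hg, hm⟩ := hx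
  refine ⟨(m : ℤ) • D, f, g ^ m, rfl, ⟨hg.ne_zero, fun v => ?_,
    fun z hz => (hg.mero z hz).pow m, ?_⟩, ?_⟩
  · rw [hg.ord_eq]
    simp only [AddSubgroupClass.coe_zsmul, Finsupp.smul_apply, smul_eq_mul]
    push_cast
    ring
  · rw [← pow_mul]
    exact hg.pow_eq
  · convert hm.pow m using 1
    funext γ
    simp only [AddMonoidHom.comp_apply, RingHom.toAddMonoidHom_eq_coe, AddMonoidHom.coe_coe,
      Pi.pow_apply]
    generalize φ (Additive.ofMul γ) = a
    obtain ⟨j, rfl⟩ := ZMod.intCast_surjective a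
    rw [map_intCast, ZMod.stdAddChar_coe, ZMod.stdAddChar_coe, ← Complex.exp_nat_mul]
    congr 1
    have : (n : ℂ) ≠ 0 := Nat.cast_ne_zero.mpr (NeZero.ne n)
    have : (m : ℂ) ≠ 0 := Nat.cast_ne_zero.mpr (NeZero.ne m)
    push_cast
    field_simp

/-- The torsion class with a given character. -/
def classOfChar (n : ℕ) [NeZero n] (φ : Additive (Gamma0 N) →+ ZMod n)
    (hφ : KillsEP (Gamma0 N) φ) : Pic0 ℂ (FieldC N) :=
  (exists_isKummerChar_of_killsEP hφ).choose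

theorem isKummerChar_classOfChar {φ : Additive (Gamma0 N) →+ ZMod n}
    (hφ : KillsEP (Gamma0 N) φ) : IsKummerChar n (classOfChar n φ hφ) φ :=
  (exists_isKummerChar_of_killsEP hφ).choose_spec

end FermatAgent.ModCurveTorsion

end
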