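import Fermat.Agent.ModCurve.Torsion.Root
import Fermat.Agent.Periods.EichlerPeriods

/-!
Composition of meromorphic functions on the upper half plane with Möbius maps of integral
matrices, and equality of germs at all points of the upper half plane.
-/

set_option autoImplicit false

noncomputable section

namespace FermatAgent.ModCurveTorsion

open Filter Topology Complex
open FermatAgent.Periods (mob mob_denom_ne_zero hasDerivAt_mob im_mob_pos mob_mul)
open scoped MatrixGroups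

local notation "ℍo" => UpperHalfPlane.upperHalfPlaneSet
local notation "M₂" => Matrix (Fin 2) (Fin 2) ℤ

theorem isPreconnected_halfPlane : IsPreconnected ℍo :=
  (convex_halfSpace_im_gt 0).isPreconnected

theorem mob_one (z : ℂ) : mob (1 : M₂) z = z := by simp [mob]

theorem mob_neg (A : M₂) (z : ℂ) : mob (-A) z = mob A z := by
  simp only [mob, Matrix.neg_apply, Int.cast_neg]
  rw [← neg_div_neg_eq]
  ring

theorem mob_mem {A : M₂} (hA : 0 < A.det) {z : ℂ} (hz : z ∈ ℍo) : mob A z ∈ ℍo :=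
  im_mob_pos A hA hz

theorem analyticAt_mob {A : M₂} (hA : 0 < A.det) {z : ℂ} (hz : z ∈ ℍo) :
    AnalyticAt ℂ (mob A) z :=
  DifferentiableOn.analyticAt
    (fun _ hw => (hasDerivAt_mob A hA.ne' hw).differentiableAt.differentiableWithinAt)
    (UpperHalfPlane.isOpen_upperHalfPlaneSet.mem_nhds hz)

theorem deriv_mob_ne_zero {A : M₂} (hA : 0 < A.det) {z : ℂ} (hz : z ∈ ℍo) :
    deriv (mob A) z ≠ 0 := by
  rw [(hasDerivAt_mob A hA.ne' hz).deriv]
  exact div_ne_zero (Int.cast_ne_zero.mpr hA.ne')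
    (pow_ne_zero _ (mob_denom_ne_zero A hA.ne' hz))

theorem tendsto_mob_nhdsNE {A : M₂} (hA : 0 < A.det) {z : ℂ} (hz : z ∈ ℍo) :
    Tendsto (mob A) (𝓝[≠] z) (𝓝[≠] (mob A z)) :=
  (analyticAt_mob hA hz).differentiableAt.hasDerivAt.tendsto_nhdsNE (deriv_mob_ne_zero hA hz)

theorem meromorphicOn_comp_mob {f : ℂ → ℂ} (hf : MeromorphicOn f ℍo) {A : M₂} (hA : 0 < A.det) :
    MeromorphicOn (f ∘ mob A) ℍo :=
  fun _ hz => (hf _ (mob_mem hA hz)).comp_analyticAt (analyticAt_mob hA hz)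

theorem meromorphicOrderAt_comp_mob (f : ℂ → ℂ) {A : M₂} (hA : 0 < A.det) {z : ℂ} (hz : z ∈ ℍo) :
    meromorphicOrderAt (f ∘ mob A) z = meromorphicOrderAt f (mob A z) :=
  meromorphicOrderAt_comp_of_deriv_ne_zero (analyticAt_mob hA hz) (deriv_mob_ne_zero hA hz)

/-- Equality of germs at every point of the upper half plane. -/
def GermEq (f g : ℂ → ℂ) : Prop := ∀ z ∈ ℍo, f =ᶠ[𝓝[≠] z] g

theorem GermEq.refl (f : ℂ → ℂ) : GermEq f f := fun _ _ => EventuallyEq.rfl

theorem GermEq.of_eqOn {f g : ℂ → ℂ} (h : Set.EqOn f g ℍo) : GermEq f g := fun z hz => by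
  filter_upwards [mem_nhdsWithin_of_mem_nhds (UpperHalfPlane.isOpen_upperHalfPlaneSet.mem_nhds hz)]
    with w hw using h hw

theorem GermEq.symm {f g : ℂ → ℂ} (h : GermEq f g) : GermEq g f := fun z hz => (h z hz).symm

theorem GermEq.trans {f g k : ℂ → ℂ} (h : GermEq f g) (h' : GermEq g k) : GermEq f k :=
  fun z hz => (h z hz).trans (h' z hz)

theorem GermEq.mul {f g f' g' : ℂ → ℂ} (h : GermEq f g) (h' : GermEq f' g') :
    GermEq (f * f') (g * g') := fun z hz => (h z hz).mul (h' z hz)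

theorem GermEq.pow {f g : ℂ → ℂ} (h : GermEq f g) (n : ℕ) : GermEq (f ^ n) (g ^ n) := fun z hz => by
  filter_upwards [h z hz] with w hw
  simp only [Pi.pow_apply, hw]

theorem GermEq.const_mul {f g : ℂ → ℂ} (h : GermEq f g) (c : ℂ) :
    GermEq (fun w => c * f w) (fun w => c * g w) := fun z hz => by
  filter_upwards [h z hz] with w hw
  simp only [hw]

theorem GermEq.comp_mob {f g : ℂ → ℂ} (h : GermEq f g) {A : M₂} (hA : 0 < A.det) :
    GermEq (f ∘ mob A) (g ∘ mob A) := fun _ hz =>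
  (h _ (mob_mem hA hz)).comp_tendsto (tendsto_mob_nhdsNE hA hz)

theorem germEq_comp_mob_mul (f : ℂ → ℂ) (A : M₂) {B : M₂} (hB : B.det ≠ 0) :
    GermEq (f ∘ mob (A * B)) (f ∘ mob A ∘ mob B) :=
  GermEq.of_eqOn fun _ hz => congrArg f (mob_mul A B hB hz)

theorem germEq_comp_mob_one (f : ℂ → ℂ) : GermEq (f ∘ mob (1 : M₂)) f :=
  GermEq.of_eqOn fun z _ => congrArg f (mob_one z)

/-- No germ is zero. -/
def NowhereZero (f : ℂ → ℂ) : Prop := ∀ z ∈ ℍo, meromorphicOrderAt f z ≠ ⊤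

theorem NowhereZero.comp_mob {f : ℂ → ℂ} (hf : NowhereZero f) {A : M₂} (hA : 0 < A.det) :
    NowhereZero (f ∘ mob A) := fun z hz => by
  rw [meromorphicOrderAt_comp_mob f hA hz]
  exact hf _ (mob_mem hA hz)

theorem nowhereZero_of_pow {f g : ℂ → ℂ} {n : ℕ} (hn : n ≠ 0) (h : GermEq (g ^ n) f)
    (hf : NowhereZero f) : NowhereZero g := fun z hz htop => by
  refine hf z hz ?_
  rw [← meromorphicOrderAt_congr (h z hz), meromorphicOrderAt_eq_top_iff]
  filter_upwards [meromorphicOrderAt_eq_top_iff.mp htop] with w hw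
  rw [Pi.pow_apply, hw, zero_pow hn]

theorem NowhereZero.eventually_ne {f : ℂ → ℂ} (hf : NowhereZero f) (hm : MeromorphicOn f ℍo)
    {z : ℂ} (hz : z ∈ ℍo) : ∀ᶠ w in 𝓝[≠] z, f w ≠ 0 :=
  (meromorphicOrderAt_ne_top_iff_eventually_ne_zero (hm z hz)).mp (hf z hz)

theorem const_unique {g : ℂ → ℂ} (hg : MeromorphicOn g ℍo) (hg0 : NowhereZero g) {c d : ℂ}
    (h : GermEq (fun w => c * g w) (fun w => d * g w)) : c = d := by
  have hI : I ∈ ℍo := show 0 < I.im by simp
  obtain ⟨w, hw, hw0⟩ := ((h I hI).and (hg0.eventually_ne hg hI)).exists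
  exact mul_right_cancel₀ hw0 hw

/-- Two nowhere zero `n`-th roots of germwise equal functions differ by a root of unity. -/
theorem root_unique_halfPlane {n : ℕ} (hn : n ≠ 0) {g₁ g₂ : ℂ → ℂ} (h₁ : MeromorphicOn g₁ ℍo)
    (h₂ : MeromorphicOn g₂ ℍo) (h₂0 : NowhereZero g₂) (heq : GermEq (g₁ ^ n) (g₂ ^ n)) :
    ∃ ζ : ℂ, ζ ^ n = 1 ∧ GermEq g₁ (fun w => ζ * g₂ w) := by
  obtain ⟨ζ, hζ, h⟩ := root_unique hn UpperHalfPlane.isOpen_upperHalfPlaneSet
    isPreconnected_halfPlane (show I ∈ ℍo from show 0 < I.im by simp) h₁ h₂ h₂0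
    ((eventuallyEq_codiscreteWithin_iff UpperHalfPlane.isOpen_upperHalfPlaneSet).mpr heq)
  exact ⟨ζ, hζ, (eventuallyEq_codiscreteWithin_iff UpperHalfPlane.isOpen_upperHalfPlaneSet).mp h⟩

/-- A germ identity between meromorphic functions propagates from one point. -/
theorem germEq_of_eventuallyEq {f g : ℂ → ℂ} (hf : MeromorphicOn f ℍo) (hg : MeromorphicOn g ℍo)
    {z₀ : ℂ} (hz₀ : z₀ ∈ ℍo) (h : f =ᶠ[𝓝[≠] z₀] g) : GermEq f g := by
  intro z hz
  have hsub : MeromorphicOn (f - g) ℍo := fun w hw => (hf w hw).sub (hg w hw)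
  have h0 : meromorphicOrderAt (f - g) z₀ = ⊤ := by
    rw [meromorphicOrderAt_eq_top_iff]
    filter_upwards [h] with w hw
    rw [Pi.sub_apply, hw, sub_self]
  have hztop : meromorphicOrderAt (f - g) z = ⊤ := by
    by_contra hne
    exact hsub.meromorphicOrderAt_ne_top_of_isPreconnected isPreconnected_halfPlane hz hz₀ hne h0
  filter_upwards [meromorphicOrderAt_eq_top_iff.mp hztop] with w hw
  exact sub_eq_zero.mp hw

end FermatAgent.ModCurveTorsion

end
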