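import Fermat.Agent.ModCurve.Torsion.Mobius
import Fermat.Agent.Periods.TransferHom
import Mathlib.Analysis.Meromorphic.TrailingCoefficient

/-!
Multipliers of `n`-th roots of invariant functions: existence, uniqueness, group law, behaviour
under products over Hecke correspondences, and triviality at elliptic fixed points.
-/

set_option autoImplicit false

noncomputable section

namespace FermatAgent.ModCurveTorsion

open Filter Topology Complex CongruenceSubgroup
open FermatAgent.Periods (mob mob_denom_ne_zero hasDerivAt_mob im_mob_pos mob_mul HeckeCorr)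
open scoped MatrixGroups

local notation "ℍo" => UpperHalfPlane.upperHalfPlaneSet
local notation "M₂" => Matrix (Fin 2) (Fin 2) ℤ

variable {Γ : Subgroup SL(2, ℤ)}

/-- The matrix of an element of a subgroup of `SL(2, ℤ)`. -/
abbrev slMat (γ : Γ) : M₂ := ((γ : SL(2, ℤ)) : M₂)

theorem det_slMat_pos (γ : Γ) : 0 < (slMat γ).det := by
  rw [Matrix.SpecialLinearGroup.det_coe]
  exact one_pos

theorem slMat_mul (γ δ : Γ) : slMat (γ * δ) = slMat γ * slMat δ := rfl

theorem slMat_one : slMat (1 : Γ) = 1 := rfl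

/-- `g ∘ γ = χ(γ) g` for all `γ ∈ Γ`. -/
def HasMultiplier (g : ℂ → ℂ) (χ : Γ → ℂ) : Prop :=
  ∀ γ : Γ, GermEq (g ∘ mob (slMat γ)) fun w => χ γ * g w

theorem exists_multiplier {n : ℕ} (hn : n ≠ 0) {f g : ℂ → ℂ} (hg : MeromorphicOn g ℍo)
    (hgn : GermEq (g ^ n) f) (hf : NowhereZero f)
    (hinv : ∀ γ : Γ, GermEq (f ∘ mob (slMat γ)) f) :
    ∃ χ : Γ → ℂ, HasMultiplier g χ ∧ ∀ γ, χ γ ^ n = 1 := by
  have hg0 : NowhereZero g := nowhereZero_of_pow hn hgn hf
  have key : ∀ γ : Γ, ∃ ζ : ℂ, ζ ^ n = 1 ∧ GermEq (g ∘ mob (slMat γ)) fun w => ζ * g w :=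
    fun γ => root_unique_halfPlane hn (meromorphicOn_comp_mob hg (det_slMat_pos γ)) hg hg0
      ((((hgn.comp_mob (det_slMat_pos γ))).trans (hinv γ)).trans hgn.symm)
  choose χ h1 h2 using key
  exact ⟨χ, h2, h1⟩

namespace HasMultiplier

variable {g : ℂ → ℂ} {χ : Γ → ℂ}

theorem unique (h : HasMultiplier g χ) (hg : MeromorphicOn g ℍo) (hg0 : NowhereZero g)
    {χ' : Γ → ℂ} (h' : HasMultiplier g χ') : χ = χ' :=
  funext fun γ => const_unique hg hg0 ((h γ).symm.trans (h' γ))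

theorem map_mul (h : HasMultiplier g χ) (hg : MeromorphicOn g ℍo) (hg0 : NowhereZero g)
    (γ δ : Γ) : χ (γ * δ) = χ γ * χ δ := by
  refine const_unique hg hg0 ((h (γ * δ)).symm.trans ?_)
  rw [slMat_mul]
  refine (germEq_comp_mob_mul g (slMat γ) (det_slMat_pos δ).ne').trans ?_
  refine ((h γ).comp_mob (det_slMat_pos δ)).trans ?_
  refine (((h δ).const_mul (χ γ))).trans (GermEq.of_eqOn fun z _ => ?_)
  ring

theorem mul (h : HasMultiplier g χ) {g' : ℂ → ℂ} {χ' : Γ → ℂ} (h' : HasMultiplier g' χ') :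
    HasMultiplier (g * g') (χ * χ') := fun γ => by
  refine ((h γ).mul (h' γ)).trans (GermEq.of_eqOn fun z _ => ?_)
  simp only [Pi.mul_apply]
  ring

theorem pow (h : HasMultiplier g χ) (m : ℕ) : HasMultiplier (g ^ m) (χ ^ m) := fun γ => by
  refine ((h γ).pow m).trans (GermEq.of_eqOn fun z _ => ?_)
  simp only [Pi.pow_apply, mul_pow]

theorem const_mul (h : HasMultiplier g χ) (c : ℂ) : HasMultiplier (fun w => c * g w) χ :=
  fun γ => ((h γ).const_mul c).trans (GermEq.of_eqOn fun z _ => by ring)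

theorem congr (h : HasMultiplier g χ) {g' : ℂ → ℂ} (hgg' : GermEq g g') : HasMultiplier g' χ :=
  fun γ => ((hgg'.symm.comp_mob (det_slMat_pos γ)).trans (h γ)).trans (hgg'.const_mul (χ γ))

theorem of_invariant (hinv : ∀ γ : Γ, GermEq (g ∘ mob (slMat γ)) g) :
    HasMultiplier g (1 : Γ → ℂ) := fun γ => (hinv γ).trans (GermEq.of_eqOn fun z _ => by simp)

/-- The product of the translates of `g` under a correspondence has multiplier the transfer. -/
theorem prod_corr (h : HasMultiplier g χ) {ι : Type} [Fintype ι] (D : HeckeCorr Γ ι)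
    (hD : ∀ i, 0 < (D.rep i).det) :
    HasMultiplier (∏ i, g ∘ mob (D.rep i)) fun γ => ∏ i, χ (D.move γ i) := by
  intro γ z hz
  have key : ∀ i, (g ∘ mob (D.rep i) ∘ mob (slMat γ)) =ᶠ[𝓝[≠] z]
      fun w => χ (D.move γ i) * (g ∘ mob (D.rep (D.target γ i))) w := fun i => by
    refine ((germEq_comp_mob_mul g (D.rep i) (det_slMat_pos γ).ne') z hz).symm.trans ?_
    rw [D.move_spec γ i]
    refine ((germEq_comp_mob_mul g (slMat (D.move γ i)) (hD _).ne') z hz).trans ?_
    exact ((h (D.move γ i)).comp_mob (hD _)) z hz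
  filter_upwards [eventually_all.mpr key] with w hw
  simp only [Function.comp_apply, Finset.prod_apply] at hw ⊢
  rw [Finset.prod_congr rfl fun i _ => hw i, Finset.prod_mul_distrib]
  congr 1
  exact Equiv.prod_comp (D.targetEquiv γ) fun j => g (mob (D.rep j) w)

end HasMultiplier

/-- At a fixed point, the multiplier is the derivative to the power of the order. -/
theorem multiplier_eq_deriv_zpow {g : ℂ → ℂ} {φ : ℂ → ℂ} {z₀ c : ℂ} {k : ℤ}
    (hg : MeromorphicAt g z₀) (hk : meromorphicOrderAt g z₀ = k) (hφ : AnalyticAt ℂ φ z₀)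
    (hfix : φ z₀ = z₀) (hd : deriv φ z₀ ≠ 0) (h : g ∘ φ =ᶠ[𝓝[≠] z₀] fun w => c * g w) :
    c = deriv φ z₀ ^ k := by
  obtain ⟨u, hu, hu0, hgu⟩ := (meromorphicOrderAt_eq_int_iff hg).mp hk
  have htend : Tendsto φ (𝓝[≠] z₀) (𝓝[≠] z₀) := by
    have := hφ.differentiableAt.hasDerivAt.tendsto_nhdsNE hd
    rwa [hfix] at this
  have hslope : Tendsto (fun w => (φ w - z₀) / (w - z₀)) (𝓝[≠] z₀) (𝓝 (deriv φ z₀)) := by
    refine (hasDerivAt_iff_tendsto_slope.mp hφ.differentiableAt.hasDerivAt).congr fun w => ?_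
    rw [slope_def_field, hfix]
  have h1 : Tendsto (fun w => c * u w) (𝓝[≠] z₀) (𝓝 (c * u z₀)) :=
    tendsto_nhdsWithin_of_tendsto_nhds (hu.continuousAt.tendsto.const_mul c)
  have h2 : Tendsto (fun w => ((φ w - z₀) / (w - z₀)) ^ k * u (φ w)) (𝓝[≠] z₀)
      (𝓝 (deriv φ z₀ ^ k * u z₀)) :=
    (hslope.zpow₀ k (Or.inl hd)).mul
      ((hu.continuousAt.tendsto).comp (htend.mono_right nhdsWithin_le_nhds))
  have heq : (fun w => ((φ w - z₀) / (w - z₀)) ^ k * u (φ w)) =ᶠ[𝓝[≠] z₀] fun w => c * u w := by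
    filter_upwards [hgu, htend.eventually hgu, h, self_mem_nhdsWithin] with w hw hw' hcw hne
    simp only [Function.comp_apply] at hcw
    simp only [smul_eq_mul] at hw hw'
    have hne' : (w - z₀) ^ k ≠ 0 := zpow_ne_zero _ (sub_ne_zero.mpr hne)
    rw [hw, hw'] at hcw
    rw [div_zpow, div_mul_eq_mul_div, div_eq_iff hne', hcw]
    ring
  exact (mul_right_cancel₀ hu0 (tendsto_nhds_unique (h2.congr' heq) h1)).symm

end FermatAgent.ModCurveTorsion

end
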