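import Fermat.Agent.ModCurve.Points.Places
import Fermat.Agent.ModCurve.Torsion.Multiplier

/-!
Elements of `ℂ(X₀(N))` as meromorphic functions on the upper half plane: algebra, orders at
points and at cusps.
-/

set_option autoImplicit false

noncomputable section

open scoped MatrixGroups
open UpperHalfPlane hiding I
open Filter Topology CongruenceSubgroup Function

namespace FermatAgent.ModCurveTorsion

open FermatAgent.ModCurve.Points
open FermatAgent.ModFun (dil)
open FermatAgent.Periods (mob)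

local notation "ℍo" => UpperHalfPlane.upperHalfPlaneSet

variable {N : ℕ}

theorem mob_eq_moeb (h : SL(2, ℤ)) (z : ℂ) :
    mob (h : Matrix (Fin 2) (Fin 2) ℤ) z = moeb h z := by
  simp [mob, moeb, autFactor]

theorem ofComplex_mob (h : SL(2, ℤ)) {w : ℂ} (hw : 0 < w.im) :
    ofComplex (mob (h : Matrix (Fin 2) (Fin 2) ℤ) w) = h • ofComplex w := by
  rw [mob_eq_moeb, ofComplex_moeb h hw]

/-- Numerator of a chosen presentation. -/
def evalNum (f : FieldC N) : regRing N := (exists_div N f).choose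

/-- Denominator of a chosen presentation. -/
def evalDen (f : FieldC N) : regRing N := (exists_div N f).choose_spec.choose

theorem evalDen_ne_zero (f : FieldC N) : evalDen f ≠ 0 :=
  (exists_div N f).choose_spec.choose_spec.1

theorem eq_evalNum_div_evalDen (f : FieldC N) :
    f = toField N (evalNum f) / toField N (evalDen f) :=
  (exists_div N f).choose_spec.choose_spec.2

/-- An element of the function field as a function on `ℂ` (junk below the real axis). -/
def evalFun (f : FieldC N) : ℂ → ℂ := fun w => evalC 1 (evalNum f) w / evalC 1 (evalDen f) w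

theorem meromorphicAt_evalFun (f : FieldC N) (z : ℍ) : MeromorphicAt (evalFun f) (z : ℂ) :=
  (analyticAt_evalC 1 _ z).meromorphicAt.div (analyticAt_evalC 1 _ z).meromorphicAt

theorem meromorphicOn_evalFun (f : FieldC N) : MeromorphicOn (evalFun f) ℍo :=
  fun z hz => meromorphicAt_evalFun f ⟨z, hz⟩

theorem meroGerm_mk_inv {z : ℂ} {f : ℂ → ℂ} (hf : MeromorphicAt f z) :
    (MeroGerm.mk f hf)⁻¹ = MeroGerm.mk f⁻¹ hf.inv := by
  by_cases h0 : MeroGerm.mk f hf = 0
  · rw [h0, inv_zero, eq_comm, MeroGerm.mk_eq_zero_iff, meromorphicOrderAt_eq_top_iff]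
    have h1 : ∀ᶠ w in 𝓝[≠] z, f w = 0 :=
      meromorphicOrderAt_eq_top_iff.mp (MeroGerm.mk_eq_zero_iff.mp h0)
    filter_upwards [h1] with w hw
    simp [hw]
  · refine inv_eq_of_mul_eq_one_right ?_
    rw [MeroGerm.mk_mul, MeroGerm.one_eq, MeroGerm.mk_eq_mk]
    have hne : meromorphicOrderAt f z ≠ ⊤ := fun ht =>
      h0 (MeroGerm.mk_eq_zero_iff.mpr ht)
    filter_upwards [(meromorphicOrderAt_ne_top_iff_eventually_ne_zero hf).mp hne] with w hw
    simp [hw]

theorem pointHom_eq_mk (f : FieldC N) (z : ℍ) :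
    pointHom N z 1 f = MeroGerm.mk (evalFun f) (meromorphicAt_evalFun f z) := by
  conv_lhs => rw [eq_evalNum_div_evalDen f]
  rw [map_div₀, pointHom_toField, pointHom_toField, germHom_apply, germHom_apply, div_eq_mul_inv,
    meroGerm_mk_inv, MeroGerm.mk_mul, MeroGerm.mk_eq_mk]
  exact Eventually.of_forall fun w => (div_eq_mul_inv _ _).symm

theorem germEq_evalFun_of_forall {f : FieldC N} {F : ℂ → ℂ} (hF : MeromorphicOn F ℍo)
    (h : ∀ z : ℍ, pointHom N z 1 f = MeroGerm.mk F (hF z z.2)) : GermEq (evalFun f) F :=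
  fun z hz => by
    have := h ⟨z, hz⟩
    rw [pointHom_eq_mk, MeroGerm.mk_eq_mk] at this
    exact this

theorem evalFun_mul (f g : FieldC N) : GermEq (evalFun (f * g)) (evalFun f * evalFun g) := by
  refine germEq_evalFun_of_forall
    (fun z hz => (meromorphicOn_evalFun f z hz).mul (meromorphicOn_evalFun g z hz)) fun z => ?_
  rw [map_mul, pointHom_eq_mk, pointHom_eq_mk, MeroGerm.mk_mul]

theorem evalFun_inv (f : FieldC N) : GermEq (evalFun f⁻¹) (evalFun f)⁻¹ := by
  refine germEq_evalFun_of_forall (fun z hz => (meromorphicOn_evalFun f z hz).inv) fun z => ?_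
  rw [map_inv₀, pointHom_eq_mk, meroGerm_mk_inv]

theorem evalFun_algebraMap (c : ℂ) :
    GermEq (evalFun (algebraMap ℂ (FieldC N) c)) fun _ => c := by
  refine germEq_evalFun_of_forall (fun z _ => MeromorphicAt.const c z) fun z => ?_
  rw [AlgHom.commutes, MeroGerm.algebraMap_eq]

theorem evalFun_one : GermEq (evalFun (1 : FieldC N)) fun _ => 1 := by
  simpa using evalFun_algebraMap (N := N) 1

theorem evalFun_pow (f : FieldC N) (n : ℕ) : GermEq (evalFun (f ^ n)) (evalFun f ^ n) := by
  induction n with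
  | zero =>
    rw [pow_zero, pow_zero]
    exact evalFun_one
  | succ n ih =>
    rw [pow_succ, pow_succ]
    exact (evalFun_mul _ _).trans (ih.mul (GermEq.refl _))

theorem evalFun_toField (a : regRing N) : GermEq (evalFun (toField N a)) (evalC 1 a) := by
  refine germEq_evalFun_of_forall
    (fun z hz => (analyticAt_evalC 1 a ⟨z, hz⟩).meromorphicAt) fun z => ?_
  rw [pointHom_toField, germHom_apply]

theorem nowhereZero_evalFun {f : FieldC N} (hf : f ≠ 0) : NowhereZero (evalFun f) := by
  intro z hz htop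
  have h : pointHom N ⟨z, hz⟩ 1 f = 0 := by
    rw [pointHom_eq_mk, MeroGerm.mk_eq_zero_iff]
    exact htop
  exact hf ((pointHom N ⟨z, hz⟩ 1).injective (h.trans (map_zero _).symm))

theorem evalFun_injective {f g : FieldC N} (h : GermEq (evalFun f) (evalFun g)) : f = g := by
  refine (pointHom N UpperHalfPlane.I 1).injective ?_
  show pointHom N UpperHalfPlane.I 1 f = pointHom N UpperHalfPlane.I 1 g
  rw [pointHom_eq_mk, pointHom_eq_mk, MeroGerm.mk_eq_mk]
  exact h _ UpperHalfPlane.I.2

theorem evalFun_mob_of_mem (f : FieldC N) (γ : Gamma0 N) {w : ℂ} (hw : 0 < w.im) :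
    evalFun f (mob (slMat γ) w) = evalFun f w := by
  simp only [evalFun, evalC, one_smul, ofComplex_mob (γ : SL(2, ℤ)) hw, evalH_smul _ γ.2]

theorem evalFun_invariant (f : FieldC N) (γ : Gamma0 N) :
    GermEq (evalFun f ∘ mob (slMat γ)) (evalFun f) :=
  GermEq.of_eqOn fun _ hw => evalFun_mob_of_mem f γ hw

theorem meromorphicOrderAt_evalFun [NeZero N] {f : FieldC N} (hf : f ≠ 0) (z : ℍ) :
    meromorphicOrderAt (evalFun f) (z : ℂ) =
      ((ellIndex N z * (pointPlace N z).ord f : ℤ) : WithTop ℤ) := by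
  rw [← ordAt_eq, ordAt]
  have hne : pointHom N z 1 f ≠ 0 := fun h0 =>
    hf ((pointHom N z 1).injective (h0.trans (map_zero _).symm))
  rw [ValTarget.coe_ordZ _ hne, pointHom_eq_mk]
  exact (MeroGerm.ord_mk _ _).symm

/-- The expansion of `f` at the cusp `h∞`, in the parameter `exp (2πi z / N)`. -/
def evalAtCusp [NeZero N] (h : SL(2, ℤ)) (f : FieldC N) : ℂ → ℂ := fun q =>
  cuspFunction 1 (evalCusp h (evalNum f)) q / cuspFunction 1 (evalCusp h (evalDen f)) q

theorem meromorphicAt_evalAtCusp [NeZero N] (h : SL(2, ℤ)) (f : FieldC N) :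
    MeromorphicAt (evalAtCusp h f) 0 :=
  (meromorphicAt_cuspFunction (evalCusp_mem h _)).div (meromorphicAt_cuspFunction (evalCusp_mem h _))

theorem cuspHom_eq_mk [NeZero N] (h : SL(2, ℤ)) (f : FieldC N) :
    cuspHom N h f = MeroGerm.mk (evalAtCusp h f) (meromorphicAt_evalAtCusp h f) := by
  conv_lhs => rw [eq_evalNum_div_evalDen f]
  rw [map_div₀, cuspHom_toField, cuspHom_toField, cuspGermHom_apply, cuspGermHom_apply,
    div_eq_mul_inv, meroGerm_mk_inv, MeroGerm.mk_mul, MeroGerm.mk_eq_mk]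
  exact Eventually.of_forall fun w => (div_eq_mul_inv _ _).symm

theorem meromorphicOrderAt_evalAtCusp [NeZero N] (h : SL(2, ℤ)) {f : FieldC N} (hf : f ≠ 0) :
    meromorphicOrderAt (evalAtCusp h f) 0 = ((ordCusp N h f : ℤ) : WithTop ℤ) := by
  rw [ordCusp]
  have hne : cuspHom N h f ≠ 0 := fun h0 =>
    hf ((cuspHom N h).injective (h0.trans (map_zero _).symm))
  rw [ValTarget.coe_ordZ _ hne, cuspHom_eq_mk]
  exact (MeroGerm.ord_mk _ _).symm

theorem evalFun_mob_eq_evalAtCusp [NeZero N] (h : SL(2, ℤ)) (f : FieldC N) {w : ℂ} (hw : 0 < w.im) :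
    evalFun f (mob (h : Matrix (Fin 2) (Fin 2) ℤ) w) =
      evalAtCusp h f (Periodic.qParam N w) := by
  have hN : (0 : ℝ) < N := Nat.cast_pos.2 (NeZero.pos N)
  let σ : ℍ := ⟨w / N, by rw [Complex.div_natCast_im]; exact div_pos hw hN⟩
  have hσ : dil N σ = ofComplex w := by
    rw [ofComplex_apply_of_im_pos hw]
    ext
    rw [FermatAgent.ModFun.coe_dil]
    show (N : ℂ) * (w / N) = w
    rw [mul_div_cancel₀ _ (NeZero.ne _)]
  have hq : Periodic.qParam 1 (σ : ℂ) = Periodic.qParam N w := by
    show Periodic.qParam 1 (w / N) = _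
    simp only [Periodic.qParam]
    congr 1
    push_cast
    ring
  simp only [evalAtCusp, evalFun, ← hq, cuspFunction_qParam (evalCusp_mem h _), evalC, one_smul,
    evalCusp, hσ, ofComplex_mob h hw]

end FermatAgent.ModCurveTorsion

end
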