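import Fermat.Prelude.Def_ModularCurve_HeckeModule
import Fermat.Prelude.Def_ModularCurve_GenusNumerics
import Fermat.Prelude.Def_CuspForm_HeckeAlgebra
import Fermat.Prelude.Def_GaloisRep_ComplexConjugation

/-!
The shape of the torsion of `J₀(N)(ℚ̄)` with its Hecke action: a lattice of rank `2g` with a
faithful action of the weight-two Hecke algebra, and compatible maps onto the `n`-torsion that
intertwine the algebra generators with `heckeOperatorBar`.
-/

set_option autoImplicit false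

noncomputable section

namespace FermatAgent.ModCurveTorsion

open ModularCurve

/-- A model of the torsion of `JZero N`. `proj n` is the quotient map `Λ → Λ/nΛ ≅ J[n]`. -/
structure TorsionModel (N : ℕ) [NeZero N] : Type where
  rank : ℕ
  rank_eq : (rank : ℚ) = 2 * genusFormula N
  hecke : CuspForm.heckeAlgebra N 2 (∅ : Set ℕ) →+* Module.End ℤ (Fin rank → ℤ)
  hecke_injective : Function.Injective hecke
  proj : ℕ → (Fin rank → ℤ) →+ JZero N
  mem_range_proj_iff : ∀ n : ℕ, 0 < n → ∀ x : JZero N,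
    (x ∈ Set.range (proj n) ↔ (n : ℤ) • x = 0)
  proj_eq_zero_iff : ∀ n : ℕ, 0 < n → ∀ v : Fin rank → ℤ,
    (proj n v = 0 ↔ ∀ i, (n : ℤ) ∣ v i)
  smul_proj : ∀ m n : ℕ, 0 < m → 0 < n → ∀ v : Fin rank → ℤ,
    (m : ℤ) • proj (m * n) v = proj n v
  proj_T : ∀ (n : ℕ), 0 < n → ∀ (ℓ : Nat.Primes) (hℓN : ¬ (ℓ : ℕ) ∣ N) (v : Fin rank → ℤ),
    heckeOperatorBar N ℓ (proj n v) =
      proj n (hecke (CuspForm.heckeAlgebra.T ℓ.2 hℓN (Set.notMem_empty _)) v)
  proj_U : ∀ (n : ℕ), 0 < n → ∀ (q : Nat.Primes) (hqN : (q : ℕ) ∣ N) (v : Fin rank → ℤ),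
    heckeOperatorBar N q (proj n v) =
      proj n (hecke (CuspForm.heckeAlgebra.U q.2 hqN (Set.notMem_empty _)) v)
  /-- Eichler-Shimura: the complexified lattice is two copies of the space of cusp forms. -/
  realization : (Fin rank → ℂ) ≃ₗ[ℂ]
    CuspForm (CongruenceSubgroup.Gamma0 N) 2 × CuspForm (CongruenceSubgroup.Gamma0 N) 2
  realization_hecke : ∀ (t : CuspForm.heckeAlgebra N 2 (∅ : Set ℕ)) (v : Fin rank → ℤ),
    realization (fun i => ((hecke t v i : ℤ) : ℂ)) =
      ((t : Module.End ℂ (CuspForm (CongruenceSubgroup.Gamma0 N) 2))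
          (realization fun i => ((v i : ℤ) : ℂ)).1,
        (t : Module.End ℂ (CuspForm (CongruenceSubgroup.Gamma0 N) 2))
          (realization fun i => ((v i : ℤ) : ℂ)).2)
  /-- Complex conjugation on the lattice. -/
  conj : Module.End ℤ (Fin rank → ℤ)
  conj_hecke : ∀ (t : CuspForm.heckeAlgebra N 2 (∅ : Set ℕ)) (v : Fin rank → ℤ),
    conj (hecke t v) = hecke t (conj v)
  realization_conj : ∀ v : Fin rank → ℤ,
    realization (fun i => ((conj v i : ℤ) : ℂ)) =
      (-(realization fun i => ((v i : ℤ) : ℂ)).1, (realization fun i => ((v i : ℤ) : ℂ)).2)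
  proj_conj : ∀ n : ℕ, 0 < n → ∀ v : Fin rank → ℤ,
    proj n (conj v) = complexConjugation • proj n v

namespace TorsionModel

variable {N : ℕ} [NeZero N] (M : TorsionModel N)

/-- The action of the Hecke algebra away from `S` on the lattice. -/
def heckeAway (S : Set ℕ) : CuspForm.heckeAlgebra N 2 S →+* Module.End ℤ (Fin M.rank → ℤ) :=
  M.hecke.comp (Subalgebra.inclusion (CuspForm.heckeAlgebra_mono (Set.empty_subset S))).toRingHom

theorem heckeAway_injective (S : Set ℕ) : Function.Injective (M.heckeAway S) :=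
  M.hecke_injective.comp (Subalgebra.inclusion_injective _)

theorem heckeAway_T (S : Set ℕ) {ℓ : ℕ} (hℓ : ℓ.Prime) (hℓN : ¬ ℓ ∣ N) (hℓS : ℓ ∉ S) :
    M.heckeAway S (CuspForm.heckeAlgebra.T hℓ hℓN hℓS) =
      M.hecke (CuspForm.heckeAlgebra.T hℓ hℓN (Set.notMem_empty _)) := rfl

theorem zsmul_proj_self {n : ℕ} (hn : 0 < n) (v : Fin M.rank → ℤ) :
    (n : ℤ) • M.proj n v = 0 :=
  (M.mem_range_proj_iff n hn _).mp ⟨v, rfl⟩

include M in
theorem torsion_finite {n : ℕ} (hn : 0 < n) : {x : JZero N | (n : ℤ) • x = 0}.Finite := by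
  have hn' : (n : ℤ) ≠ 0 := by exact_mod_cast hn.ne'
  refine Set.Finite.subset (Set.finite_range fun w : Fin M.rank → Fin n =>
    M.proj n fun i => ((w i : ℕ) : ℤ)) fun x hx => ?_
  obtain ⟨v, rfl⟩ := (M.mem_range_proj_iff n hn x).mpr hx
  refine ⟨fun i => ⟨(v i % n).toNat, ?_⟩, ?_⟩
  · have := Int.emod_lt_of_pos (v i) (show (0 : ℤ) < n by exact_mod_cast hn)
    omega
  · rw [← sub_eq_zero, ← map_sub, M.proj_eq_zero_iff n hn]
    intro i
    have h0 := Int.emod_nonneg (v i) hn'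
    refine ⟨-(v i / n), ?_⟩
    simp only [Pi.sub_apply, Int.toNat_of_nonneg h0]
    rw [Int.emod_def]
    ring

end TorsionModel

end FermatAgent.ModCurveTorsion

end
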