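import Fermat.Agent.Curve.Basics.Along
import Fermat.Agent.Curve.Descent.Places
import Fermat.Prelude.Def_AlgebraicCurve_BaseChangeGalois

/-!
Maps of divisor groups whose coefficients each depend on finitely many coefficients are
determined by their values on divisors of functions (weak approximation).
-/

set_option autoImplicit false

noncomputable section

namespace FermatAgent.ModCurveTorsion

open AlgebraicCurve
open FermatAgent.Curve (divisorOf divisorOf_apply IsFunctionField1)

variable {K K' K'' F F' F'' : Type*} [Field K] [Field K'] [Field K''] [Field F] [Field F']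
  [Field F''] [Algebra K F] [Algebra K' F'] [Algebra K'' F'']

/-- Each coefficient of the image depends on finitely many coefficients. -/
def IsLocalDiv (Φ : Divisor K F →+ Divisor K' F') : Prop :=
  ∀ Q : Place K' F', ∃ S : Finset (Place K F), ∀ D : Divisor K F,
    (∀ P ∈ S, D P = 0) → Φ D Q = 0

namespace IsLocalDiv

theorem comp {Φ : Divisor K F →+ Divisor K' F'} {Ψ : Divisor K' F' →+ Divisor K'' F''}
    (hΨ : IsLocalDiv Ψ) (hΦ : IsLocalDiv Φ) : IsLocalDiv (Ψ.comp Φ) := by
  classical
  intro Q
  obtain ⟨S, hS⟩ := hΨ Q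
  choose T hT using hΦ
  exact ⟨S.biUnion T, fun D hD => hS _ fun P hP => hT P D fun P' hP' =>
    hD P' (Finset.mem_biUnion.mpr ⟨P, hP, hP'⟩)⟩

/-- Two local maps that agree on divisors of functions are equal. -/
theorem ext [IsAlgClosed K] [IsFunctionField1 K F] {Φ Ψ : Divisor K F →+ Divisor K' F'}
    (hΦ : IsLocalDiv Φ) (hΨ : IsLocalDiv Ψ)
    (h : ∀ f : F, f ≠ 0 → Φ (divisorOf f) = Ψ (divisorOf f)) : Φ = Ψ := by
  classical
  refine AddMonoidHom.ext fun D => Finsupp.ext fun Q => ?_
  obtain ⟨S, hS⟩ := hΦ Q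
  obtain ⟨T, hT⟩ := hΨ Q
  obtain ⟨f, hf, hfD⟩ := FermatAgent.Curve.exists_forall_ord_eq (S ∪ T) fun v => D v
  have h0 : ∀ P ∈ S ∪ T, (D - divisorOf (K := K) f) P = 0 := fun P hP => by
    rw [Finsupp.sub_apply, divisorOf_apply, hfD P hP, sub_self]
  have h1 := hS _ fun P hP => h0 P (Finset.mem_union_left _ hP)
  have h2 := hT _ fun P hP => h0 P (Finset.mem_union_right _ hP)
  rw [map_sub, Finsupp.sub_apply, sub_eq_zero] at h1 h2
  rw [h1, h2, h f hf]

end IsLocalDiv

section Relative

variable [Algebra K F'] [Algebra F F'] [IsScalarTower K F F'] [Algebra.IsIntegral F F']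
  [HasPrincipalDivisors K F']

theorem isLocalDiv_pullback : IsLocalDiv (Divisor.pullback (K := K) (F := F) F') := fun w =>
  ⟨{w.restrict F}, fun D hD => by
    rw [Divisor.pullback_apply, hD _ (Finset.mem_singleton_self _), mul_zero]⟩

theorem isLocalDiv_pushforward : IsLocalDiv (Divisor.pushforward (K := K) (F' := F') F) := by
  classical
  intro v
  refine ⟨v.fiber F', fun D hD => ?_⟩
  rw [Divisor.pushforward_apply]
  refine Finset.sum_eq_zero fun w _ => ?_
  split_ifs with hw
  · rw [hD w (Place.mem_fiber.mpr hw), zero_mul]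
  · rfl

end Relative

section Along

variable {F₁ : Type*} [Field F₁] [Algebra K F₁] [HasPrincipalDivisors K F₁]
  (φ ψ : F →ₐ[K] F₁) (hφ : φ.toRingHom.IsIntegral) (hψ : ψ.toRingHom.IsIntegral)

theorem isLocalDiv_pullbackAlong : IsLocalDiv (Divisor.pullbackAlong φ hφ) := by
  let := algebraAlong φ
  have := isScalarTower_along φ
  have := isIntegral_along φ hφ
  exact isLocalDiv_pullback

theorem isLocalDiv_pushforwardAlong : IsLocalDiv (Divisor.pushforwardAlong ψ hψ) := by
  let := algebraAlong ψ
  have := isScalarTower_along ψ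
  have := isIntegral_along ψ hψ
  exact isLocalDiv_pushforward

theorem isLocalDiv_correspondence : IsLocalDiv (Divisor.correspondence φ ψ hφ hψ) :=
  (isLocalDiv_pushforwardAlong ψ hψ).comp (isLocalDiv_pullbackAlong φ hφ)

end Along

/-- The action on divisors as an additive map. -/
def semilinearDiv (g : SemilinearAut K F) : Divisor K F →+ Divisor K F :=
  DistribSMul.toAddMonoidHom _ g

theorem semilinearDiv_apply (g : SemilinearAut K F) (D : Divisor K F) :
    semilinearDiv g D = g • D := rfl

theorem isLocalDiv_semilinearDiv (g : SemilinearAut K F) : IsLocalDiv (semilinearDiv g) :=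
  fun Q => ⟨{g⁻¹ • Q}, fun D hD => by
    rw [semilinearDiv_apply, SemilinearAut.divisor_smul_apply]
    exact hD _ (Finset.mem_singleton_self _)⟩

theorem smul_divisorOf [IsAlgClosed K] [IsFunctionField1 K F] (g : SemilinearAut K F) (f : F) :
    g • divisorOf (K := K) f = divisorOf (K := K) (g • f) := by
  refine Finsupp.ext fun Q => ?_
  rw [SemilinearAut.divisor_smul_apply, divisorOf_apply, divisorOf_apply,
    ← SemilinearAut.ord_smul g (g⁻¹ • Q) f, smul_inv_smul]

section Extension

variable [Algebra K K'] [Algebra F F'] [Algebra K F'] [IsScalarTower K F F']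
  [IsScalarTower K K' F'] [IsAlgClosed K] [CharZero K] [IsFunctionField1 K F]
  [FermatAgent.Curve.Descent.IsConstantExtension K K' F F'] [IsAlgClosed K']
  [IsFunctionField1 K' F']

theorem isLocalDiv_extDivisor :
    IsLocalDiv (FermatAgent.Curve.Descent.extDivisor (K := K) (F := F) K' F') := by
  classical
  intro Q
  by_cases hQ : ∃ P : Place K F, FermatAgent.Curve.Descent.extPlace K' F' P = Q
  · obtain ⟨P, rfl⟩ := hQ
    exact ⟨{P}, fun D hD => by
      rw [FermatAgent.Curve.Descent.extDivisor_apply_extPlace, hD P (Finset.mem_singleton_self P)]⟩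
  · exact ⟨∅, fun D _ => FermatAgent.Curve.Descent.extDivisor_apply_of_notMem
      fun ⟨P, hP⟩ => hQ ⟨P, hP⟩⟩

end Extension

section Norm

variable {K : Type*} [Field K] [IsAlgClosed K] {F F₁ : Type*} [Field F] [Field F₁] [Algebra K F]
  [Algebra K F₁] [IsFunctionField1 K F] [IsFunctionField1 K F₁]
  (φ ψ : F →ₐ[K] F₁) (hφ : φ.toRingHom.IsIntegral) (hψ : ψ.toRingHom.IsIntegral)

/-- The correspondence on the divisor of a function is the divisor of the norm. -/
theorem correspondence_divisorOf {f : F} (hf : f ≠ 0) :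
    letI := algebraAlong ψ
    Divisor.correspondence φ ψ hφ hψ (divisorOf f) = divisorOf (Algebra.norm F (φ f)) := by
  rw [Divisor.correspondence_apply, FermatAgent.Curve.pullbackAlong_divisorOf]
  exact FermatAgent.Curve.pushforwardAlong_divisorOf ψ hψ ((map_ne_zero φ).mpr hf)

end Norm

section NormMap

variable {F F₁ E E₁ : Type*} [Field F] [Field F₁] [Field E] [Field E₁] [Algebra F F₁]
  [Algebra E E₁] [FiniteDimensional F F₁] [FiniteDimensional E E₁]

omit [FiniteDimensional E E₁] in
/-- The norm commutes with an extension of scalars preserving the degree. -/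
theorem norm_map_of_span (ι : F →+* E) (κ : F₁ →+* E₁)
    (hcomp : ∀ x, κ (algebraMap F F₁ x) = algebraMap E E₁ (ι x))
    (hgen : Submodule.span E (Set.range κ) = ⊤)
    (hrank : Module.finrank E E₁ = Module.finrank F F₁) (y : F₁) :
    ι (Algebra.norm F y) = Algebra.norm E (κ y) := by
  classical
  let b := Module.finBasis F F₁
  have hexp : ∀ z, κ z = ∑ i, ι (b.repr z i) • κ (b i) := fun z => by
    conv_lhs => rw [← b.sum_repr z]
    simp only [map_sum, Algebra.smul_def, map_mul, hcomp]
  have hspan : ⊤ ≤ Submodule.span E (Set.range fun i => κ (b i)) := by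
    rw [← hgen, Submodule.span_le]
    rintro _ ⟨z, rfl⟩
    rw [hexp z]
    exact Submodule.sum_mem _ fun i _ =>
      Submodule.smul_mem _ _ (Submodule.subset_span ⟨i, rfl⟩)
  have hcard : Fintype.card (Fin (Module.finrank F F₁)) = Module.finrank E E₁ := by
    rw [Fintype.card_fin, hrank]
  let c : Module.Basis (Fin (Module.finrank F F₁)) E E₁ :=
    basisOfTopLeSpanOfCardEqFinrank _ hspan hcard
  have hc : ∀ i, c i = κ (b i) := fun i => by
    simp [c]
  have hrepr : ∀ z i, c.repr (κ z) i = ι (b.repr z i) := fun z => by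
    intro i
    have h : κ z = ∑ i, ι (b.repr z i) • c i := by simp only [hc]; exact hexp z
    rw [h, c.repr_sum_self]
  rw [Algebra.norm_eq_matrix_det b, Algebra.norm_eq_matrix_det c, RingHom.map_det]
  congr 1
  ext i j
  rw [RingHom.mapMatrix_apply, Matrix.map_apply, Algebra.leftMulMatrix_eq_repr_mul,
    Algebra.leftMulMatrix_eq_repr_mul, ← hrepr, map_mul, hc]

end NormMap

end FermatAgent.ModCurveTorsion

end
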