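import Fermat.Agent.ModCurve.Torsion.HeckeInputs
import Fermat.Agent.ModCurve.Torsion.LocalDivisor

/-!
The Hecke correspondences on divisors over an algebraically closed field.
-/

set_option autoImplicit false

noncomputable section

namespace FermatAgent.ModCurveTorsion

open ModularCurve AlgebraicCurve
open FermatAgent.Curve (divisorOf)

variable (L : Type*) [Field L] [Algebra ℚ L] [IsAlgClosed L] (N ℓ : ℕ) [NeZero N] [NeZero ℓ]

local notation "𝐅" => laurentBaseChange L (modularFunctionFieldFull N)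

instance neZero_level_mul : NeZero (N * ℓ) := ⟨mul_ne_zero (NeZero.ne N) (NeZero.ne ℓ)⟩

omit [IsAlgClosed L] in
/-- The function fields are function fields in one variable. -/
theorem hecke_isFunctionField1_pair :
    FermatAgent.Curve.IsFunctionField1 L 𝐅 ∧
      FermatAgent.Curve.IsFunctionField1 L
        (laurentBaseChange L (modularFunctionFieldFull (N * ℓ))) :=
  ⟨isFunctionField1_laurent L N, isFunctionField1_laurent L (N * ℓ)⟩

omit [IsAlgClosed L] in
theorem heckeAlpha_isIntegral : (heckeAlphaBar L N ℓ).toRingHom.IsIntegral :=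
  haveI := (hecke_isFunctionField1_pair L N ℓ).1
  haveI := (hecke_isFunctionField1_pair L N ℓ).2
  FermatAgent.Curve.isIntegralAlong _

omit [IsAlgClosed L] in
theorem heckeBeta_isIntegral : (heckeBetaBar L N ℓ).toRingHom.IsIntegral :=
  haveI := (hecke_isFunctionField1_pair L N ℓ).1
  haveI := (hecke_isFunctionField1_pair L N ℓ).2
  FermatAgent.Curve.isIntegralAlong _

/-- The correspondence on divisors. -/
def heckeDiv : Divisor L 𝐅 →+ Divisor L 𝐅 :=
  haveI := isFunctionField1_laurent L (N * ℓ)
  Divisor.correspondence (heckeBetaBar L N ℓ) (heckeAlphaBar L N ℓ) (heckeBeta_isIntegral L N ℓ)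
    (heckeAlpha_isIntegral L N ℓ)

theorem isLocalDiv_heckeDiv : IsLocalDiv (heckeDiv L N ℓ) :=
  haveI := isFunctionField1_laurent L (N * ℓ)
  isLocalDiv_correspondence _ _ _ _

/-- The norm along the first degeneracy map of the pull back along the second. -/
def heckeNorm (f : 𝐅) : 𝐅 :=
  letI := algebraAlong (heckeAlphaBar L N ℓ)
  Algebra.norm 𝐅 (heckeBetaBar L N ℓ f)

theorem heckeDiv_divisorOf {f : 𝐅} (hf : f ≠ 0) :
    haveI := isFunctionField1_laurent L N
    heckeDiv L N ℓ (divisorOf f) = divisorOf (heckeNorm L N ℓ f) :=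
  haveI := isFunctionField1_laurent L N
  haveI := isFunctionField1_laurent L (N * ℓ)
  correspondence_divisorOf (heckeBetaBar L N ℓ) (heckeAlphaBar L N ℓ)
    (heckeBeta_isIntegral L N ℓ) (heckeAlpha_isIntegral L N ℓ) hf

omit [IsAlgClosed L] in
theorem heckeNorm_ne_zero {f : 𝐅} (hf : f ≠ 0) : heckeNorm L N ℓ f ≠ 0 := by
  have := isFunctionField1_laurent L N
  have := isFunctionField1_laurent L (N * ℓ)
  let := algebraAlong (heckeAlphaBar L N ℓ)
  have := isScalarTower_along (heckeAlphaBar L N ℓ)
  have : FiniteDimensional 𝐅 (laurentBaseChange L (modularFunctionFieldFull (N * ℓ))) :=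
    FermatAgent.Curve.finiteAlong (heckeAlphaBar L N ℓ)
  exact Algebra.norm_ne_zero_iff.mpr ((map_ne_zero (heckeBetaBar L N ℓ)).mpr hf)

theorem heckeDiv_mem_degZero {D : Divisor L 𝐅} (hD : D ∈ Divisor.degZero (K := L) (F := 𝐅)) :
    heckeDiv L N ℓ D ∈ Divisor.degZero (K := L) (F := 𝐅) :=
  haveI := isFunctionField1_laurent L N
  haveI := isFunctionField1_laurent L (N * ℓ)
  Divisor.correspondence_mem_degZero _ _ _ _ (FermatAgent.Curve.fundamentalIdentityAlong _ _) hD

theorem heckeOperatorAlong_mk (D : Divisor.degZero (K := L) (F := 𝐅)) :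
    heckeOperatorAlong L N ℓ (Pic0.mk D) =
      Pic0.mk ⟨heckeDiv L N ℓ D, heckeDiv_mem_degZero L N ℓ D.2⟩ := by
  have := isFunctionField1_laurent L N
  have := isFunctionField1_laurent L (N * ℓ)
  rw [heckeOperatorAlong_eq (heckeAlpha_isIntegral L N ℓ) (heckeBeta_isIntegral L N ℓ)
    (FermatAgent.Curve.fundamentalIdentityAlong _ _) (FermatAgent.Curve.finiteAlong _)
    (FermatAgent.Curve.normFormulaAlong _ _)]
  rfl

end FermatAgent.ModCurveTorsion

end
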