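import Fermat.Agent.ModCurve.Torsion.HeckeDiv
import Fermat.Agent.ModCurve.Torsion.DegreeRatio
import Fermat.Agent.ModCurve.Fun.BaseChange
import Fermat.Agent.ModCurve.Points.Places
import Fermat.Agent.Curve.Descent.Laurent
import Mathlib.FieldTheory.IntermediateField.Adjoin.Algebra

/-!
Extension of constants from `ℚ̄` to `ℂ` for divisors and `Pic⁰` of `X₀(N)`, and its compatibility
with the Hecke correspondences.
-/

set_option autoImplicit false
set_option maxHeartbeats 1600000

noncomputable section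

namespace FermatAgent.ModCurveTorsion

open ModularCurve AlgebraicCurve
open FermatAgent.Curve (divisorOf IsFunctionField1)
open FermatAgent.Curve.Descent
open FermatAgent.ModCurve.Points (FieldC)

local notation "ℚbar" => AlgebraicClosure ℚ

/-- `ℚ̄(X₀(N))`. -/
abbrev FieldBar (N : ℕ) : Type := ↥(laurentBaseChange ℚbar (modularFunctionFieldFull N))

/-- The fixed embedding `ℚ̄ → ℂ` as an algebra structure. -/
@[reducible]
def qbarAlgebraC : Algebra ℚbar ℂ := FermatAgent.ModFun.qbarToC.toRingHom.toAlgebra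

attribute [local instance] qbarAlgebraC

/-- Constants of `ℚ̄` in `ℂ(X₀(N))`. -/
@[reducible]
def qbarAlgebraFieldC (N : ℕ) : Algebra ℚbar (FieldC N) :=
  laurentConstAlgebra ℚbar ℂ (modularFunctionFieldFull N)

/-- `ℚ̄(X₀(N)) → ℂ(X₀(N))`. -/
@[reducible]
def fieldBarAlgebraC (N : ℕ) : Algebra (FieldBar N) (FieldC N) :=
  laurentExtAlgebra ℚbar ℂ (modularFunctionFieldFull N)

attribute [local instance] qbarAlgebraFieldC fieldBarAlgebraC

theorem qbar_isScalarTower_const (N : ℕ) : IsScalarTower ℚbar ℂ (FieldC N) :=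
  laurent_isScalarTower_const ℚbar ℂ (modularFunctionFieldFull N)

theorem qbar_isScalarTower_ext (N : ℕ) : IsScalarTower ℚbar (FieldBar N) (FieldC N) :=
  laurent_isScalarTower_ext ℚbar ℂ (modularFunctionFieldFull N)

attribute [local instance] qbar_isScalarTower_const qbar_isScalarTower_ext

theorem coe_algebraMap_fieldBar (N : ℕ) (x : FieldBar N) :
    (algebraMap (FieldBar N) (FieldC N) x : LaurentSeries ℂ) =
      coeffMap (algebraMap ℚbar ℂ) (x : LaurentSeries ℚbar) := rfl

theorem algebraMap_jBar (N : ℕ) [NeZero N] :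
    algebraMap (FieldBar N) (FieldC N) (FermatAgent.ModFun.jBar ℚbar N) =
      FermatAgent.ModFun.jBar ℂ N :=
  Subtype.ext (ModularCurve.coeffMap_jqModC _)

theorem algebraMap_jNBar (N : ℕ) [NeZero N] :
    algebraMap (FieldBar N) (FieldC N) (FermatAgent.ModFun.jNBar ℚbar N) =
      FermatAgent.ModFun.jNBar ℂ N :=
  Subtype.ext (ModularCurve.coeffMap_jqNModC _ N)

theorem qbar_isConstantExtension (N : ℕ) [NeZero N] :
    IsConstantExtension ℚbar ℂ (FieldBar N) (FieldC N) := by
  refine ⟨top_le_iff.1 ?_, ⟨FermatAgent.ModFun.jBar ℚbar N, ?_⟩⟩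
  · rw [← FermatAgent.ModFun.adjoin_jBar_jNBar ℂ N, IntermediateField.adjoin_le_iff]
    rintro x (rfl | rfl)
    · exact IntermediateField.subset_adjoin _ _ ⟨_, algebraMap_jBar N⟩
    · exact IntermediateField.subset_adjoin _ _ ⟨_, algebraMap_jNBar N⟩
  · rw [algebraMap_jBar]
    exact FermatAgent.ModFun.transcendental_jBar ℂ N

variable (N : ℕ) [NeZero N]

attribute [local instance] qbar_isConstantExtension

instance instIsFunctionField1FieldBar : IsFunctionField1 ℚbar (FieldBar N) :=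
  isFunctionField1_laurent ℚbar N

/-- Divisors over `ℚ̄` as divisors over `ℂ`. -/
def divBaseC : Divisor ℚbar (FieldBar N) →+ Divisor ℂ (FieldC N) :=
  extDivisor (K := ℚbar) (F := FieldBar N) ℂ (FieldC N)

/-- `J₀(N)(ℚ̄) → J₀(N)(ℂ)`. -/
def jBaseC : JZero N →+ Pic0 ℂ (FieldC N) :=
  pic0Map (K := ℚbar) (F := FieldBar N) ℂ (FieldC N)

theorem jBaseC_injective : Function.Injective (jBaseC N) :=
  pic0Map_injective (K := ℚbar) (F := FieldBar N) (K' := ℂ) (F' := FieldC N)

theorem degree_divBaseC (D : Divisor ℚbar (FieldBar N)) :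
    Divisor.degree (divBaseC N D) = Divisor.degree D :=
  degree_extDivisor (K' := ℂ) (F' := FieldC N) D

theorem jBaseC_mk (D : Divisor.degZero (K := ℚbar) (F := FieldBar N)) :
    jBaseC N (Pic0.mk D) = Pic0.mk ⟨divBaseC N (D : Divisor ℚbar (FieldBar N)), by
      rw [Divisor.mem_degZero, degree_divBaseC]; exact D.2⟩ :=
  pic0Map_mk D

theorem isLocalDiv_divBaseC : IsLocalDiv (divBaseC N) :=
  isLocalDiv_extDivisor (K := ℚbar) (F := FieldBar N) (K' := ℂ) (F' := FieldC N)

theorem divBaseC_divisorOf (f : FieldBar N) :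
    divBaseC N (divisorOf f) = divisorOf (algebraMap (FieldBar N) (FieldC N) f) :=
  extDivisor_divisorOf (K := ℚbar) (K' := ℂ) (F' := FieldC N) f

variable (ℓ : ℕ) [NeZero ℓ]

theorem algebraMap_heckeAlphaBar (x : FieldBar N) :
    algebraMap (FieldBar (N * ℓ)) (FieldC (N * ℓ)) (heckeAlphaBar ℚbar N ℓ x) =
      heckeAlphaBar ℂ N ℓ (algebraMap (FieldBar N) (FieldC N) x) := by
  refine Subtype.ext ?_
  rw [coe_algebraMap_fieldBar, coe_heckeAlphaBar, coe_heckeAlphaBar, coe_algebraMap_fieldBar]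

omit [NeZero N] in
theorem algebraMap_heckeBetaBar (x : FieldBar N) :
    algebraMap (FieldBar (N * ℓ)) (FieldC (N * ℓ)) (heckeBetaBar ℚbar N ℓ x) =
      heckeBetaBar ℂ N ℓ (algebraMap (FieldBar N) (FieldC N) x) := by
  refine Subtype.ext ?_
  rw [coe_algebraMap_fieldBar, coe_heckeBetaBar, coe_heckeBetaBar, coe_algebraMap_fieldBar,
    ModularCurve.coeffMap_qExpand]

theorem span_range_fieldBar :
    letI := algebraAlong (heckeAlphaBar ℂ N ℓ)
    Submodule.span (FieldC N)
      (Set.range (algebraMap (FieldBar (N * ℓ)) (FieldC (N * ℓ)))) = ⊤ := by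
  have : NeZero (N * ℓ) := neZero_level_mul N ℓ
  let := algebraAlong (heckeAlphaBar ℂ N ℓ)
  have := isScalarTower_along (heckeAlphaBar ℂ N ℓ)
  have : FiniteDimensional (FieldC N) (FieldC (N * ℓ)) :=
    FermatAgent.Curve.finiteAlong (heckeAlphaBar ℂ N ℓ)
  set S : Set (FieldC (N * ℓ)) := Set.range (algebraMap (FieldBar (N * ℓ)) (FieldC (N * ℓ)))
  have hclos : (Submonoid.closure S : Set (FieldC (N * ℓ))) = S := by
    have h : S = (MonoidHom.mrange
        (algebraMap (FieldBar (N * ℓ)) (FieldC (N * ℓ))).toMonoidHom : Set _) :=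
      (MonoidHom.coe_mrange _).symm
    rw [h, Submonoid.closure_eq]
  have htop : IntermediateField.adjoin (FieldC N) S = ⊤ := by
    have h1 : (⊤ : IntermediateField ℂ (FieldC (N * ℓ))) ≤
        (IntermediateField.adjoin (FieldC N) S).restrictScalars ℂ := by
      rw [← (qbar_isConstantExtension (N * ℓ)).adjoin_range, IntermediateField.adjoin_le_iff]
      intro x hx
      exact IntermediateField.subset_adjoin (FieldC N) S hx
    exact eq_top_iff.mpr fun x _ => h1 (IntermediateField.mem_top (x := x))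
  rw [← Submodule.restrictScalars_eq_top_iff (S := FieldC N)]
  show Submodule.span (FieldC N) S = ⊤
  conv_lhs => rw [← hclos]
  rw [← Algebra.adjoin_eq_span,
    ← IntermediateField.adjoin_toSubalgebra_of_isAlgebraic (fun x _ => Algebra.IsAlgebraic.isAlgebraic x),
    htop, IntermediateField.top_toSubalgebra, Algebra.top_toSubmodule]

theorem finrankAlong_heckeAlphaBar_eq :
    finrankAlong ℂ (heckeAlphaBar ℂ N ℓ) = finrankAlong ℚbar (heckeAlphaBar ℚbar N ℓ) :=
  Nat.eq_of_mul_eq_mul_left (dedekindPsi_pos (NeZero.ne N))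
    ((finrankAlong_heckeAlphaBar N ℓ ℂ).trans (finrankAlong_heckeAlphaBar N ℓ ℚbar).symm)

theorem algebraMap_heckeNorm (f : FieldBar N) :
    algebraMap (FieldBar N) (FieldC N) (heckeNorm ℚbar N ℓ f) =
      heckeNorm ℂ N ℓ (algebraMap (FieldBar N) (FieldC N) f) := by
  have : NeZero (N * ℓ) := neZero_level_mul N ℓ
  let := algebraAlong (heckeAlphaBar ℚbar N ℓ)
  have := isScalarTower_along (heckeAlphaBar ℚbar N ℓ)
  let := algebraAlong (heckeAlphaBar ℂ N ℓ)
  have := isScalarTower_along (heckeAlphaBar ℂ N ℓ)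
  have : FiniteDimensional (FieldBar N) (FieldBar (N * ℓ)) :=
    FermatAgent.Curve.finiteAlong (heckeAlphaBar ℚbar N ℓ)
  have : FiniteDimensional (FieldC N) (FieldC (N * ℓ)) :=
    FermatAgent.Curve.finiteAlong (heckeAlphaBar ℂ N ℓ)
  show algebraMap (FieldBar N) (FieldC N) (Algebra.norm (FieldBar N) (heckeBetaBar ℚbar N ℓ f)) =
    Algebra.norm (FieldC N) (heckeBetaBar ℂ N ℓ (algebraMap (FieldBar N) (FieldC N) f))
  rw [← algebraMap_heckeBetaBar]
  exact norm_map_of_span (algebraMap (FieldBar N) (FieldC N))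
    (algebraMap (FieldBar (N * ℓ)) (FieldC (N * ℓ))) (algebraMap_heckeAlphaBar N ℓ)
    (span_range_fieldBar N ℓ) (finrankAlong_heckeAlphaBar_eq N ℓ) _

theorem divBaseC_heckeDiv (D : Divisor ℚbar (FieldBar N)) :
    divBaseC N (heckeDiv ℚbar N ℓ D) = heckeDiv ℂ N ℓ (divBaseC N D) := by
  suffices (divBaseC N).comp (heckeDiv ℚbar N ℓ) = (heckeDiv ℂ N ℓ).comp (divBaseC N) from
    DFunLike.congr_fun this D
  refine IsLocalDiv.ext ((isLocalDiv_divBaseC N).comp (isLocalDiv_heckeDiv ℚbar N ℓ))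
    ((isLocalDiv_heckeDiv ℂ N ℓ).comp (isLocalDiv_divBaseC N)) fun f hf => ?_
  rw [AddMonoidHom.comp_apply, AddMonoidHom.comp_apply, heckeDiv_divisorOf ℚbar N ℓ hf,
    divBaseC_divisorOf, divBaseC_divisorOf, algebraMap_heckeNorm,
    heckeDiv_divisorOf ℂ N ℓ ((map_ne_zero (algebraMap (FieldBar N) (FieldC N))).mpr hf)]

theorem jBaseC_heckeOperatorAlong (x : JZero N) :
    jBaseC N (heckeOperatorAlong ℚbar N ℓ x) = heckeOperatorAlong ℂ N ℓ (jBaseC N x) := by
  obtain ⟨D, rfl⟩ := Pic0.mk_surjective x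
  rw [heckeOperatorAlong_mk, jBaseC_mk, jBaseC_mk, heckeOperatorAlong_mk]
  exact congrArg Pic0.mk (Subtype.ext (divBaseC_heckeDiv N ℓ D))

end FermatAgent.ModCurveTorsion

end
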