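import Fermat.Agent.Periods.HeckeHom

/-!
Conjugation by `w_N = !![0, -1; N, 0]` on `Γ₀(N)`, on correspondences and on transfer operators.
-/

set_option autoImplicit false

noncomputable section

namespace FermatAgent.ModCurveTorsion

open CongruenceSubgroup FermatAgent.Periods ModularCurve.Period
open scoped MatrixGroups

variable (N : ℕ)

/-- `w_N M w_N⁻¹` for an integral matrix whose lower left entry is divisible by `N`. -/
def wMat (M : Matrix (Fin 2) (Fin 2) ℤ) : Matrix (Fin 2) (Fin 2) ℤ :=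
  !![M 1 1, -(M 1 0 / (N : ℤ)); -((N : ℤ) * M 0 1), M 0 0]

variable {N}

theorem dvd_wMat_one_zero (M : Matrix (Fin 2) (Fin 2) ℤ) : (N : ℤ) ∣ wMat N M 1 0 :=
  ⟨-M 0 1, by simp [wMat]⟩

variable [NeZero N]

theorem natCast_level_ne_zero : (N : ℤ) ≠ 0 := Int.natCast_ne_zero.mpr (NeZero.ne N)

theorem det_wMat {M : Matrix (Fin 2) (Fin 2) ℤ} (h : (N : ℤ) ∣ M 1 0) :
    (wMat N M).det = M.det := by
  obtain ⟨c, hc⟩ := h
  simp [wMat, Matrix.det_fin_two, hc, Int.mul_ediv_cancel_left _ natCast_level_ne_zero]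
  ring

omit [NeZero N] in
theorem trace_wMat (M : Matrix (Fin 2) (Fin 2) ℤ) : (wMat N M).trace = M.trace := by
  simp [wMat, Matrix.trace_fin_two]
  ring

theorem wMat_wMat {M : Matrix (Fin 2) (Fin 2) ℤ} (h : (N : ℤ) ∣ M 1 0) :
    wMat N (wMat N M) = M := by
  obtain ⟨c, hc⟩ := h
  ext i j
  fin_cases i <;> fin_cases j <;>
    simp [wMat, hc, Int.mul_ediv_cancel_left _ (natCast_level_ne_zero (N := N)), Int.neg_ediv_of_dvd]

theorem wMat_mul {M M' : Matrix (Fin 2) (Fin 2) ℤ} (h : (N : ℤ) ∣ M 1 0)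
    (h' : (N : ℤ) ∣ M' 1 0) : wMat N (M * M') = wMat N M * wMat N M' := by
  obtain ⟨c, hc⟩ := h
  obtain ⟨c', hc'⟩ := h'
  have hcc : (M * M') 1 0 = (N : ℤ) * (c * M' 0 0 + M 1 1 * c') := by
    rw [Matrix.mul_apply, Fin.sum_univ_two, hc, hc']
    ring
  ext i j
  fin_cases i <;> fin_cases j <;>
    simp [wMat, hc, hc', hcc, Matrix.mul_apply, Fin.sum_univ_two,
      Int.mul_ediv_cancel_left _ natCast_level_ne_zero] <;> ring

omit [NeZero N] in
theorem dvd_gamma0_one_zero (γ : Gamma0 N) :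
    (N : ℤ) ∣ ((γ : SL(2, ℤ)) : Matrix (Fin 2) (Fin 2) ℤ) 1 0 :=
  (ZMod.intCast_zmod_eq_zero_iff_dvd _ _).mp (Gamma0_mem.mp γ.2)

variable (N) in
/-- Conjugation by `w_N` on `Γ₀(N)`. -/
def wGamma0 : Gamma0 N →* Gamma0 N where
  toFun γ :=
    ⟨⟨wMat N ((γ : SL(2, ℤ)) : Matrix (Fin 2) (Fin 2) ℤ),
      (det_wMat (dvd_gamma0_one_zero γ)).trans (γ : SL(2, ℤ)).2⟩,
      Gamma0_mem.mpr ((ZMod.intCast_zmod_eq_zero_iff_dvd _ _).mpr (dvd_wMat_one_zero _))⟩
  map_one' := by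
    refine Subtype.ext (Subtype.ext ?_)
    ext i j
    fin_cases i <;> fin_cases j <;> simp [wMat]
  map_mul' γ δ := by
    refine Subtype.ext (Subtype.ext ?_)
    exact wMat_mul (dvd_gamma0_one_zero γ) (dvd_gamma0_one_zero δ)

theorem coe_wGamma0 (γ : Gamma0 N) :
    ((wGamma0 N γ : SL(2, ℤ)) : Matrix (Fin 2) (Fin 2) ℤ) =
      wMat N ((γ : SL(2, ℤ)) : Matrix (Fin 2) (Fin 2) ℤ) := rfl

theorem wGamma0_wGamma0 (γ : Gamma0 N) : wGamma0 N (wGamma0 N γ) = γ := by
  refine Subtype.ext (Subtype.ext ?_)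
  exact wMat_wMat (dvd_gamma0_one_zero γ)

section Homs

variable (N) (R : Type*) [Semiring R] (A : Type*) [AddCommGroup A] [Module R A]

/-- The action of `w_N` on additive characters. -/
def wInvolution : (Additive (Gamma0 N) →+ A) →ₗ[R] (Additive (Gamma0 N) →+ A) where
  toFun φ := φ.comp (MonoidHom.toAdditive (wGamma0 N))
  map_add' _ _ := rfl
  map_smul' _ _ := rfl

variable {N R A}

@[simp]
theorem wInvolution_apply (φ : Additive (Gamma0 N) →+ A) (γ : Gamma0 N) :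
    wInvolution N R A φ (Additive.ofMul γ) = φ (Additive.ofMul (wGamma0 N γ)) := rfl

theorem wInvolution_wInvolution (φ : Additive (Gamma0 N) →+ A) :
    wInvolution N R A (wInvolution N R A φ) = φ := by
  refine AddMonoidHom.ext fun x => ?_
  show φ (Additive.ofMul (wGamma0 N (wGamma0 N (Additive.toMul x)))) = φ x
  rw [wGamma0_wGamma0]
  rfl

theorem wInvolution_mem_parabolicHoms {φ : Additive (Gamma0 N) →+ A}
    (hφ : φ ∈ parabolicHoms R (Gamma0 N) A) :
    wInvolution N R A φ ∈ parabolicHoms R (Gamma0 N) A := by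
  rw [mem_parabolicHoms_iff] at hφ ⊢
  intro γ hγ
  refine hφ (wGamma0 N γ) ?_
  rw [coe_wGamma0, trace_wMat]
  exact hγ

end Homs

variable {ι : Type}

/-- The correspondence conjugated by `w_N`. -/
def wCorr (D : HeckeCorr (Gamma0 N) ι) (hD : ∀ i, (N : ℤ) ∣ D.rep i 1 0) :
    HeckeCorr (Gamma0 N) ι where
  rep i := wMat N (D.rep i)
  det_ne i := by rw [det_wMat (hD i)]; exact D.det_ne i
  exists_move γ i := by
    refine ⟨D.target (wGamma0 N γ) i, wGamma0 N (D.move (wGamma0 N γ) i), ?_⟩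
    have h := congrArg (wMat N) (D.move_spec (wGamma0 N γ) i)
    rw [wMat_mul (hD i) (dvd_gamma0_one_zero _), wMat_mul (dvd_gamma0_one_zero _) (hD _),
      ← coe_wGamma0, ← coe_wGamma0, wGamma0_wGamma0] at h
    exact h
  rep_sep δ i j h := by
    refine D.rep_sep (wGamma0 N δ) i j ?_
    have h' := congrArg (wMat N) h
    rw [wMat_mul (dvd_gamma0_one_zero δ) (dvd_wMat_one_zero _), wMat_wMat (hD i),
      wMat_wMat (hD j), ← coe_wGamma0] at h'
    exact h'

@[simp]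
theorem wCorr_rep (D : HeckeCorr (Gamma0 N) ι) (hD : ∀ i, (N : ℤ) ∣ D.rep i 1 0) (i : ι) :
    (wCorr D hD).rep i = wMat N (D.rep i) := rfl

/-- The transfer of the conjugated correspondence is the conjugated transfer. -/
theorem transfer_wCorr [Fintype ι] (R : Type*) [Semiring R] {A : Type*} [AddCommGroup A]
    [Module R A] (D : HeckeCorr (Gamma0 N) ι) (hD : ∀ i, (N : ℤ) ∣ D.rep i 1 0)
    (φ : Additive (Gamma0 N) →+ A) :
    (wCorr D hD).transfer R φ =
      wInvolution N R A (D.transfer R (wInvolution N R A φ)) := by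
  refine AddMonoidHom.ext fun x => ?_
  obtain ⟨γ, rfl⟩ : ∃ γ, Additive.ofMul γ = x := ⟨Additive.toMul x, rfl⟩
  rw [wInvolution_apply, HeckeCorr.transfer_apply_of_eq (wCorr D hD) R φ γ
    (fun i => D.target (wGamma0 N γ) i) (fun i => wGamma0 N (D.move (wGamma0 N γ) i)) fun i => ?_,
    HeckeCorr.transfer_apply]
  · rfl
  · have h := congrArg (wMat N) (D.move_spec (wGamma0 N γ) i)
    rw [wMat_mul (hD i) (dvd_gamma0_one_zero _), wMat_mul (dvd_gamma0_one_zero _) (hD _),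
      ← coe_wGamma0, ← coe_wGamma0, wGamma0_wGamma0] at h
    exact h

omit [NeZero N] in
theorem tRep_one_zero (p : ℕ) (x : Option (ZMod p)) : (N : ℤ) ∣ tRep p x 1 0 := by
  cases x <;> simp [tRep, diagRep, upperRep]

omit [NeZero N] in
theorem upperRep_one_zero (q : ℕ) (j : ℤ) : (N : ℤ) ∣ upperRep q j 1 0 := by simp [upperRep]

end FermatAgent.ModCurveTorsion

end
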