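import Fermat.Agent.ModCurve.Group.Conjugacy
import Fermat.Agent.ModCurve.Group.Dessin
import Mathlib.NumberTheory.ModularForms.EisensteinSeries.Basic
import Mathlib.NumberTheory.ModularForms.EisensteinSeries.UniformConvergence
import Mathlib.NumberTheory.ModularForms.EisensteinSeries.MDifferentiable
import Mathlib.NumberTheory.ModularForms.EisensteinSeries.IsBoundedAtImInfty

/-!
Weight four Eisenstein series of `Γ₀(N)` at the cusp `∞` twisted by a character which is trivial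
on elliptic and parabolic elements.
-/

set_option autoImplicit false

noncomputable section

open scoped MatrixGroups ModularForm Manifold
open UpperHalfPlane hiding I
open Filter Topology CongruenceSubgroup Matrix EisensteinSeries

namespace FermatAgent.ModCurveTorsion

local notation "Z²" => (Fin 2 → ℤ)
local notation "M₂" => Matrix (Fin 2) (Fin 2) ℤ

/-- Right multiplication by an element of `SL(2, ℤ)` as a permutation of `ℤ²`. -/
def rowEquiv (A : SL(2, ℤ)) : Z² ≃ Z² where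
  toFun v := v ᵥ* (A : M₂)
  invFun v := v ᵥ* ((A⁻¹ : SL(2, ℤ)) : M₂)
  left_inv v := by
    have h : (A : M₂) * ((A⁻¹ : SL(2, ℤ)) : M₂) = 1 := congrArg Subtype.val (mul_inv_cancel A)
    show (v ᵥ* (A : M₂)) ᵥ* ((A⁻¹ : SL(2, ℤ)) : M₂) = v
    rw [Matrix.vecMul_vecMul, h, Matrix.vecMul_one]
  right_inv v := by
    have h : ((A⁻¹ : SL(2, ℤ)) : M₂) * (A : M₂) = 1 := congrArg Subtype.val (inv_mul_cancel A)
    show (v ᵥ* ((A⁻¹ : SL(2, ℤ)) : M₂)) ᵥ* (A : M₂) = v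
    rw [Matrix.vecMul_vecMul, h, Matrix.vecMul_one]

/-- The weight four series with coefficients `c`. -/
def pairSeries (c : Z² → ℂ) (τ : ℍ) : ℂ := ∑' v : Z², c v * eisSummand 4 v τ

theorem summable_pairSeries {c : Z² → ℂ} (hc : ∀ v, ‖c v‖ ≤ 1) (τ : ℍ) :
    Summable fun v : Z² => c v * eisSummand 4 v τ :=
  Summable.of_norm_bounded (summable_norm_eisSummand (k := 4) (by norm_num) τ) fun v => by
    rw [norm_mul]
    exact mul_le_of_le_one_left (norm_nonneg _) (hc v)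

theorem norm_pairSeries_le {c : Z² → ℂ} (hc : ∀ v, ‖c v‖ ≤ 1) (τ : ℍ) :
    ‖pairSeries c τ‖ ≤ ∑' v : Z², ‖eisSummand 4 v τ‖ := by
  refine (norm_tsum_le_tsum_norm (summable_pairSeries hc τ).norm).trans ?_
  refine (summable_pairSeries hc τ).norm.tsum_le_tsum (fun v => ?_)
    (summable_norm_eisSummand (by norm_num) τ)
  rw [norm_mul]
  exact mul_le_of_le_one_left (norm_nonneg _) (hc v)

theorem norm_eisSummand_le_of_mem_strip {A B : ℝ} (hB : 0 < B) {τ : ℍ} (hτ : τ ∈ verticalStrip A B)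
    (v : Z²) : ‖eisSummand 4 v τ‖ ≤ r ⟨⟨A, B⟩, hB⟩ ^ (-4 : ℝ) * ‖v‖ ^ (-4 : ℝ) := by
  -- real exponents
  have := summand_bound_of_mem_verticalStrip (k := 4) (by norm_num) v hB hτ
  simp only [eisSummand, norm_zpow]
  rw [← Real.rpow_intCast]
  exact_mod_cast this

theorem summable_norm_pair : Summable fun v : Z² => ‖v‖ ^ (-4 : ℝ) :=
  summable_one_div_norm_rpow (k := 4) (by norm_num)

theorem mdifferentiable_pairSeries {c : Z² → ℂ} (hc : ∀ v, ‖c v‖ ≤ 1) :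
    MDiff (pairSeries c) := by
  rw [UpperHalfPlane.mdifferentiable_iff]
  intro z hz
  refine (DifferentiableOn.differentiableAt ?_ ((UpperHalfPlane.isOpen_upperHalfPlaneSet).mem_nhds hz)
    ).differentiableWithinAt
  have hloc : TendstoLocallyUniformly (fun (s : Finset Z²) (τ : ℍ) => ∑ v ∈ s, c v * eisSummand 4 v τ)
      (pairSeries c) atTop := by
    rw [tendstoLocallyUniformly_iff_forall_isCompact]
    intro K hK
    obtain ⟨A, B, hB, hABK⟩ := subset_verticalStrip_of_isCompact hK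
    refine (tendstoUniformlyOn_tsum (u := fun v : Z² => r ⟨⟨A, B⟩, hB⟩ ^ (-4 : ℝ) * ‖v‖ ^ (-4 : ℝ))
      (summable_norm_pair.mul_left _) (fun v τ hτ => ?_)).mono hABK
    rw [norm_mul]
    exact (mul_le_of_le_one_left (norm_nonneg _) (hc v)).trans
      (norm_eisSummand_le_of_mem_strip hB hτ v)
  have hlocC : TendstoLocallyUniformlyOn
      (fun (s : Finset Z²) => ↑ₕ(fun τ : ℍ => ∑ v ∈ s, c v * eisSummand 4 v τ))
      (↑ₕ(pairSeries c)) atTop upperHalfPlaneSet := by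
    rw [← range_coe, ← Set.image_univ]
    apply TendstoLocallyUniformlyOn.comp (s := ⊤) _ _ _ (OpenPartialHomeomorph.continuousOn_symm _)
    · simpa only [Set.top_eq_univ, tendstoLocallyUniformlyOn_univ] using hloc
    · simp only [IsOpenEmbedding.toOpenPartialHomeomorph_target, Set.top_eq_univ,
        Set.mapsTo_range_iff, Set.mem_univ, forall_const]
  refine hlocC.differentiableOn (Eventually.of_forall fun s => ?_) isOpen_upperHalfPlaneSet
  refine (DifferentiableOn.fun_sum (u := s) fun v _ =>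
    (eisSummand_extension_differentiableOn 4 v).const_mul (c v)).congr fun w _ => ?_
  simp [Function.comp_apply]

/-- Slashing moves the coefficients. -/
theorem pairSeries_slash (c : Z² → ℂ) (A : SL(2, ℤ)) :
    pairSeries c ∣[(4 : ℤ)] A = pairSeries fun v => c (v ᵥ* ((A⁻¹ : SL(2, ℤ)) : M₂)) := by
  funext τ
  rw [ModularForm.SL_slash_apply, pairSeries, pairSeries, ← tsum_mul_right]
  let e : Z² ≃ Z² := rowEquiv A
  rw [← e.tsum_eq (fun v => c (v ᵥ* ((A⁻¹ : SL(2, ℤ)) : M₂)) * eisSummand 4 v τ)]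
  refine tsum_congr fun v => ?_
  rw [show (e v) ᵥ* ((A⁻¹ : SL(2, ℤ)) : M₂) = v from e.left_inv v, eisSummand_SL2_apply,
    show e v = v ᵥ* (A : M₂) from rfl, mul_assoc]
  congr 1
  rw [mul_comm, ← mul_assoc, ← zpow_add₀ (denom_ne_zero _ τ)]
  norm_num

theorem isBoundedAtImInfty_pairSeries {c : Z² → ℂ} (hc : ∀ v, ‖c v‖ ≤ 1) (A : SL(2, ℤ)) :
    IsBoundedAtImInfty (pairSeries c ∣[(4 : ℤ)] A) := by
  rw [pairSeries_slash, UpperHalfPlane.isBoundedAtImInfty_iff]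
  refine ⟨∑' v : Z², r ⟨⟨1, 2⟩, two_pos⟩ ^ (-4 : ℝ) * ‖v‖ ^ (-4 : ℝ), 2, fun z hz => ?_⟩
  obtain ⟨n, hn⟩ := ModularGroup_T_zpow_mem_verticalStrip z (N := 1) one_pos
  refine (norm_pairSeries_le (c := fun v => c (v ᵥ* ((A⁻¹ : SL(2, ℤ)) : M₂))) (fun v => hc _) z).trans ?_
  set T' : SL(2, ℤ) := ModularGroup.T ^ (1 * n : ℤ) with hT'
  have hperm : ∑' v : Z², ‖eisSummand 4 v z‖ = ∑' v : Z², ‖eisSummand 4 v (T' • z)‖ := by
    let e : Z² ≃ Z² := rowEquiv T'
    rw [← e.tsum_eq (fun v => ‖eisSummand 4 v z‖)]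
    refine tsum_congr fun v => ?_
    rw [eisSummand_SL2_apply, norm_mul, norm_zpow]
    have hd : denom (T' : GL (Fin 2) ℝ) z = 1 := by
      rw [ModularGroup.denom_apply, hT', ModularGroup.coe_T_zpow]
      simp
    rw [hd, norm_one, _root_.one_zpow, one_mul]
    rfl
  rw [hperm]
  refine (summable_norm_eisSummand (by norm_num) _).tsum_le_tsum (fun v => ?_)
    (summable_norm_pair.mul_left _)
  exact norm_eisSummand_le_of_mem_strip two_pos (verticalStrip_anti_right 1 hz (by simpa [hT'] using hn)) v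

theorem tendsto_pairSeries_atImInfty {c : Z² → ℂ} (hc : ∀ v, ‖c v‖ ≤ 1)
    (h1 : c ![0, 1] = 1) (h2 : c ![0, -1] = 1) (h0 : ∀ d : ℤ, d ≠ 1 → d ≠ -1 → c ![0, d] = 0) :
    ∃ τ : ℍ, pairSeries c τ ≠ 0 := by
  let τ : ℕ → ℍ := fun y => ⟨((y : ℝ) + 1 : ℝ) * Complex.I, by
    simp only [Complex.mul_im, Complex.ofReal_re, Complex.ofReal_im, Complex.I_re, Complex.I_im]
    positivity⟩
  have hre : ∀ y, (τ y).re = 0 := fun y => by simp [τ, UpperHalfPlane.re]
  have him : ∀ y, (τ y).im = (y : ℝ) + 1 := fun y => by simp [τ, UpperHalfPlane.im]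
  classical
  let lim : Z² → ℂ := fun v => if v 0 = 0 then c v * (v 1 : ℂ) ^ (-4 : ℤ) else 0
  have hpt : ∀ v : Z², Tendsto (fun y => c v * eisSummand 4 v (τ y)) atTop (𝓝 (lim v)) := by
    intro v
    by_cases hv : v 0 = 0
    · simp only [lim, hv, if_true, eisSummand, Int.cast_zero, zero_mul, zero_add]
      exact tendsto_const_nhds
    · simp only [lim, hv, if_false]
      refine squeeze_zero_norm (a := fun y : ℕ => ((y : ℝ) + 1) ^ (-4 : ℤ)) (fun y => ?_) ?_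
      · rw [norm_mul, eisSummand, norm_zpow]
        refine (mul_le_of_le_one_left (by positivity) (hc v)).trans ?_
        have hge : ((y : ℝ) + 1) ≤ ‖(v 0 : ℂ) * τ y + v 1‖ := by
          refine le_trans ?_ (Complex.abs_im_le_norm _)
          simp only [Complex.add_im, Complex.mul_im, Complex.intCast_re, Complex.intCast_im,
            UpperHalfPlane.coe_im, him, zero_mul, add_zero]
          rw [abs_mul, abs_of_pos (show (0 : ℝ) < (y : ℝ) + 1 by positivity)]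
          exact le_mul_of_one_le_left (by positivity) (by exact_mod_cast Int.one_le_abs hv)
        rw [_root_.zpow_neg, _root_.zpow_neg]
        exact inv_anti₀ (by positivity) (pow_le_pow_left₀ (by positivity) hge 4)
      · have h : Tendsto (fun y : ℕ => ((y : ℝ) + 1)) atTop atTop :=
          tendsto_atTop_add_const_right _ _ tendsto_natCast_atTop_atTop
        exact ((tendsto_zpow_atTop_zero (by norm_num : (-4 : ℤ) < 0)).comp h)
  have hlim : Tendsto (fun y => pairSeries c (τ y)) atTop (𝓝 (∑' v, lim v)) := by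
    refine tendsto_tsum_of_dominated_convergence
      (bound := fun v => r ⟨⟨0, 1⟩, one_pos⟩ ^ (-4 : ℝ) * ‖v‖ ^ (-4 : ℝ))
      (summable_norm_pair.mul_left _) hpt (Eventually.of_forall fun y v => ?_)
    rw [norm_mul]
    refine (mul_le_of_le_one_left (norm_nonneg _) (hc v)).trans
      (norm_eisSummand_le_of_mem_strip one_pos ⟨?_, ?_⟩ v)
    · simp [hre]
    · simp [him]
  have hsum : ∑' v, lim v = 2 := by
    rw [tsum_eq_sum (s := {![0, 1], ![0, -1]})]
    · have hne : (![0, 1] : Z²) ≠ ![0, -1] := fun h => by simpa using congrFun h 1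
      rw [Finset.sum_pair hne]
      simp [lim, h1, h2]
      norm_num
    · intro v hv
      simp only [Finset.mem_insert, Finset.mem_singleton, not_or] at hv
      simp only [lim]
      by_cases h : v 0 = 0
      · have hv' : v = ![0, v 1] := funext fun i => by fin_cases i <;> simp [h]
        have hd1 : v 1 ≠ 1 := fun e => hv.1 (by rw [hv', e])
        have hd2 : v 1 ≠ -1 := fun e => hv.2 (by rw [hv', e])
        rw [if_pos h, hv', h0 _ hd1 hd2, zero_mul]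
      · rw [if_neg h]
  by_contra! hcon
  simp only [hcon, hsum] at hlim
  exact two_ne_zero (tendsto_nhds_unique hlim tendsto_const_nhds)

/-- A unitary character of `Γ₀(N)` killing elliptic and parabolic elements. -/
structure IsEPChar {N : ℕ} (χ : Gamma0 N → ℂ) : Prop where
  map_mul : ∀ γ δ, χ (γ * δ) = χ γ * χ δ
  eq_one : ∀ γ : Gamma0 N, ((γ : SL(2, ℤ)) : Matrix (Fin 2) (Fin 2) ℤ).trace ^ 2 ≤ 4 → χ γ = 1
  norm_eq : ∀ γ, ‖χ γ‖ = 1

variable {N : ℕ} {χ : Gamma0 N → ℂ}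

open scoped Classical in
/-- The coefficient attached to the bottom row of a matrix in `Γ₀(N)`. -/
def rowCoeff (χ : Gamma0 N → ℂ) (v : Z²) : ℂ :=
  if h : ∃ γ : Gamma0 N, ((γ : SL(2, ℤ)) : M₂) 1 = v then (χ h.choose)⁻¹
  else 0

namespace IsEPChar

theorem map_one (hχ : IsEPChar χ) : χ 1 = 1 := hχ.eq_one 1 (by simp)

theorem map_inv (hχ : IsEPChar χ) (γ : Gamma0 N) : χ γ⁻¹ = (χ γ)⁻¹ :=
  eq_inv_of_mul_eq_one_left (by rw [← hχ.map_mul, inv_mul_cancel, hχ.map_one])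

theorem apply_eq_of_row (hχ : IsEPChar χ) {γ δ : Gamma0 N}
    (h : ((γ : SL(2, ℤ)) : M₂) 1 =
      ((δ : SL(2, ℤ)) : M₂) 1) : χ γ = χ δ := by
  suffices χ (γ * δ⁻¹) = 1 by
    rw [hχ.map_mul, hχ.map_inv, mul_inv_eq_one₀] at this
    · exact this
    · intro h0
      simpa [h0] using hχ.norm_eq δ
  have hrow : ∀ j : Fin 2, (((γ * δ⁻¹ : Gamma0 N) : SL(2, ℤ)) : M₂) 1 j = (1 : M₂) 1 j := by
    intro j
    have h1 : ((δ : SL(2, ℤ)) : M₂) * (((δ : SL(2, ℤ))⁻¹ : SL(2, ℤ)) : M₂) = 1 :=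
      congrArg Subtype.val (mul_inv_cancel (δ : SL(2, ℤ)))
    rw [← h1]
    show (((γ : SL(2, ℤ)) : M₂) * (((δ : SL(2, ℤ))⁻¹ : SL(2, ℤ)) : M₂)) 1 j = _
    rw [Matrix.mul_apply, Matrix.mul_apply, h]
  refine hχ.eq_one _ (le_of_eq ?_)
  have hdet := (((γ * δ⁻¹ : Gamma0 N) : SL(2, ℤ))).det_coe
  rw [Matrix.det_fin_two, hrow 0, hrow 1] at hdet
  rw [Matrix.trace_fin_two, hrow 1]
  simp at hdet ⊢
  rw [hdet]
  norm_num

theorem rowCoeff_row (hχ : IsEPChar χ) (γ : Gamma0 N) :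
    rowCoeff χ (((γ : SL(2, ℤ)) : M₂) 1) = (χ γ)⁻¹ := by
  rw [rowCoeff, dif_pos ⟨γ, rfl⟩]
  exact congrArg _ (hχ.apply_eq_of_row (Exists.choose_spec
    (⟨γ, rfl⟩ : ∃ δ : Gamma0 N, ((δ : SL(2, ℤ)) : M₂) 1 = _)))

theorem norm_rowCoeff_le (hχ : IsEPChar χ) (v : Z²) : ‖rowCoeff χ v‖ ≤ 1 := by
  rw [rowCoeff]
  split
  · rw [norm_inv, hχ.norm_eq, inv_one]
  · simp

theorem rowCoeff_vecMul (hχ : IsEPChar χ) (v : Z²) (γ : Gamma0 N) :
    rowCoeff χ (v ᵥ* ((γ : SL(2, ℤ)) : M₂)) = rowCoeff χ v * (χ γ)⁻¹ := by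
  by_cases h : ∃ δ : Gamma0 N, ((δ : SL(2, ℤ)) : M₂) 1 = v
  · obtain ⟨δ, rfl⟩ := h
    have : (((δ : SL(2, ℤ)) : M₂) 1) ᵥ* ((γ : SL(2, ℤ)) : M₂) = (((δ * γ : Gamma0 N) : SL(2, ℤ)) : M₂) 1 := by
      ext j
      simp [Matrix.vecMul, dotProduct, Matrix.mul_apply]
    rw [this, hχ.rowCoeff_row, hχ.rowCoeff_row, hχ.map_mul, mul_inv]
  · have h' : ¬∃ δ : Gamma0 N, ((δ : SL(2, ℤ)) : M₂) 1 = v ᵥ* ((γ : SL(2, ℤ)) : M₂) := by
      rintro ⟨δ, hδ⟩
      refine h ⟨δ * γ⁻¹, ?_⟩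
      have hrow : (((δ * γ⁻¹ : Gamma0 N) : SL(2, ℤ)) : M₂) 1 =
          (((δ : SL(2, ℤ)) : M₂) 1) ᵥ* (((γ : SL(2, ℤ))⁻¹ : SL(2, ℤ)) : M₂) := by
        ext j
        simp [Matrix.vecMul, dotProduct, Matrix.mul_apply]
      rw [hrow, hδ]
      exact (rowEquiv (γ : SL(2, ℤ))).left_inv v
    rw [rowCoeff, rowCoeff, dif_neg h, dif_neg h', zero_mul]

/-- The twisted Eisenstein series. -/
def eis (_hχ : IsEPChar χ) : ℍ → ℂ := pairSeries (rowCoeff χ)

theorem eis_slash (hχ : IsEPChar χ) (γ : Gamma0 N) :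
    hχ.eis ∣[(4 : ℤ)] (γ : SL(2, ℤ)) = χ γ • hχ.eis := by
  rw [eis, pairSeries_slash]
  funext τ
  rw [Pi.smul_apply, smul_eq_mul, pairSeries, pairSeries, ← tsum_mul_left]
  refine tsum_congr fun v => ?_
  rw [← Subgroup.coe_inv, hχ.rowCoeff_vecMul v γ⁻¹, hχ.map_inv, inv_inv]
  ring

theorem eis_smul (hχ : IsEPChar χ) (γ : Gamma0 N) (τ : ℍ) :
    hχ.eis ((γ : SL(2, ℤ)) • τ) = χ γ * denom (γ : SL(2, ℤ)) τ ^ (4 : ℤ) * hχ.eis τ := by
  have h := congrFun (hχ.eis_slash γ) τ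
  rw [ModularForm.SL_slash_apply, Pi.smul_apply, smul_eq_mul] at h
  rw [mul_right_comm, ← h, mul_assoc, ← zpow_add₀ (denom_ne_zero _ τ)]
  norm_num

theorem mdifferentiable_eis (hχ : IsEPChar χ) : MDiff hχ.eis :=
  mdifferentiable_pairSeries hχ.norm_rowCoeff_le

theorem isBoundedAtImInfty_eis (hχ : IsEPChar χ) (A : SL(2, ℤ)) :
    IsBoundedAtImInfty (hχ.eis ∣[(4 : ℤ)] A) :=
  isBoundedAtImInfty_pairSeries hχ.norm_rowCoeff_le A

theorem exists_eis_ne_zero (hχ : IsEPChar χ) : ∃ τ : ℍ, hχ.eis τ ≠ 0 := by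
  refine tendsto_pairSeries_atImInfty hχ.norm_rowCoeff_le ?_ ?_ fun d hd1 hd2 => ?_
  · have := hχ.rowCoeff_row 1
    rw [hχ.map_one, inv_one] at this
    refine Eq.trans (congrArg _ ?_) this
    ext j; fin_cases j <;> simp
  · let m : Gamma0 N := ⟨-1, FermatAgent.ModCurveGroup.ContainsNegOne.neg_one_mem⟩
    have := hχ.rowCoeff_row m
    rw [hχ.eq_one m (by simp [m]), inv_one] at this
    refine Eq.trans (congrArg _ ?_) this
    ext j; fin_cases j <;> simp [m]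
  · rw [rowCoeff, dif_neg]
    rintro ⟨γ, hγ⟩
    have h := (γ : SL(2, ℤ)).det_coe
    rw [Matrix.det_fin_two, hγ] at h
    simp only [Matrix.cons_val_zero, Matrix.cons_val_one, mul_zero, sub_zero] at h
    rcases Int.mul_eq_one_iff_eq_one_or_neg_one.mp h with ⟨-, h'⟩ | ⟨-, h'⟩ <;> omega

theorem one : IsEPChar (1 : Gamma0 N → ℂ) where
  map_mul _ _ := by simp
  eq_one _ _ := rfl
  norm_eq _ := by simp

end IsEPChar

end FermatAgent.ModCurveTorsion

end
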