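import Fermat.Agent.ModCurve.Torsion.HeckeDiv
import Fermat.Agent.Curve.RR.Main
import Fermat.Agent.Curve.RR.Setup
import Fermat.Prelude.Def_ModularCurve_HeckeModule
import Mathlib.FieldTheory.Galois.Infinite

/-!
The Galois action on `J₀(N)(ℚ̄)` commutes with the Hecke operators, and has finite level
stabilisers.
-/

set_option autoImplicit false
set_option maxHeartbeats 1600000

noncomputable section

namespace FermatAgent.ModCurveTorsion

open ModularCurve AlgebraicCurve IntermediateField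
open FermatAgent.Curve (divisorOf IsFunctionField1)

local notation "ℚbar" => AlgebraicClosure ℚ
local notation "𝐅" N:max => laurentBaseChange ℚbar (modularFunctionFieldFull N)

variable (N : ℕ) [NeZero N]

/-- The arithmetic action on `ℚ̄(X₀(N))`. -/
def galN (σ : ℚbar ≃ₐ[ℚ] ℚbar) : SemilinearAut ℚbar (𝐅 N) :=
  arithmeticGalois (modularFunctionFieldFull N) σ

omit [NeZero N] in
theorem coe_galN_smul (σ : ℚbar ≃ₐ[ℚ] ℚbar) (x : 𝐅 N) :
    ((galN N σ • x : 𝐅 N) : LaurentSeries ℚbar) =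
      coeffMap (σ : ℚbar →+* ℚbar) (x : LaurentSeries ℚbar) := rfl

variable (ℓ : ℕ) [NeZero ℓ]

theorem galN_heckeNorm (σ : ℚbar ≃ₐ[ℚ] ℚbar) (f : 𝐅 N) :
    galN N σ • heckeNorm ℚbar N ℓ f = heckeNorm ℚbar N ℓ (galN N σ • f) := by
  let := algebraAlong (heckeAlphaBar ℚbar N ℓ)
  let e₁ : (𝐅 N) ≃+* (𝐅 N) := SemilinearAut.toRingAut (galN N σ)
  let e₂ : (𝐅 (N * ℓ)) ≃+* (𝐅 (N * ℓ)) := SemilinearAut.toRingAut (galN (N * ℓ) σ)
  have he : RingHom.comp (algebraMap (𝐅 N) (𝐅 (N * ℓ))) (e₁ : (𝐅 N) →+* (𝐅 N)) =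
      RingHom.comp (e₂ : (𝐅 (N * ℓ)) →+* (𝐅 (N * ℓ))) (algebraMap (𝐅 N) (𝐅 (N * ℓ))) := by
    refine RingHom.ext fun x => Subtype.ext ?_
    show (heckeAlphaBar ℚbar N ℓ (galN N σ • x) : LaurentSeries ℚbar) =
      ((galN (N * ℓ) σ • heckeAlphaBar ℚbar N ℓ x : 𝐅 (N * ℓ)) : LaurentSeries ℚbar)
    rw [coe_heckeAlphaBar, coe_galN_smul, coe_galN_smul, coe_heckeAlphaBar]
  have hb : galN (N * ℓ) σ • heckeBetaBar ℚbar N ℓ f =
      heckeBetaBar ℚbar N ℓ (galN N σ • f) := by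
    refine Subtype.ext ?_
    rw [coe_galN_smul, coe_heckeBetaBar, coe_heckeBetaBar, coe_galN_smul,
      ModularCurve.coeffMap_qExpand]
  have h := Algebra.norm_eq_of_equiv_equiv e₁ e₂ he (heckeBetaBar ℚbar N ℓ f)
  show e₁ (Algebra.norm (𝐅 N) (heckeBetaBar ℚbar N ℓ f)) = _
  rw [h, RingEquiv.apply_symm_apply,
    show e₂ (heckeBetaBar ℚbar N ℓ f) = heckeBetaBar ℚbar N ℓ (galN N σ • f) from hb]
  rfl

theorem galN_heckeDiv (σ : ℚbar ≃ₐ[ℚ] ℚbar) (D : Divisor ℚbar (𝐅 N)) :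
    galN N σ • heckeDiv ℚbar N ℓ D = heckeDiv ℚbar N ℓ (galN N σ • D) := by
  have := isFunctionField1_laurent ℚbar N
  suffices (semilinearDiv (galN N σ)).comp (heckeDiv ℚbar N ℓ) =
      (heckeDiv ℚbar N ℓ).comp (semilinearDiv (galN N σ)) from DFunLike.congr_fun this D
  refine IsLocalDiv.ext ((isLocalDiv_semilinearDiv _).comp (isLocalDiv_heckeDiv ℚbar N ℓ))
    ((isLocalDiv_heckeDiv ℚbar N ℓ).comp (isLocalDiv_semilinearDiv _)) fun f hf => ?_
  rw [AddMonoidHom.comp_apply, AddMonoidHom.comp_apply, semilinearDiv_apply, semilinearDiv_apply,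
    smul_divisorOf, heckeDiv_divisorOf ℚbar N ℓ hf, smul_divisorOf,
    heckeDiv_divisorOf ℚbar N ℓ ((smul_ne_zero_iff_ne _).mpr hf), galN_heckeNorm]

theorem galois_smul_heckeOperatorAlong (σ : ℚbar ≃ₐ[ℚ] ℚbar) (x : JZero N) :
    σ • heckeOperatorAlong ℚbar N ℓ x = heckeOperatorAlong ℚbar N ℓ (σ • x) := by
  obtain ⟨D, rfl⟩ := Pic0.mk_surjective x
  rw [heckeOperatorAlong_mk, galois_smul_pic0_def, galois_smul_pic0_def,
    SemilinearAut.pic0_smul_mk, SemilinearAut.pic0_smul_mk, heckeOperatorAlong_mk]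
  exact congrArg Pic0.mk (Subtype.ext (galN_heckeDiv N ℓ σ D))

omit [NeZero N] in
theorem exists_fixing_element (f : 𝐅 N) :
    ∃ E : IntermediateField ℚ ℚbar, FiniteDimensional ℚ E ∧
      ∀ σ ∈ E.fixingSubgroup, galN N σ • f = f := by
  have : Algebra.IsAlgebraic ℚ ℚbar := AlgebraicClosure.isAlgebraic ℚ
  suffices ∃ E : IntermediateField ℚ ℚbar, FiniteDimensional ℚ E ∧
      ∀ σ ∈ E.fixingSubgroup, coeffMap (σ : ℚbar →+* ℚbar) (f : LaurentSeries ℚbar) = f by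
    obtain ⟨E, hE, h⟩ := this
    exact ⟨E, hE, fun σ hσ => Subtype.ext ((coe_galN_smul N σ f).trans (h σ hσ))⟩
  obtain ⟨w, hf⟩ := f
  show ∃ E : IntermediateField ℚ ℚbar, FiniteDimensional ℚ E ∧
    ∀ σ ∈ E.fixingSubgroup, coeffMap (σ : ℚbar →+* ℚbar) w = w
  rw [mem_laurentBaseChange_iff] at hf
  induction hf using Subfield.closure_induction with
  | mem y hy =>
    rcases hy with ⟨a, rfl⟩ | ⟨z, -, rfl⟩
    · refine ⟨ℚ⟮a⟯, adjoin.finiteDimensional (Algebra.IsIntegral.isIntegral a), fun σ hσ => ?_⟩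
      rw [algebraMap_laurentSeries_eq_single, coeffMap_single]
      congr 1
      exact (IntermediateField.mem_fixingSubgroup_iff _ _).mp hσ a (mem_adjoin_simple_self ℚ a)
    · exact ⟨⊥, inferInstance, fun σ _ => coeffMap_coeffEmb σ z⟩
  | one => exact ⟨⊥, inferInstance, fun σ _ => map_one _⟩
  | add x y _ _ hx hy =>
    obtain ⟨E, hE, h⟩ := hx
    obtain ⟨E', hE', h'⟩ := hy
    exact ⟨E ⊔ E', inferInstance, fun σ hσ => by
      rw [map_add, h σ (IntermediateField.fixingSubgroup_antitone le_sup_left hσ),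
        h' σ (IntermediateField.fixingSubgroup_antitone le_sup_right hσ)]⟩
  | neg x _ hx =>
    obtain ⟨E, hE, h⟩ := hx
    exact ⟨E, hE, fun σ hσ => by rw [map_neg, h σ hσ]⟩
  | inv x _ hx =>
    obtain ⟨E, hE, h⟩ := hx
    exact ⟨E, hE, fun σ hσ => by rw [map_inv₀, h σ hσ]⟩
  | mul x y _ _ hx hy =>
    obtain ⟨E, hE, h⟩ := hx
    obtain ⟨E', hE', h'⟩ := hy
    exact ⟨E ⊔ E', inferInstance, fun σ hσ => by
      rw [map_mul, h σ (IntermediateField.fixingSubgroup_antitone le_sup_left hσ),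
        h' σ (IntermediateField.fixingSubgroup_antitone le_sup_right hσ)]⟩

theorem exists_fixing_place (Q : Place ℚbar (𝐅 N)) :
    ∃ E : IntermediateField ℚ ℚbar, FiniteDimensional ℚ E ∧
      ∀ σ ∈ E.fixingSubgroup, galN N σ • Q = Q := by
  have := isFunctionField1_laurent ℚbar N
  obtain ⟨f, -, hQ, hother⟩ := FermatAgent.Curve.RR.exists_single_pole Q
    (n := 2 * genusFF ℚbar (𝐅 N) + 1) (by omega) (by omega)
  obtain ⟨E, hE, h⟩ := exists_fixing_element N f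
  refine ⟨E, hE, fun σ hσ => ?_⟩
  by_contra hne
  have h1 := SemilinearAut.ord_smul (galN N σ) Q f
  rw [h σ hσ, hQ] at h1
  have h2 := hother _ hne
  omega

theorem exists_fixing_divisor (D : Divisor ℚbar (𝐅 N)) :
    ∃ E : IntermediateField ℚ ℚbar, FiniteDimensional ℚ E ∧
      ∀ σ ∈ E.fixingSubgroup, galN N σ • D = D := by
  induction D using Finsupp.induction with
  | zero => exact ⟨⊥, inferInstance, fun σ _ => smul_zero _⟩
  | single_add Q n D _ _ ih =>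
    obtain ⟨E, hE, h⟩ := ih
    obtain ⟨E', hE', h'⟩ := exists_fixing_place N Q
    exact ⟨E ⊔ E', inferInstance, fun σ hσ => by
      rw [smul_add, SemilinearAut.smul_single,
        h σ (IntermediateField.fixingSubgroup_antitone le_sup_left hσ),
        h' σ (IntermediateField.fixingSubgroup_antitone le_sup_right hσ)]⟩

theorem exists_fixing_point (x : JZero N) :
    ∃ E : IntermediateField ℚ ℚbar, FiniteDimensional ℚ E ∧
      ∀ σ ∈ E.fixingSubgroup, σ • x = x := by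
  obtain ⟨D, rfl⟩ := Pic0.mk_surjective x
  obtain ⟨E, hE, h⟩ := exists_fixing_divisor N (D : Divisor ℚbar (𝐅 N))
  refine ⟨E, hE, fun σ hσ => ?_⟩
  rw [galois_smul_pic0_def, SemilinearAut.pic0_smul_mk]
  exact congrArg Pic0.mk (Subtype.ext (h σ hσ))

end FermatAgent.ModCurveTorsion

end
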