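import Fermat.Agent.ModCurve.Torsion.Reflect
import Fermat.Agent.ModCurve.Torsion.DescendTorsion
import Fermat.Agent.ModCurve.Torsion.GaloisHecke
import Fermat.Prelude.Def_GaloisRep_ComplexConjugation

/-!
Complex conjugation on the torsion of `J₀(N)(ℚ̄)`, in terms of Kummer characters.
-/

set_option autoImplicit false
set_option maxHeartbeats 1600000

noncomputable section

namespace FermatAgent.ModCurveTorsion

open ModularCurve ModularCurve.Period AlgebraicCurve CongruenceSubgroup
open FermatAgent.Curve (divisorOf divisorOf_apply IsFunctionField1)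
open FermatAgent.ModCurve.Points (FieldC)
open FermatAgent.Periods (mob)
open scoped MatrixGroups ComplexConjugate

local notation "ℚbar" => AlgebraicClosure ℚ

attribute [local instance] qbarAlgebraC qbarAlgebraFieldC fieldBarAlgebraC
  qbar_isScalarTower_const qbar_isScalarTower_ext qbar_isConstantExtension

theorem algebraMap_complexConjugation (x : ℚbar) :
    algebraMap ℚbar ℂ (complexConjugation x) = conj (algebraMap ℚbar ℂ x) :=
  complexEmbedding_complexConjugation x

variable {N : ℕ} [NeZero N]

omit [NeZero N] in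
theorem coe_algebraMap_galN_conj (f : FieldBar N) :
    (algebraMap (FieldBar N) (FieldC N) (galN N complexConjugation • f) : LaurentSeries ℂ) =
      coeffMap (starRingEnd ℂ)
        (algebraMap (FieldBar N) (FieldC N) f : LaurentSeries ℂ) := by
  rw [coe_algebraMap_fieldBar, coe_algebraMap_fieldBar, coe_galN_smul, coeffMap_coeffMap,
    coeffMap_coeffMap]
  exact coeffMap_congr (RingHom.ext algebraMap_complexConjugation) _

theorem ord_algebraMap_fieldBar {n : ℕ} {D : Divisor ℚbar (FieldBar N)} {f : FieldBar N}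
    (h : divisorOf (K := ℚbar) f = (n : ℤ) • D) (v : Place ℂ (FieldC N)) :
    v.ord (algebraMap (FieldBar N) (FieldC N) f) = (n : ℤ) * divBaseC N D v := by
  have h1 := divBaseC_divisorOf N f
  rw [h, map_zsmul] at h1
  have h2 := DFunLike.congr_fun h1 v
  rw [divisorOf_apply, Finsupp.smul_apply, smul_eq_mul] at h2
  exact h2.symm

variable {n : ℕ} [NeZero n]

/-- Conjugation turns the Kummer character `φ` into `-(φ ∘ J)`. -/
theorem IsKummerChar.complexConjugation_smul {x : JZero N} {φ : Additive (Gamma0 N) →+ ZMod n}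
    (h : IsKummerChar n (jBaseC N x) φ) :
    IsKummerChar n (jBaseC N (complexConjugation • x)) (-(charInvolution N ℤ (ZMod n) φ)) := by
  obtain ⟨D, rfl⟩ := Pic0.mk_surjective x
  have hx : Pic0.mk ((n : ℤ) • D) = 0 := jBaseC_injective N <| by
    rw [show Pic0.mk ((n : ℤ) • D) = (n : ℤ) • Pic0.mk D from rfl, map_zsmul, h.zsmul_eq_zero,
      map_zero]
  obtain ⟨f, hf, hfD⟩ := AddSubgroup.mem_addSubgroupOf.mp ((QuotientAddGroup.eq_zero_iff _).mp hx)
  have hdiv : divisorOf (K := ℚbar) f = (n : ℤ) • (D : Divisor ℚbar (FieldBar N)) :=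
    Finsupp.ext fun v => by rw [divisorOf_apply, ← hfD v]; rfl
  have hfC : algebraMap (FieldBar N) (FieldC N) f ≠ 0 :=
    (map_ne_zero (algebraMap (FieldBar N) (FieldC N))).mpr hf
  obtain ⟨g, hg⟩ := exists_kummerRoot_of_divisor (n := n) hfC (ord_algebraMap_fieldBar hdiv)
  obtain ⟨χ, hχ, hχn⟩ := exists_multiplier (Γ := Gamma0 N) (NeZero.ne n) hg.mero hg.pow_eq
    (nowhereZero_evalFun hfC) (evalFun_invariant (algebraMap (FieldBar N) (FieldC N) f))
  choose a ha using fun γ => exists_eq_stdAddChar (n := n) (hχn γ)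
  have hg0 := hg.nowhereZero (NeZero.ne n)
  let ψ : Additive (Gamma0 N) →+ ZMod n :=
    AddMonoidHom.mk' (fun γ => a γ.toMul) fun γ δ => ZMod.injective_stdAddChar (by
      rw [AddChar.map_add_eq_mul, ha, ha, ha, ← hχ.map_mul hg.mero hg0]
      rfl)
  have hψχ : HasMultiplier g fun γ => ZMod.stdAddChar (ψ (Additive.ofMul γ)) := by
    convert hχ using 1
    funext γ
    exact ha γ
  have hψ : IsKummerChar n (jBaseC N (Pic0.mk D)) ψ :=
    ⟨⟨divBaseC N (D : Divisor ℚbar (FieldBar N)), by
      rw [Divisor.mem_degZero, degree_divBaseC]; exact D.2⟩, _, g, (jBaseC_mk N D).symm, hg, hψχ⟩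
  obtain rfl : ψ = φ := hψ.unique h
  -- the conjugate witness
  have hdiv' : divisorOf (K := ℚbar) (galN N complexConjugation • f) =
      (n : ℤ) • (galN N complexConjugation • (D : Divisor ℚbar (FieldBar N))) := by
    rw [← smul_divisorOf, hdiv]
    exact map_zsmul (semilinearDiv (galN N complexConjugation)) _ _
  rw [galois_smul_pic0_def, SemilinearAut.pic0_smul_mk]
  refine ⟨_, algebraMap (FieldBar N) (FieldC N) (galN N complexConjugation • f), reflFun g,
    (jBaseC_mk N _).symm, ⟨(map_ne_zero (algebraMap (FieldBar N) (FieldC N))).mpr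
      ((smul_ne_zero_iff_ne _).mpr hf), ord_algebraMap_fieldBar hdiv',
      meromorphicOn_reflFun hg.mero, ?_⟩, ?_⟩
  · refine GermEq.trans ?_ (evalFun_conj (coe_algebraMap_galN_conj f)).symm
    refine GermEq.trans ?_ hg.pow_eq.reflFun
    exact GermEq.of_eqOn fun w _ => by simp only [Pi.pow_apply, reflFun_apply, map_pow]
  · intro γ
    rw [reflFun_comp_mob]
    refine (hψχ (jConjGamma0 N γ)).reflFun.trans (GermEq.of_eqOn fun w _ => ?_)
    simp only [reflFun_apply, map_mul, AddMonoidHom.neg_apply, charInvolution_apply,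
      toMul_ofMul, AddChar.map_neg_eq_conj]

end FermatAgent.ModCurveTorsion

end
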