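import Fermat.Agent.ModCurve.Torsion.AtkinLehner

/-!
Products of the representatives of `T_p` and `T_q` (`p ≠ q`) taken in the two orders give the same
left `Γ₀(N)`-cosets.
-/

set_option autoImplicit false

noncomputable section

namespace FermatAgent.ModCurveTorsion

open CongruenceSubgroup FermatAgent.Periods
open scoped MatrixGroups

local notation "M₂" => Matrix (Fin 2) (Fin 2) ℤ

/-- The upper triangular translation by `t`, an element of every `Γ₀(N)`. -/
def transGamma0 (N : ℕ) (t : ℤ) : Gamma0 N :=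
  ⟨⟨!![1, t; 0, 1], by simp⟩, Gamma0_mem.mpr (by simp)⟩

theorem exists_trans_of_key {N : ℕ} {P P' : M₂} (hP : P 1 0 = 0) (hP' : P' 1 0 = 0)
    (ha : P 0 0 = P' 0 0) (hd : P 1 1 = P' 1 1) (hb : P' 1 1 ∣ P 0 1 - P' 0 1) :
    ∃ δ : Gamma0 N, P = ((δ : SL(2, ℤ)) : M₂) * P' := by
  obtain ⟨t, ht⟩ := hb
  refine ⟨transGamma0 N t, ?_⟩
  show P = !![1, t; 0, 1] * P'
  rw [Matrix.eta_fin_two P, Matrix.eta_fin_two P', Matrix.mul_fin_two, hP, hP', ha, hd,
    show P 0 1 = P' 0 1 + t * P' 1 1 by linear_combination ht]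
  simp

variable (p q : ℕ)

theorem tRep_one_zero_eq (i : Option (ZMod p)) : tRep p i 1 0 = 0 := by
  cases i <;> simp [tRep, diagRep, upperRep]

theorem mul_one_zero_eq_zero {P P' : M₂} (hP : P 1 0 = 0) (hP' : P' 1 0 = 0) :
    (P * P') 1 0 = 0 := by
  simp [Matrix.mul_apply, Fin.sum_univ_two, hP, hP']

/-- Same top left and bottom right entries, congruent top right entries. -/
def SameKey (P P' : M₂) : Prop :=
  P 0 0 = P' 0 0 ∧ P 1 1 = P' 1 1 ∧ P' 1 1 ∣ P 0 1 - P' 0 1

variable {p q}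

theorem tRep_mul_injective (hp : p.Prime) (hq : q.Prime) (hpq : p ≠ q)
    {a a' : Option (ZMod p) × Option (ZMod q)}
    (h : SameKey (tRep p a.1 * tRep q a.2) (tRep p a'.1 * tRep q a'.2)) : a = a' := by
  have : NeZero p := ⟨hp.ne_zero⟩
  have : NeZero q := ⟨hq.ne_zero⟩
  have : Fact q.Prime := ⟨hq⟩
  obtain ⟨h00, h11, h01⟩ := h
  have hpZ : (p : ℤ) ≠ 1 := by exact_mod_cast hp.ne_one
  have hqZ : (q : ℤ) ≠ 1 := by exact_mod_cast hq.ne_one
  have hpqZ : (p : ℤ) ≠ (q : ℤ) := by exact_mod_cast hpq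
  have hmul : (p : ℤ) * q ≠ p ∧ (p : ℤ) * q ≠ q ∧ (p : ℤ) * q ≠ 1 := by
    refine ⟨fun e => hqZ ?_, fun e => hpZ ?_, fun e => hpZ ?_⟩
    · exact mul_left_cancel₀ (Nat.cast_ne_zero.mpr hp.ne_zero) (by rw [e, mul_one])
    · exact mul_right_cancel₀ (Nat.cast_ne_zero.mpr hq.ne_zero) (by rw [e, one_mul])
    · exact Int.eq_one_of_mul_eq_one_right (Int.natCast_nonneg p) e
  rcases a with ⟨_ | x, _ | y⟩ <;> rcases a' with ⟨_ | x', _ | y'⟩ <;>
    simp [tRep, diagRep, upperRep] at h00 h11 h01 ⊢ <;>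
    first
    | (exfalso; omega)
    | skip
  · -- `(none, some)`
    have hunit : IsUnit ((p : ℤ) : ZMod q) := by
      rw [isUnit_iff_ne_zero, Ne, ZMod.intCast_zmod_eq_zero_iff_dvd, Int.natCast_dvd_natCast]
      exact fun hd => hpq ((Nat.prime_dvd_prime_iff_eq hq hp).mp hd).symm
    have h2 : ((p : ℤ) : ZMod q) * y = ((p : ℤ) : ZMod q) * y' := by
      have := (ZMod.intCast_eq_intCast_iff_dvd_sub _ _ q).mpr h01
      push_cast at this ⊢
      simpa using this.symm
    exact hunit.mul_left_cancel h2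
  · -- `(some, none)`
    have := (ZMod.intCast_eq_intCast_iff_dvd_sub _ _ p).mpr h01
    simpa using this.symm
  · -- `(some, some)`
    have hb : ∀ (u : ZMod p) (v : ZMod q),
        (0 : ℤ) ≤ (v.cast : ℤ) + (u.cast : ℤ) * q ∧
          (v.cast : ℤ) + (u.cast : ℤ) * q < (p : ℤ) * q := fun u v => by
      rw [← ZMod.natCast_val, ← ZMod.natCast_val]
      have hu : (u.val : ℤ) + 1 ≤ p := by exact_mod_cast u.val_lt
      have hv : (v.val : ℤ) < q := by exact_mod_cast v.val_lt
      constructor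
      · positivity
      · nlinarith [Int.natCast_nonneg q]
    have heq : (y.cast : ℤ) + (x.cast : ℤ) * q = (y'.cast : ℤ) + (x'.cast : ℤ) * q := by
      obtain ⟨k, hk⟩ := h01
      have h1 := hb x y
      have h2 := hb x' y'
      rcases lt_trichotomy k 0 with hk0 | hk0 | hk0
      · nlinarith
      · subst hk0; linarith
      · nlinarith
    have hy : y = y' := by
      have := congrArg (Int.cast : ℤ → ZMod q) heq
      simpa using this
    subst hy
    have hx : (x.cast : ℤ) = (x'.cast : ℤ) :=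
      mul_right_cancel₀ (Nat.cast_ne_zero.mpr hq.ne_zero) (by linarith)
    exact ⟨by simpa using congrArg (Int.cast : ℤ → ZMod p) hx, rfl⟩

theorem exists_swap (hp : p.Prime) (hq : q.Prime) (hpq : p ≠ q)
    (a : Option (ZMod p) × Option (ZMod q)) :
    ∃ b : Option (ZMod q) × Option (ZMod p), (b.1.isSome = a.2.isSome) ∧ (b.2.isSome = a.1.isSome) ∧
      SameKey (tRep p a.1 * tRep q a.2) (tRep q b.1 * tRep p b.2) := by
  have : NeZero p := ⟨hp.ne_zero⟩
  have : NeZero q := ⟨hq.ne_zero⟩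
  have : Fact p.Prime := ⟨hp⟩
  have : Fact q.Prime := ⟨hq⟩
  rcases a with ⟨_ | x, _ | y⟩
  · exact ⟨(none, none), rfl, rfl, by
      simp [SameKey, tRep, diagRep, mul_comm]⟩
  · refine ⟨(some ((p : ZMod q) * y), none), rfl, rfl, ?_⟩
    simp only [SameKey, tRep, diagRep, upperRep, Matrix.mul_fin_two]
    simp only [Matrix.cons_val', Matrix.cons_val_zero, Matrix.cons_val_one, Matrix.of_apply]
    refine ⟨by ring, by ring, ?_⟩
    have key : ((q : ℤ)) ∣ (p : ℤ) * (y.val : ℤ) - (((p : ZMod q) * y).val : ℤ) := by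
      rw [← ZMod.intCast_zmod_eq_zero_iff_dvd]
      push_cast
      simp
    simpa using key
  · refine ⟨(none, some ((q : ZMod p)⁻¹ * x)), rfl, rfl, ?_⟩
    simp only [SameKey, tRep, diagRep, upperRep, Matrix.mul_fin_two]
    simp only [Matrix.cons_val', Matrix.cons_val_zero, Matrix.cons_val_one, Matrix.of_apply]
    refine ⟨by ring, by ring, ?_⟩
    have hq0 : (q : ZMod p) ≠ 0 := by
      rw [Ne, ZMod.natCast_eq_zero_iff]
      exact fun hd => hpq ((Nat.prime_dvd_prime_iff_eq hp hq).mp hd)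
    have key : ((p : ℤ)) ∣ (x.val : ℤ) - (q : ℤ) * (((q : ZMod p)⁻¹ * x).val : ℤ) := by
      rw [← ZMod.intCast_zmod_eq_zero_iff_dvd]
      push_cast
      simp [mul_inv_cancel_left₀ hq0]
    simpa using key
  · -- write `c = y + x q < p q` as `x' + y' p`
    set c : ℕ := y.val + x.val * q with hc
    have hclt : c < p * q := by
      have := x.val_lt
      have := y.val_lt
      have : (x.val + 1) * q ≤ p * q := Nat.mul_le_mul_right q (by omega)
      rw [hc]; linarith
    refine ⟨(some ((c / p : ℕ) : ZMod q), some ((c % p : ℕ) : ZMod p)), rfl, rfl, ?_⟩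
    have h1 : (((c / p : ℕ) : ZMod q)).val = c / p :=
      ZMod.val_cast_of_lt ((Nat.div_lt_iff_lt_mul hp.pos).mpr (by rwa [mul_comm]))
    have h2 : (((c % p : ℕ) : ZMod p)).val = c % p := ZMod.val_cast_of_lt (Nat.mod_lt _ hp.pos)
    simp only [SameKey, tRep, upperRep, Matrix.mul_fin_two, h1, h2]
    simp only [Matrix.cons_val', Matrix.cons_val_zero, Matrix.cons_val_one, Matrix.of_apply]
    refine ⟨by ring, by ring, ⟨0, ?_⟩⟩
    have h3 : ((c % p : ℕ) : ℤ) + (p : ℤ) * ((c / p : ℕ) : ℤ) = (c : ℤ) := by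
      exact_mod_cast Nat.mod_add_div c p
    have hc' : (c : ℤ) = (y.val : ℤ) + (x.val : ℤ) * q := by rw [hc]; push_cast; rfl
    push_cast at h3
    simp only [mul_zero]
    push_cast
    linarith

variable (N : ℕ) [NeZero N]

/-- The index set of the Hecke correspondence at `p` inside `Option (ZMod p)`. -/
def heckeIndex (p : ℕ) [NeZero p] : Finset (Option (ZMod p)) :=
  if p ∣ N then Finset.univ.filter fun i => i.isSome else Finset.univ

variable {N}

omit [NeZero N] in
theorem mem_heckeIndex {p : ℕ} [NeZero p] {i : Option (ZMod p)} :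
    i ∈ heckeIndex N p ↔ (p ∣ N → i.isSome = true) := by
  unfold heckeIndex
  split_ifs with h <;> simp [h]

omit [NeZero N] in
/-- Symmetry of products of `Γ₀(N)`-invariant functions over double coset representatives. -/
theorem prod_swap {G : Type*} [CommMonoid G] [NeZero p] [NeZero q] (hp : p.Prime) (hq : q.Prime)
    (hpq : p ≠ q) (F : M₂ → G)
    (hF : ∀ (δ : Gamma0 N) (P : M₂), P 1 0 = 0 → 0 < P.det →
      F (((δ : SL(2, ℤ)) : M₂) * P) = F P) :
    ∏ i ∈ heckeIndex N p, ∏ j ∈ heckeIndex N q, F (tRep p i * tRep q j) =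
      ∏ j ∈ heckeIndex N q, ∏ i ∈ heckeIndex N p, F (tRep q j * tRep p i) := by
  classical
  rw [← Finset.prod_product', ← Finset.prod_product']
  choose e he1 he2 he3 using exists_swap (p := p) (q := q) hp hq hpq
  have hinj : Function.Injective e := by
    intro a a' h
    refine tRep_mul_injective hp hq hpq ?_
    obtain ⟨u1, u2, u3⟩ := he3 a
    obtain ⟨v1, v2, v3⟩ := he3 a'
    rw [h] at u1 u2 u3
    refine ⟨u1.trans v1.symm, u2.trans v2.symm, ?_⟩
    rw [v2]
    have := dvd_sub u3 v3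
    simpa using this
  have hcard : Fintype.card (Option (ZMod p) × Option (ZMod q)) =
      Fintype.card (Option (ZMod q) × Option (ZMod p)) := by
    simp [mul_comm]
  have hbij : Function.Bijective e :=
    (Fintype.bijective_iff_injective_and_card e).mpr ⟨hinj, hcard⟩
  refine Finset.prod_equiv (Equiv.ofBijective e hbij) (fun a => ?_) fun a _ => ?_
  · simp only [Equiv.ofBijective_apply, Finset.mem_product, mem_heckeIndex, he1, he2]
    exact and_comm
  · obtain ⟨δ, hδ⟩ := exists_trans_of_key (N := N)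
      (mul_one_zero_eq_zero (tRep_one_zero_eq p a.1) (tRep_one_zero_eq q a.2))
      (mul_one_zero_eq_zero (tRep_one_zero_eq q (e a).1) (tRep_one_zero_eq p (e a).2))
      (he3 a).1 (he3 a).2.1 (he3 a).2.2
    rw [Equiv.ofBijective_apply, hδ]
    refine hF δ _ (mul_one_zero_eq_zero (tRep_one_zero_eq q _) (tRep_one_zero_eq p _)) ?_
    rw [Matrix.det_mul, det_tRep, det_tRep]
    exact_mod_cast Nat.mul_pos hq.pos hp.pos

end FermatAgent.ModCurveTorsion

end
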