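import Fermat.Agent.ModCurve.Torsion.HeckeNorm
import Fermat.Agent.ModCurve.Torsion.HeckeDiv
import Fermat.Agent.ModCurve.Torsion.HeckeCosetProduct

/-!
The Hecke correspondences commute as maps of divisors of `X₀(N)` over `ℂ`.
-/

set_option autoImplicit false

noncomputable section

open scoped MatrixGroups
open Filter Topology CongruenceSubgroup ModularCurve AlgebraicCurve

namespace FermatAgent.ModCurveTorsion

open FermatAgent.ModCurve.Points
open FermatAgent.Periods

local notation "ℍo" => UpperHalfPlane.upperHalfPlaneSet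
local notation "M₂" => Matrix (Fin 2) (Fin 2) ℤ

variable {N : ℕ} [NeZero N]

theorem det_wMat_tRep_pos {p : ℕ} [NeZero p] (i : Option (ZMod p)) :
    0 < (wMat N (tRep p i)).det := by
  rw [det_wMat (tRep_one_zero p i), det_tRep]
  exact_mod_cast NeZero.pos p

/-- Value of the norm as a product over `heckeIndex`. -/
theorem evalFun_heckeNorm {p : ℕ} [NeZero p] (hp : p.Prime) (f : FieldC N) :
    GermEq (evalFun (heckeNorm ℂ N p f))
      (∏ i ∈ heckeIndex N p, evalFun f ∘ mob (wMat N (tRep p i))) := by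
  have : NeZero (N * p) := ⟨mul_ne_zero (NeZero.ne N) hp.ne_zero⟩
  by_cases hpN : p ∣ N
  · have h := evalFun_norm_beta (wCorr (uCorr N hpN) fun x => upperRep_one_zero p _)
      (fun i => det_wMat_tRep_pos (some i)) (uMatch hpN)
      (by rw [ZMod.card, dedekindPsi_mul_of_dvd (NeZero.ne N) hp hpN]) f
    have e : heckeIndex N p = Finset.univ.map ⟨some, Option.some_injective (ZMod p)⟩ := by
      ext i
      rw [mem_heckeIndex]
      cases i <;> simp [hpN]
    rw [e, Finset.prod_map]
    exact h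
  · obtain ⟨M⟩ := exists_tMatch (N := N) hp hpN
    have h := evalFun_norm_beta (wCorr (tCorr N hp hpN) fun x => tRep_one_zero p x)
      (fun i => det_wMat_tRep_pos i) M
      (by rw [Fintype.card_option, ZMod.card, dedekindPsi_mul_of_not_dvd (NeZero.ne N) hp hpN]) f
    have e : heckeIndex N p = Finset.univ := by
      ext i
      simp [mem_heckeIndex, hpN]
    rw [e]
    exact h

/-- Value at a point of the norm of a norm. -/
theorem evalFun_heckeNorm_heckeNorm {p q : ℕ} [NeZero p] [NeZero q] (hp : p.Prime) (hq : q.Prime)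
    (f : FieldC N) :
    GermEq (evalFun (heckeNorm ℂ N p (heckeNorm ℂ N q f))) fun w =>
      ∏ i ∈ heckeIndex N p, ∏ j ∈ heckeIndex N q,
        evalFun f (mob (wMat N (tRep q j * tRep p i)) w) := by
  refine (evalFun_heckeNorm hp _).trans ?_
  intro z hz
  have key : ∀ i : Option (ZMod p), (evalFun (heckeNorm ℂ N q f) ∘ mob (wMat N (tRep p i)))
      =ᶠ[𝓝[≠] z]
        ((∏ j ∈ heckeIndex N q, evalFun f ∘ mob (wMat N (tRep q j))) ∘ mob (wMat N (tRep p i))) :=
    fun i => (evalFun_heckeNorm hq f).comp_mob (det_wMat_tRep_pos i) z hz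
  filter_upwards [eventually_all.mpr key,
    mem_nhdsWithin_of_mem_nhds (UpperHalfPlane.isOpen_upperHalfPlaneSet.mem_nhds hz)] with w hw hwo
  rw [Finset.prod_apply]
  refine Finset.prod_congr rfl fun i _ => ?_
  rw [hw i, Function.comp_apply, Finset.prod_apply]
  refine Finset.prod_congr rfl fun j _ => ?_
  rw [Function.comp_apply, wMat_mul (tRep_one_zero q j) (tRep_one_zero p i),
    mob_mul _ _ (det_wMat_tRep_pos i).ne' hwo]

theorem heckeNorm_comm {p q : ℕ} [NeZero p] [NeZero q] (hp : p.Prime) (hq : q.Prime)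
    (f : FieldC N) :
    heckeNorm ℂ N p (heckeNorm ℂ N q f) = heckeNorm ℂ N q (heckeNorm ℂ N p f) := by
  by_cases hpq : p = q
  · subst hpq
    rfl
  refine evalFun_injective ((evalFun_heckeNorm_heckeNorm hp hq f).trans
    ((GermEq.of_eqOn fun w hw => ?_).trans (evalFun_heckeNorm_heckeNorm hq hp f).symm))
  show (∏ i ∈ heckeIndex N p, ∏ j ∈ heckeIndex N q,
      evalFun f (mob (wMat N (tRep q j * tRep p i)) w)) =
    ∏ j ∈ heckeIndex N q, ∏ i ∈ heckeIndex N p,
      evalFun f (mob (wMat N (tRep p i * tRep q j)) w)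
  rw [Finset.prod_comm]
  refine (prod_swap (N := N) (p := q) (q := p) hq hp (Ne.symm hpq)
    (fun P => evalFun f (mob (wMat N P) w)) fun δ P hP hdet => ?_).trans Finset.prod_comm
  have hPN : (N : ℤ) ∣ P 1 0 := by rw [hP]; exact dvd_zero _
  have hw' : 0 < (wMat N P).det := by rwa [det_wMat hPN]
  rw [wMat_mul (dvd_gamma0_one_zero δ) hPN, mob_mul _ _ hw'.ne' hw]
  exact evalFun_mob_of_mem f (wGamma0 N δ) (mob_mem hw' hw)

theorem heckeDiv_comm {p q : ℕ} [NeZero p] [NeZero q] (hp : p.Prime) (hq : q.Prime) :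
    (heckeDiv ℂ N p).comp (heckeDiv ℂ N q) = (heckeDiv ℂ N q).comp (heckeDiv ℂ N p) := by
  refine IsLocalDiv.ext ((isLocalDiv_heckeDiv ℂ N p).comp (isLocalDiv_heckeDiv ℂ N q))
    ((isLocalDiv_heckeDiv ℂ N q).comp (isLocalDiv_heckeDiv ℂ N p)) fun f hf => ?_
  rw [AddMonoidHom.comp_apply, AddMonoidHom.comp_apply, heckeDiv_divisorOf ℂ N q hf,
    heckeDiv_divisorOf ℂ N p (heckeNorm_ne_zero ℂ N q hf), heckeDiv_divisorOf ℂ N p hf,
    heckeDiv_divisorOf ℂ N q (heckeNorm_ne_zero ℂ N p hf), heckeNorm_comm hp hq]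

end FermatAgent.ModCurveTorsion

end
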