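import Fermat.Agent.ModCurve.Torsion.ComplexModel

/-!
The involution `φ ↦ -(φ ∘ J)` on the coordinate lattice: it commutes with the Hecke algebra, and in
the Eichler-Shimura realization it is `(f, g) ↦ (-f, g)`.
-/

set_option autoImplicit false

noncomputable section

namespace FermatAgent.ModCurveTorsion

open CongruenceSubgroup ModularCurve ModularCurve.Period
open FermatAgent.ModCurveGroup FermatAgent.Periods
open scoped MatrixGroups

variable (N : ℕ) [NeZero N]

local notation "S₂" => CuspForm (Gamma0 N) 2
local notation "P_ℂ" => parabolicHoms ℂ (Gamma0 N) ℂ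
local notation "Λ" => parabolicHoms ℤ (Gamma0 N) ℤ

theorem periodHomPair_charInvolution (x : S₂ × S₂) :
    charInvolution N ℂ ℂ (periodHomPair N x) = periodHomPair N (x.1, -x.2) := by
  obtain ⟨pml, hpml, hdef⟩ := periodHomPair_def N (periodEquivariance N).linear
  rw [hdef]
  simp only [LinearMap.coprod_apply, LinearMap.comp_apply, LinearMap.add_apply,
    LinearMap.sub_apply, LinearMap.id_apply, map_add, map_sub, map_neg,
    charInvolution_charInvolution]
  abel

/-- `φ ↦ -(φ ∘ J)` on integral parabolic homs. -/
def parabolicConj : Module.End ℤ Λ :=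
  -((charInvolution N ℤ ℤ).restrict fun _ hφ => charInvolution_mem_parabolicHoms N ℤ ℤ hφ)

omit [NeZero N] in
theorem castHom_parabolicConj (φ : Λ) :
    castHom (parabolicConj N φ) = -charInvolution N ℂ ℂ (castHom φ) := by
  refine AddMonoidHom.ext fun x => ?_
  show ((-(φ.1 (Additive.ofMul (jConjGamma0 N (Additive.toMul x)))) : ℤ) : ℂ) = _
  rw [Int.cast_neg]
  rfl

theorem periodEquiv_symm_parabolicConj (φ : Λ) :
    (periodEquiv (eichlerShimuraBij N)).symm
        ⟨castHom (parabolicConj N φ), castHom_mem _⟩ =
      (-((periodEquiv (eichlerShimuraBij N)).symm ⟨castHom φ, castHom_mem φ⟩).1,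
        ((periodEquiv (eichlerShimuraBij N)).symm ⟨castHom φ, castHom_mem φ⟩).2) := by
  set x := (periodEquiv (eichlerShimuraBij N)).symm ⟨castHom φ, castHom_mem φ⟩ with hx
  rw [LinearEquiv.symm_apply_eq]
  refine Subtype.ext ?_
  show castHom (parabolicConj N φ) = _
  rw [coe_periodEquiv, castHom_parabolicConj,
    show castHom φ = periodHomPair N x by
      rw [← coe_periodEquiv (eichlerShimuraBij N), hx, LinearEquiv.apply_symm_apply],
    periodHomPair_charInvolution, ← map_neg, Prod.neg_mk, neg_neg]

theorem parabolicConj_heckeOnLattice (t : CuspForm.heckeAlgebra N 2 (∅ : Set ℕ)) (φ : Λ) :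
    parabolicConj N (heckeOnLattice (eichlerShimuraBij N) (periodEquivariance N) t φ) =
      heckeOnLattice (eichlerShimuraBij N) (periodEquivariance N) t (parabolicConj N φ) := by
  refine castHom_injective ?_
  rw [castHom_parabolicConj, castHom_heckeOnLattice, castHom_heckeOnLattice]
  set x := (periodEquiv (eichlerShimuraBij N)).symm ⟨castHom φ, castHom_mem φ⟩ with hx
  have h1 : (⟨castHom φ, castHom_mem φ⟩ : P_ℂ) = periodEquiv (eichlerShimuraBij N) x :=
    ((periodEquiv (eichlerShimuraBij N)).apply_symm_apply _).symm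
  have h2 := periodEquiv_symm_parabolicConj N φ
  rw [LinearEquiv.symm_apply_eq] at h2
  rw [h2, h1, diagOp_apply_periodEquiv, diagOp_apply_periodEquiv, coe_periodEquiv,
    coe_periodEquiv, periodHomPair_charInvolution, ← map_neg, Prod.neg_mk, neg_neg]
  simp only [map_neg, LinearEquiv.symm_apply_apply]

/-- The involution on the coordinate lattice. -/
def latticeConj : Module.End ℤ (Fin (2 * genusX0 N) → ℤ) :=
  (latticeCoord N).conj (parabolicConj N)

theorem latticeConj_latticeCoord (φ : Λ) :
    latticeConj N (latticeCoord N φ) = latticeCoord N (parabolicConj N φ) := by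
  simp [latticeConj, LinearEquiv.conj_apply_apply]

theorem latticeConj_latticeHecke (t : CuspForm.heckeAlgebra N 2 (∅ : Set ℕ))
    (v : Fin (2 * genusX0 N) → ℤ) :
    latticeConj N (latticeHecke N t v) = latticeHecke N t (latticeConj N v) := by
  obtain ⟨φ, rfl⟩ := (latticeCoord N).surjective v
  rw [latticeHecke_apply, latticeConj_latticeCoord, latticeConj_latticeCoord, latticeHecke_apply,
    parabolicConj_heckeOnLattice]

theorem latticeRealization_conj (v : Fin (2 * genusX0 N) → ℤ) :
    latticeRealization N (fun i => ((latticeConj N v i : ℤ) : ℂ)) =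
      (-(latticeRealization N fun i => ((v i : ℤ) : ℂ)).1,
        (latticeRealization N fun i => ((v i : ℤ) : ℂ)).2) := by
  obtain ⟨φ, rfl⟩ := (latticeCoord N).surjective v
  rw [latticeConj_latticeCoord, ← complexCoord_castHom, ← complexCoord_castHom]
  simp only [latticeRealization, LinearEquiv.trans_apply, LinearEquiv.symm_apply_apply]
  exact periodEquiv_symm_parabolicConj N φ

theorem wInvolution_charInvolution {A : Type*} [AddCommGroup A]
    (φ : Additive (Gamma0 N) →+ A) :
    wInvolution N ℤ A (charInvolution N ℤ A φ) = charInvolution N ℤ A (wInvolution N ℤ A φ) := by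
  refine AddMonoidHom.ext fun x => ?_
  show φ (Additive.ofMul (jConjGamma0 N (wGamma0 N (Additive.toMul x)))) =
    φ (Additive.ofMul (wGamma0 N (jConjGamma0 N (Additive.toMul x))))
  congr 2
  refine Subtype.ext (Subtype.ext ?_)
  rw [jConjGamma0_coe, jConjSL_coe, coe_wGamma0, coe_wGamma0, jConjGamma0_coe, jConjSL_coe]
  ext i j
  fin_cases i <;> fin_cases j <;> simp [wMat, jConjMat, Int.neg_ediv_of_dvd, dvd_gamma0_one_zero]

variable {N}

theorem charMod_latticeConj (n : ℕ) (v : Fin (2 * genusX0 N) → ℤ) :
    (charMod n (latticeConj N v)).1 = -charInvolution N ℤ (ZMod n) (charMod n v).1 := by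
  obtain ⟨φ, rfl⟩ := (latticeCoord N).surjective v
  rw [latticeConj_latticeCoord, charMod_latticeCoord, charMod_latticeCoord,
    ← wInvolution_charInvolution, ← map_neg]
  congr 1
  refine AddMonoidHom.ext fun x => ?_
  show ((-(φ.1 (Additive.ofMul (jConjGamma0 N (Additive.toMul x)))) : ℤ) : ZMod n) = _
  rw [Int.cast_neg]
  rfl

end FermatAgent.ModCurveTorsion

end
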