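import Fermat.Agent.ModCurve.Torsion.Model
import Fermat.Agent.ModCurve.Torsion.DescendTorsion
import Fermat.Agent.ModCurve.Torsion.HeckeCommute
import Fermat.Agent.ModCurve.Torsion.GaloisHecke
import Fermat.Agent.ModCurve.Torsion.Conjugation
import Fermat.Agent.ModCurve.Torsion.LatticeConj

/-!
Construction of the torsion model of `J₀(N)(ℚ̄)`.
-/

set_option autoImplicit false
set_option maxHeartbeats 1600000

noncomputable section

namespace FermatAgent.ModCurveTorsion

open ModularCurve AlgebraicCurve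
open FermatAgent.ModCurveGroup (genusX0)
open FermatAgent.ModCurve.Points (FieldC)

variable (N : ℕ) [NeZero N]

theorem projC_mem_range_jBaseC (n : ℕ) (v : Fin (2 * genusX0 N) → ℤ) :
    ∃ x, jBaseC N x = projC n v := by
  rcases Nat.eq_zero_or_pos n with h | h
  · subst h
    exact ⟨0, by simp [projC]⟩
  · exact exists_jBaseC_eq N h ((mem_range_projC_iff h _).mp ⟨v, rfl⟩)

/-- `Λ → J₀(N)(ℚ̄)[n]`. -/
def projBar (n : ℕ) : (Fin (2 * genusX0 N) → ℤ) →+ JZero N :=
  AddMonoidHom.mk' (fun v => (projC_mem_range_jBaseC N n v).choose) fun v w =>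
    jBaseC_injective N <| by
      refine (projC_mem_range_jBaseC N n (v + w)).choose_spec.trans ?_
      refine Eq.trans ?_ (AddMonoidHom.map_add (jBaseC N) _ _).symm
      rw [(projC_mem_range_jBaseC N n v).choose_spec,
        (projC_mem_range_jBaseC N n w).choose_spec]
      exact AddMonoidHom.map_add (projC n) v w

theorem jBaseC_projBar (n : ℕ) (v : Fin (2 * genusX0 N) → ℤ) :
    jBaseC N (projBar N n v) = projC n v :=
  (projC_mem_range_jBaseC N n v).choose_spec

theorem heckeOperatorBar_projBar (n : ℕ) (ℓ : Nat.Primes) (v w : Fin (2 * genusX0 N) → ℤ)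
    (h : haveI : NeZero (ℓ : ℕ) := ⟨ℓ.2.ne_zero⟩
      heckeOperatorAlong ℂ N ℓ (projC n v) = projC n w) :
    heckeOperatorBar N ℓ (projBar N n v) = projBar N n w := by
  have : NeZero (ℓ : ℕ) := ⟨ℓ.2.ne_zero⟩
  refine jBaseC_injective N ?_
  rw [heckeOperatorBar_apply, jBaseC_heckeOperatorAlong, jBaseC_projBar, jBaseC_projBar]
  exact h

theorem projBar_latticeConj {n : ℕ} (hn : 0 < n) (v : Fin (2 * genusX0 N) → ℤ) :
    projBar N n (latticeConj N v) = complexConjugation • projBar N n v := by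
  have : NeZero n := ⟨hn.ne'⟩
  refine jBaseC_injective N ?_
  rw [jBaseC_projBar]
  have h : IsKummerChar n (jBaseC N (projBar N n v)) (charMod n v).1 := by
    rw [jBaseC_projBar]; exact isKummerChar_projC n v
  refine (isKummerChar_projC n (latticeConj N v)).injective ?_
  rw [charMod_latticeConj]
  exact h.complexConjugation_smul

/-- The torsion model. -/
def constructedTorsionModel : TorsionModel N where
  rank := 2 * genusX0 N
  rank_eq := rank_eq_genusFormula
  hecke := latticeHecke N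
  hecke_injective := latticeHecke_injective N
  proj := projBar N
  mem_range_proj_iff n hn x := by
    constructor
    · rintro ⟨v, rfl⟩
      refine jBaseC_injective N ?_
      rw [map_zsmul, jBaseC_projBar, map_zero]
      exact (mem_range_projC_iff hn _).mp ⟨v, rfl⟩
    · intro hx
      obtain ⟨v, hv⟩ := (mem_range_projC_iff hn (jBaseC N x)).mpr
        (by rw [← map_zsmul, hx, map_zero])
      exact ⟨v, jBaseC_injective N (by rw [jBaseC_projBar, hv])⟩
  proj_eq_zero_iff n hn v := by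
    rw [← projC_eq_zero_iff hn, ← jBaseC_projBar, map_eq_zero_iff _ (jBaseC_injective N)]
  smul_proj m n hm hn v := jBaseC_injective N <| by
    rw [map_zsmul, jBaseC_projBar, jBaseC_projBar, smul_projC hm hn]
  proj_T n hn ℓ hℓN v := by
    have : NeZero (ℓ : ℕ) := ⟨ℓ.2.ne_zero⟩
    exact heckeOperatorBar_projBar N n ℓ v _ (heckeOperatorAlong_projC_T hn ℓ.2 hℓN v)
  proj_U n hn q hqN v := by
    have : NeZero (q : ℕ) := ⟨q.2.ne_zero⟩
    exact heckeOperatorBar_projBar N n q v _ (heckeOperatorAlong_projC_U hn q.2 hqN v)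
  realization := latticeRealization N
  realization_hecke := latticeRealization_hecke N
  conj := latticeConj N
  conj_hecke := latticeConj_latticeHecke N
  realization_conj := latticeRealization_conj N
  proj_conj _ hn v := projBar_latticeConj N hn v

theorem heckeOperatorAlong_comm_complex (ℓ ℓ' : ℕ) [NeZero ℓ] [NeZero ℓ'] (hℓ : ℓ.Prime)
    (hℓ' : ℓ'.Prime) (x : Pic0 ℂ (FieldC N)) :
    heckeOperatorAlong ℂ N ℓ (heckeOperatorAlong ℂ N ℓ' x) =
      heckeOperatorAlong ℂ N ℓ' (heckeOperatorAlong ℂ N ℓ x) := by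
  obtain ⟨D, rfl⟩ := Pic0.mk_surjective x
  rw [heckeOperatorAlong_mk, heckeOperatorAlong_mk, heckeOperatorAlong_mk, heckeOperatorAlong_mk]
  refine congrArg Pic0.mk (Subtype.ext ?_)
  have h := DFunLike.congr_fun (heckeDiv_comm (N := N) hℓ hℓ') D.1
  rw [AddMonoidHom.comp_apply, AddMonoidHom.comp_apply] at h
  exact h

theorem heckeOperatorAlong_comm_bar (ℓ ℓ' : ℕ) [NeZero ℓ] [NeZero ℓ'] (hℓ : ℓ.Prime)
    (hℓ' : ℓ'.Prime) (x : JZero N) :
    heckeOperatorAlong (AlgebraicClosure ℚ) N ℓ (heckeOperatorAlong (AlgebraicClosure ℚ) N ℓ' x) =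
      heckeOperatorAlong (AlgebraicClosure ℚ) N ℓ'
        (heckeOperatorAlong (AlgebraicClosure ℚ) N ℓ x) := by
  refine jBaseC_injective N ?_
  rw [jBaseC_heckeOperatorAlong, jBaseC_heckeOperatorAlong, jBaseC_heckeOperatorAlong,
    jBaseC_heckeOperatorAlong]
  exact heckeOperatorAlong_comm_complex N ℓ ℓ' hℓ hℓ' (jBaseC N x)

theorem heckeOperatorsCommuteBar_proof : HeckeOperatorsCommuteBar N := by
  intro ℓ ℓ'
  have : NeZero (ℓ : ℕ) := ⟨ℓ.2.ne_zero⟩
  have : NeZero (ℓ' : ℕ) := ⟨ℓ'.2.ne_zero⟩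
  refine LinearMap.ext fun x => ?_
  show heckeOperatorBar N ℓ (heckeOperatorBar N ℓ' x) =
    heckeOperatorBar N ℓ' (heckeOperatorBar N ℓ x)
  rw [heckeOperatorBar_apply, heckeOperatorBar_apply, heckeOperatorBar_apply,
    heckeOperatorBar_apply]
  exact heckeOperatorAlong_comm_bar N ℓ ℓ' ℓ.2 ℓ'.2 x

end FermatAgent.ModCurveTorsion

end
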