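import Fermat.Agent.ModCurve.Fun.Degree
import Fermat.Agent.Curve.Basics.Along
import Fermat.Agent.ModCurve.Fun.Instances
import Fermat.Prelude.Def_ModularCurve_HeckeOperatorTotal

/-!
The function fields `L(X₀(N))` underlying the Hecke operators on `Pic⁰` are function fields in
one variable over `L`.
-/

set_option autoImplicit false

noncomputable section

namespace FermatAgent.ModCurveTorsion

open ModularCurve AlgebraicCurve IntermediateField

variable (L : Type*) [Field L] [Algebra ℚ L]

theorem isFunctionField1_laurent (N : ℕ) [NeZero N] :
    FermatAgent.Curve.IsFunctionField1 L (laurentBaseChange L (modularFunctionFieldFull N)) :=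
  ⟨⟨FermatAgent.ModFun.jBar L N, FermatAgent.ModFun.transcendental_jBar L N,
    FermatAgent.ModFun.finiteDimensional_adjoin_jBar L N⟩⟩

end FermatAgent.ModCurveTorsion

end
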