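import Fermat.Agent.ModCurve.Torsion.Descend
import Fermat.Agent.ModCurve.Torsion.DegreeRatio
import Fermat.Agent.ModCurve.Torsion.AtkinLehner
import Mathlib.RingTheory.Norm.Transitivity
import Mathlib.FieldTheory.IsAlgClosed.AlgebraicClosure

/-!
The norm along `X₀(Nℓ) → X₀(N)` of a pull back along the other degeneracy map is the product over
the representatives of the correspondence.
-/

set_option autoImplicit false

noncomputable section

open scoped MatrixGroups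
open UpperHalfPlane hiding I
open Filter Topology CongruenceSubgroup ModularCurve AlgebraicCurve

namespace FermatAgent.ModCurveTorsion

open FermatAgent.ModCurve.Points
open FermatAgent.ModFun (cuspRing qLaurentHom dil mem_cuspRing_comp_dil qLaurent_comp_dil)
open FermatAgent.Periods

local notation "ℍo" => UpperHalfPlane.upperHalfPlaneSet
local notation "M₂" => Matrix (Fin 2) (Fin 2) ℤ

variable {N : ℕ} [NeZero N]

omit [NeZero N] in
/-- An element of the function field whose expansion is that of a member of the cusp ring is that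
function. -/
theorem evalFun_of_coe_eq (x : FieldC N) (F : cuspRing)
    (h : (x : LaurentSeries ℂ) = qLaurentHom F) :
    GermEq (evalFun x) ((F : ℍ → ℂ) ∘ ofComplex) := by
  have hd : toField N (evalDen x) ≠ 0 :=
    fun h => evalDen_ne_zero x (toField_injective N (h.trans (map_zero _).symm))
  have h1 : (x : LaurentSeries ℂ) * (toField N (evalDen x) : LaurentSeries ℂ) =
      (toField N (evalNum x) : LaurentSeries ℂ) := by
    rw [← IntermediateField.coe_mul, show x * toField N (evalDen x) = toField N (evalNum x) from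
      (eq_div_iff hd).mp (eq_evalNum_div_evalDen x)]
  have h2 : F * ((evalDen x : regRing N) : cuspRing) = ((evalNum x : regRing N) : cuspRing) := by
    refine FermatAgent.ModFun.qLaurentHom_injective ?_
    rw [map_mul, ← h]
    exact h1
  intro z hz
  have hne : ∀ᶠ w in 𝓝[≠] z, evalC 1 (evalDen x) w ≠ 0 := by
    refine (meromorphicOrderAt_ne_top_iff_eventually_ne_zero
      (analyticAt_evalC 1 _ ⟨z, hz⟩).meromorphicAt).mp fun htop => ?_
    refine evalDen_ne_zero x (germHom_injective ⟨z, hz⟩ 1 ?_)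
    rw [map_zero, germHom_apply, MeroGerm.mk_eq_zero_iff]
    exact htop
  filter_upwards [hne] with w hw
  simp only [evalC, one_smul] at hw
  have h3 := congrFun (congrArg Subtype.val h2) (ofComplex w)
  simp only [evalFun, evalC, one_smul, Function.comp_apply, div_eq_iff hw]
  exact h3.symm

variable {ℓ : ℕ} [NeZero ℓ]

/-- `diag(ℓ, 1)`. -/
abbrev dilMat (ℓ : ℕ) : M₂ := diagRep ℓ

theorem det_dilMat_pos (ℓ : ℕ) [NeZero ℓ] : 0 < (dilMat ℓ).det := by
  rw [det_diagRep]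
  exact_mod_cast NeZero.pos ℓ

theorem ofComplex_mob_dilMat {w : ℂ} (hw : 0 < w.im) :
    ofComplex (mob (dilMat ℓ) w) = dil ℓ (ofComplex w) := by
  apply UpperHalfPlane.ext
  have h : mob (dilMat ℓ) w = (ℓ : ℂ) * w := by simp [mob, dilMat, diagRep]
  rw [FermatAgent.ModFun.coe_dil, ofComplex_apply_of_im_pos hw,
    ofComplex_apply_of_im_pos (show 0 < (mob (dilMat ℓ) w).im from mob_mem (det_dilMat_pos ℓ) hw)]
  exact h

omit [NeZero N] in
theorem evalFun_div_toField {x : FieldC N} {a b : FieldC N} {A B : ℂ → ℂ} (hx : x = a / b)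
    (ha : GermEq (evalFun a) A) (hb : GermEq (evalFun b) B) :
    GermEq (evalFun x) fun w => A w / B w := by
  subst hx
  rw [div_eq_mul_inv]
  intro z hz
  filter_upwards [evalFun_mul a b⁻¹ z hz, evalFun_inv b z hz, ha z hz, hb z hz] with w e1 e2 e3 e4
  simp only [Pi.mul_apply, Pi.inv_apply] at e1 e2
  rw [e1, e2, e3, e4, div_eq_mul_inv]

variable [NeZero (N * ℓ)]

omit [NeZero (N * ℓ)] in
theorem evalFun_heckeAlphaBar (f : FieldC N) :
    GermEq (evalFun (heckeAlphaBar ℂ N ℓ f)) (evalFun f) := by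
  refine evalFun_div_toField
    (a := heckeAlphaBar ℂ N ℓ (toField N (evalNum f)))
    (b := heckeAlphaBar ℂ N ℓ (toField N (evalDen f)))
    (by rw [← map_div₀, ← eq_evalNum_div_evalDen]) ?_ ?_
  · exact (evalFun_of_coe_eq _ _ (coe_heckeAlphaBar N ℓ _)).trans
      (GermEq.of_eqOn fun w _ => by simp [evalC, evalH])
  · exact (evalFun_of_coe_eq _ _ (coe_heckeAlphaBar N ℓ _)).trans
      (GermEq.of_eqOn fun w _ => by simp [evalC, evalH])

omit [NeZero N] [NeZero (N * ℓ)] in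
theorem evalFun_heckeBetaBar (f : FieldC N) :
    GermEq (evalFun (heckeBetaBar ℂ N ℓ f)) (evalFun f ∘ mob (dilMat ℓ)) := by
  have key : ∀ a : regRing N,
      GermEq (evalFun (heckeBetaBar ℂ N ℓ (toField N a))) (evalC 1 a ∘ mob (dilMat ℓ)) := by
    intro a
    refine (evalFun_of_coe_eq _ ⟨_, mem_cuspRing_comp_dil (a : cuspRing).2 ℓ⟩ ?_).trans
      (GermEq.of_eqOn fun w hw => ?_)
    · exact (qLaurent_comp_dil (a : cuspRing).2 ℓ).symm
    · simp only [Function.comp_apply, evalC, one_smul, evalH,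
        ofComplex_mob_dilMat (show 0 < w.im from hw)]
  exact evalFun_div_toField
    (a := heckeBetaBar ℂ N ℓ (toField N (evalNum f)))
    (b := heckeBetaBar ℂ N ℓ (toField N (evalDen f)))
    (by rw [← map_div₀, ← eq_evalNum_div_evalDen]) (key _) (key _)

omit [NeZero N] in
theorem pointHom_eq_mk_mob (f : FieldC N) (z : ℍ) (h : SL(2, ℤ)) :
    pointHom N z h f = MeroGerm.mk (evalFun f ∘ mob (h : M₂))
      (meromorphicOn_comp_mob (meromorphicOn_evalFun f) (by simp) _ z.2) := by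
  conv_lhs => rw [eq_evalNum_div_evalDen f]
  rw [map_div₀, pointHom_toField, pointHom_toField, germHom_apply, germHom_apply, div_eq_mul_inv,
    meroGerm_mk_inv, MeroGerm.mk_mul, MeroGerm.mk_eq_mk]
  filter_upwards [nhdsWithin_le_nhds (eventually_im_pos z)] with w hw
  simp only [Pi.mul_apply, Pi.inv_apply, Function.comp_apply, evalFun, evalC, one_smul,
    ofComplex_mob h hw, div_eq_mul_inv]

variable {ι : Type}

/-- The data matching the representatives of a correspondence with cosets of `Γ₀(Nℓ)` in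
`Γ₀(N)`. -/
structure CosetMatch (D : HeckeCorr (Gamma0 N) ι) (ℓ : ℕ) where
  γ : ι → Gamma0 N
  δ : ι → Gamma0 N
  eq : ∀ i, dilMat ℓ * ((γ i : SL(2, ℤ)) : M₂) = ((δ i : SL(2, ℤ)) : M₂) * D.rep i

omit [NeZero N] [NeZero ℓ] [NeZero (N * ℓ)] in
theorem exists_mem_Gamma0_dil {ε : SL(2, ℤ)} (hε : ε ∈ Gamma0 (N * ℓ)) :
    ∃ ε' : Gamma0 N, dilMat ℓ * (ε : M₂) = ((ε' : SL(2, ℤ)) : M₂) * dilMat ℓ := by
  obtain ⟨c, hc⟩ := (ZMod.intCast_zmod_eq_zero_iff_dvd _ _).mp (Gamma0_mem.mp hε)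
  have hdet := ε.det_coe
  rw [Matrix.det_fin_two, hc] at hdet
  push_cast at hdet hc
  refine ⟨⟨⟨!![(ε : M₂) 0 0, ℓ * (ε : M₂) 0 1; N * c, (ε : M₂) 1 1], ?_⟩, ?_⟩, ?_⟩
  · rw [Matrix.det_fin_two_of]
    linear_combination hdet
  · exact Gamma0_mem.mpr (by simp)
  · ext i j
    fin_cases i <;> fin_cases j <;>
      simp [dilMat, diagRep, Matrix.mul_apply, Fin.sum_univ_two, hc] <;> ring

variable [Fintype ι]

set_option maxHeartbeats 1600000 in
-- typeclass search over `laurentBaseChange` is slow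
theorem evalFun_norm_beta (D : HeckeCorr (Gamma0 N) ι) (hD : ∀ i, 0 < (D.rep i).det)
    (M : CosetMatch D ℓ) (hcard : Fintype.card ι * dedekindPsi N = dedekindPsi (N * ℓ))
    (f : FieldC N) :
    letI := algebraAlong (heckeAlphaBar ℂ N ℓ)
    GermEq (evalFun (Algebra.norm (FieldC N) (heckeBetaBar ℂ N ℓ f)))
      (∏ i, evalFun f ∘ mob (D.rep i)) := by
  classical
  let := algebraAlong (heckeAlphaBar ℂ N ℓ)
  have := isScalarTower_along (heckeAlphaBar ℂ N ℓ)
  have : FiniteDimensional (FieldC N) (FieldC (N * ℓ)) :=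
    FermatAgent.Curve.finiteAlong (heckeAlphaBar ℂ N ℓ)
  set y := heckeBetaBar ℂ N ℓ f
  intro z₀ hz₀
  set z : ℍ := ⟨z₀, hz₀⟩
  let E := AlgebraicClosure (MeroGerm (z : ℂ))
  let e : MeroGerm (z : ℂ) →+* E := algebraMap _ _
  let : Algebra (FieldC N) E := (e.comp (pointHom N z 1).toRingHom).toAlgebra
  have : CharZero (FieldC N) := charZero_of_injective_algebraMap (algebraMap ℂ (FieldC N)).injective
  let σ : ι → (FieldC (N * ℓ) →ₐ[FieldC N] E) := fun i =>
    { toRingHom := e.comp (pointHom (N * ℓ) z (M.γ i : SL(2, ℤ))).toRingHom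
      commutes' := fun x => by
        show e (pointHom (N * ℓ) z (M.γ i : SL(2, ℤ)) (heckeAlphaBar ℂ N ℓ x)) = e (pointHom N z 1 x)
        congr 1
        have h1 : pointHom N z (M.γ i : SL(2, ℤ)) = pointHom N z 1 := by
          have := pointHom_mul_left (N := N) (z := z) (M.γ i).2 1
          rwa [mul_one] at this
        rw [← h1, pointHom_eq_mk_mob, pointHom_eq_mk_mob, MeroGerm.mk_eq_mk]
        exact ((evalFun_heckeAlphaBar x).comp_mob (by simp)) _ z.2 }
  have hinj : Function.Injective σ := by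
    intro i k hik
    have h1 : pointHom (N * ℓ) z (M.γ i : SL(2, ℤ)) = pointHom (N * ℓ) z (M.γ k : SL(2, ℤ)) :=
      AlgHom.ext fun x => e.injective (DFunLike.congr_fun hik x)
    have h2 : sheet (N * ℓ) z (((M.γ i : SL(2, ℤ))⁻¹ : SL(2, ℤ)) : FermatAgent.ModCurveGroup.Edge _) =
        sheet (N * ℓ) z (((M.γ k : SL(2, ℤ))⁻¹ : SL(2, ℤ)) : FermatAgent.ModCurveGroup.Edge _) := by
      rw [sheet_mk, sheet_mk, inv_inv, inv_inv, h1]
    have h3 := sheet_injective (N * ℓ) z h2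
    rw [QuotientGroup.eq, inv_inv] at h3
    obtain ⟨ε, hε⟩ := exists_mem_Gamma0_dil h3
    refine D.rep_sep ((M.δ i)⁻¹ * ε * M.δ k) i k ?_
    have h4 : (ε : M₂) * (((M.δ k : SL(2, ℤ)) : M₂) * D.rep k) =
        ((M.δ i : SL(2, ℤ)) : M₂) * D.rep i := by
      rw [← M.eq k, ← M.eq i, ← mul_assoc, ← hε, mul_assoc]
      congr 1
      rw [← Matrix.SpecialLinearGroup.coe_mul, inv_mul_cancel_right]
    have hinv : (((M.δ i : SL(2, ℤ))⁻¹ : SL(2, ℤ)) : M₂) * ((M.δ i : SL(2, ℤ)) : M₂) = 1 :=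
      congrArg Subtype.val (inv_mul_cancel (M.δ i : SL(2, ℤ)))
    show D.rep i = ((((M.δ i : SL(2, ℤ))⁻¹ : SL(2, ℤ)) : M₂) * ((ε : SL(2, ℤ)) : M₂) *
      ((M.δ k : SL(2, ℤ)) : M₂)) * D.rep k
    rw [mul_assoc, mul_assoc, h4, ← mul_assoc, hinv, one_mul]
  have hbij : Function.Bijective σ := by
    rw [Fintype.bijective_iff_injective_and_card]
    refine ⟨hinj, ?_⟩
    rw [AlgHom.card]
    have h := finrankAlong_heckeAlphaBar N ℓ ℂ
    rw [← hcard, mul_comm (Fintype.card ι)] at h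
    exact (Nat.eq_of_mul_eq_mul_left (dedekindPsi_pos (NeZero.ne N)) h).symm
  have hnorm : pointHom N z 1 (Algebra.norm (FieldC N) y) =
      ∏ i, pointHom (N * ℓ) z (M.γ i : SL(2, ℤ)) y := by
    refine e.injective ?_
    show algebraMap (FieldC N) E (Algebra.norm (FieldC N) y) = _
    rw [Algebra.norm_eq_prod_embeddings, map_prod]
    exact (Fintype.prod_bijective σ hbij (fun i => σ i y) (fun τ => τ y) fun i => rfl).symm
  have hterm : ∀ i, evalFun y ∘ mob ((M.γ i : SL(2, ℤ)) : M₂) =ᶠ[𝓝[≠] z₀]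
      evalFun f ∘ mob (D.rep i) := by
    intro i
    refine (((evalFun_heckeBetaBar f).comp_mob (det_slMat_pos (M.γ i))).trans
      (GermEq.of_eqOn fun w hw => ?_)) z₀ hz₀
    simp only [Function.comp_apply]
    rw [← mob_mul _ _ (det_slMat_pos (M.γ i)).ne' hw, M.eq i, mob_mul _ _ (hD i).ne' hw]
    exact evalFun_mob_of_mem f (M.δ i) (mob_mem (hD i) hw)
  have hmero : ∀ i, MeromorphicAt (evalFun y ∘ mob ((M.γ i : SL(2, ℤ)) : M₂)) (z : ℂ) :=
    fun i => meromorphicOn_comp_mob (meromorphicOn_evalFun y) (det_slMat_pos (M.γ i)) _ z.2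
  have hprod : ∀ s : Finset ι, ∃ F : ℂ → ℂ, ∃ hF : MeromorphicAt F (z : ℂ),
      (∏ i ∈ s, pointHom (N * ℓ) z (M.γ i : SL(2, ℤ)) y) = MeroGerm.mk F hF ∧
      F =ᶠ[𝓝[≠] z₀] ∏ i ∈ s, evalFun f ∘ mob (D.rep i) := by
    intro s
    induction s using Finset.induction_on with
    | empty => exact ⟨1, MeromorphicAt.const 1 _, by rw [Finset.prod_empty]; rfl, by simp⟩
    | insert i s hi ih =>
      obtain ⟨F, hF, h1, h2⟩ := ih
      refine ⟨(evalFun y ∘ mob ((M.γ i : SL(2, ℤ)) : M₂)) * F, (hmero i).mul hF, ?_, ?_⟩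
      · rw [Finset.prod_insert hi, h1, pointHom_eq_mk_mob, MeroGerm.mk_mul]
      · rw [Finset.prod_insert hi]
        exact (hterm i).mul h2
  obtain ⟨F, hF, h1, h2⟩ := hprod Finset.univ
  rw [h1, pointHom_eq_mk_mob, MeroGerm.mk_eq_mk] at hnorm
  refine (EventuallyEq.trans ?_ hnorm).trans h2
  exact ((germEq_comp_mob_one (evalFun (Algebra.norm (FieldC N) y))).symm) z₀ hz₀

section Matches

open Matrix

omit [NeZero N] in
theorem wMat_upperRep (p : ℕ) (j : ℤ) : wMat N (upperRep p j) = !![(p : ℤ), 0; -(N * j), 1] := by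
  simp [wMat, upperRep]

omit [NeZero N] in
theorem wMat_diagRep (p : ℕ) : wMat N (diagRep p) = !![1, 0; 0, (p : ℤ)] := by
  simp [wMat, diagRep]

/-- `!![1, 0; -(N j), 1]`. -/
def lowerGamma0 (j : ℤ) : Gamma0 N :=
  ⟨⟨!![1, 0; -(N * j), 1], by simp⟩, Gamma0_mem.mpr (by simp)⟩

omit [NeZero N] [NeZero ℓ] [NeZero (N * ℓ)] in
theorem dilMat_mul_lowerGamma0 (j : ℤ) :
    dilMat ℓ * ((lowerGamma0 (N := N) j : SL(2, ℤ)) : M₂) = !![(ℓ : ℤ), 0; -(N * j), 1] := by
  simp [lowerGamma0, dilMat, diagRep]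

/-- Matching for `U_q`. -/
def uMatch (hℓN : ℓ ∣ N) :
    CosetMatch (wCorr (uCorr N hℓN) fun _ => upperRep_one_zero ℓ _) ℓ where
  γ x := lowerGamma0 (x.val : ℤ)
  δ _ := 1
  eq x := by
    show _ = (1 : M₂) * wMat N (upperRep ℓ (x.val : ℤ))
    rw [one_mul, wMat_upperRep, dilMat_mul_lowerGamma0]

omit [NeZero N] [NeZero ℓ] [NeZero (N * ℓ)] in
theorem exists_bezout (hℓ : ℓ.Prime) (hℓN : ¬ ℓ ∣ N) :
    ∃ b d : ℤ, (ℓ : ℤ) * d - b * N = 1 := by
  obtain ⟨u, v, h⟩ := Int.isCoprime_iff_gcd_eq_one.mpr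
    (show Int.gcd (ℓ : ℤ) (N : ℤ) = 1 by simpa using hℓ.coprime_iff_not_dvd.mpr hℓN)
  exact ⟨-v, u, by linear_combination h⟩

omit [NeZero ℓ] [NeZero (N * ℓ)] in
theorem exists_tMatch (hℓ : ℓ.Prime) (hℓN : ¬ ℓ ∣ N) :
    Nonempty (CosetMatch (wCorr (tCorr N hℓ hℓN) fun x => tRep_one_zero ℓ x) ℓ) := by
  obtain ⟨b, d, hbd⟩ := exists_bezout hℓ hℓN
  let g : Gamma0 N := ⟨⟨!![1, b; (N : ℤ), ℓ * d], by
    rw [Matrix.det_fin_two_of]; linear_combination hbd⟩, Gamma0_mem.mpr (by simp)⟩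
  let e : Gamma0 N := ⟨⟨!![(ℓ : ℤ), b; (N : ℤ), d], by
    rw [Matrix.det_fin_two_of]; linear_combination hbd⟩, Gamma0_mem.mpr (by simp)⟩
  refine ⟨⟨fun x => x.elim g fun y => lowerGamma0 (y.val : ℤ), fun x => x.elim e fun _ => 1, ?_⟩⟩
  intro x
  cases x with
  | none =>
    show dilMat ℓ * ((g : SL(2, ℤ)) : M₂) = ((e : SL(2, ℤ)) : M₂) * wMat N (diagRep ℓ)
    rw [wMat_diagRep]
    simp [g, e, dilMat, diagRep, mul_comm]
  | some y =>
    show dilMat ℓ * ((lowerGamma0 (N := N) (y.val : ℤ) : SL(2, ℤ)) : M₂) =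
      (1 : M₂) * wMat N (upperRep ℓ (y.val : ℤ))
    rw [one_mul, wMat_upperRep, dilMat_mul_lowerGamma0]

end Matches

end FermatAgent.ModCurveTorsion

end
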