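import Fermat.Agent.ModCurve.Torsion.KummerChar
import Fermat.Agent.ModCurve.Torsion.HeckeNorm
import Fermat.Agent.ModCurve.Torsion.HeckeInputs

/-!
The Kummer isomorphism carries the Hecke correspondences to transfer operators.
-/

set_option autoImplicit false

noncomputable section

open scoped MatrixGroups
open Filter Topology CongruenceSubgroup ModularCurve AlgebraicCurve

namespace FermatAgent.ModCurveTorsion

open FermatAgent.ModCurve.Points
open FermatAgent.Periods
open FermatAgent.Curve (divisorOf divisorOf_apply)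

local notation "ℍo" => UpperHalfPlane.upperHalfPlaneSet

variable {N : ℕ} [NeZero N] {ℓ : ℕ} [NeZero ℓ] {ι : Type} [Fintype ι] {n : ℕ} [NeZero n]

set_option maxHeartbeats 1600000 in
-- typeclass search over `laurentBaseChange` is slow
theorem isKummerChar_correspondence (C : HeckeCorr (Gamma0 N) ι) (hC : ∀ i, 0 < (C.rep i).det)
    (M : CosetMatch C ℓ) (hcard : Fintype.card ι * dedekindPsi N = dedekindPsi (N * ℓ))
    {x : Pic0 ℂ (FieldC N)} {φ : Additive (Gamma0 N) →+ ZMod n} (hx : IsKummerChar n x φ) :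
    IsKummerChar n (heckeOperatorAlong ℂ N ℓ x) (C.transfer ℤ φ) := by
  have : NeZero (N * ℓ) := ⟨mul_ne_zero (NeZero.ne N) (NeZero.ne ℓ)⟩
  have hα := FermatAgent.Curve.isIntegralAlong (heckeAlphaBar ℂ N ℓ)
  have hβ := FermatAgent.Curve.isIntegralAlong (heckeBetaBar ℂ N ℓ)
  obtain ⟨D, f, g, rfl, hg, hm⟩ := hx
  rw [heckeOperatorAlong_eq hα hβ (FermatAgent.Curve.fundamentalIdentityAlong _ _)
    (FermatAgent.Curve.finiteAlong _) (FermatAgent.Curve.normFormulaAlong _ _)]
  let := algebraAlong (heckeAlphaBar ℂ N ℓ)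
  have := isScalarTower_along (heckeAlphaBar ℂ N ℓ)
  have : FiniteDimensional (FieldC N) (FieldC (N * ℓ)) :=
    FermatAgent.Curve.finiteAlong (heckeAlphaBar ℂ N ℓ)
  set y := heckeBetaBar ℂ N ℓ f
  have hy : y ≠ 0 := (map_ne_zero (heckeBetaBar ℂ N ℓ)).mpr hg.ne_zero
  have hdiv : divisorOf (K := ℂ) f = (n : ℤ) • (D : Divisor ℂ (FieldC N)) :=
    Finsupp.ext fun v => by rw [divisorOf_apply, hg.ord_eq]; simp
  refine ⟨_, Algebra.norm (FieldC N) y, ∏ i, g ∘ mob (C.rep i), rfl,
    ⟨Algebra.norm_ne_zero_iff.mpr hy, fun v => ?_, ?_, ?_⟩, ?_⟩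
  · have h1 : divisorOf (Algebra.norm (FieldC N) y) =
        (n : ℤ) • Divisor.correspondence (heckeBetaBar ℂ N ℓ) (heckeAlphaBar ℂ N ℓ) hβ hα
          (D : Divisor ℂ (FieldC N)) := by
      rw [← map_zsmul, ← hdiv, Divisor.correspondence_apply,
        FermatAgent.Curve.pullbackAlong_divisorOf]
      exact (FermatAgent.Curve.pushforwardAlong_divisorOf _ hα hy).symm
    rw [← divisorOf_apply, h1]
    simp
  · intro z hz
    exact MeromorphicAt.prod fun i _ => meromorphicOn_comp_mob hg.mero (hC i) z hz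
  · refine GermEq.trans ?_ (evalFun_norm_beta C hC M hcard f).symm
    intro z hz
    have key : ∀ i, (g ∘ mob (C.rep i)) ^ n =ᶠ[𝓝[≠] z] evalFun f ∘ mob (C.rep i) :=
      fun i => hg.pow_eq.comp_mob (hC i) z hz
    filter_upwards [eventually_all.mpr key] with w hw
    simp only [Pi.pow_apply, Finset.prod_apply, ← Finset.prod_pow]
    exact Finset.prod_congr rfl fun i _ => hw i
  · convert hm.prod_corr C hC using 1
    funext γ
    rw [HeckeCorr.transfer_apply]
    induction (Finset.univ : Finset ι) using Finset.cons_induction with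
    | empty => simp
    | cons i s hi ih => rw [Finset.sum_cons, Finset.prod_cons, AddChar.map_add_eq_mul, ih]

theorem isKummerChar_heckeT {p : ℕ} (hp : p.Prime) (hpN : ¬ p ∣ N) {x : Pic0 ℂ (FieldC N)}
    {φ : Additive (Gamma0 N) →+ ZMod n} (hx : IsKummerChar n x φ) :
    haveI : NeZero p := ⟨hp.ne_zero⟩
    IsKummerChar n (heckeOperatorAlong ℂ N p x)
      (wInvolution N ℤ (ZMod n) (heckeHomT ℤ N hp hpN (wInvolution N ℤ (ZMod n) φ))) := by
  have : NeZero p := ⟨hp.ne_zero⟩
  have : NeZero (N * p) := ⟨mul_ne_zero (NeZero.ne N) hp.ne_zero⟩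
  obtain ⟨M⟩ := exists_tMatch (N := N) hp hpN
  have h := isKummerChar_correspondence (wCorr (tCorr N hp hpN) fun x => tRep_one_zero p x)
    (fun i => by
      show 0 < (wMat N (tRep p i)).det
      rw [det_wMat (tRep_one_zero p i), det_tRep]
      exact_mod_cast hp.pos)
    M (by rw [Fintype.card_option, ZMod.card, dedekindPsi_mul_of_not_dvd (NeZero.ne N) hp hpN]) hx
  have e := transfer_wCorr ℤ (tCorr N hp hpN) (fun x => tRep_one_zero p x) φ
  exact e ▸ h

theorem isKummerChar_heckeU {q : ℕ} (hq : q.Prime) [NeZero q] (hqN : q ∣ N)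
    {x : Pic0 ℂ (FieldC N)} {φ : Additive (Gamma0 N) →+ ZMod n} (hx : IsKummerChar n x φ) :
    IsKummerChar n (heckeOperatorAlong ℂ N q x)
      (wInvolution N ℤ (ZMod n) (heckeHomU ℤ N hqN (wInvolution N ℤ (ZMod n) φ))) := by
  have : NeZero (N * q) := ⟨mul_ne_zero (NeZero.ne N) hq.ne_zero⟩
  have h := isKummerChar_correspondence (wCorr (uCorr N hqN) fun x => upperRep_one_zero q _)
    (fun i => by
      show 0 < (wMat N (upperRep q (i.val : ℤ))).det
      rw [det_wMat (upperRep_one_zero q _), det_upperRep]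
      exact_mod_cast hq.pos)
    (uMatch hqN) (by rw [ZMod.card, dedekindPsi_mul_of_dvd (NeZero.ne N) hq hqN]) hx
  have e := transfer_wCorr ℤ (uCorr N hqN) (fun x => upperRep_one_zero q _) φ
  exact e ▸ h

end FermatAgent.ModCurveTorsion

end
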