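import Fermat.Agent.ModCurve.Torsion.EvalFun
import Fermat.Agent.ModCurve.Forms.PeriodPairInjective

/-!
The reflection `F ↦ (w ↦ conj (F (-conj w)))` on functions on the upper half plane, and its effect
on `ℂ(X₀(N))`: it conjugates the coefficients of expansions at `∞`.
-/

set_option autoImplicit false

noncomputable section

open scoped MatrixGroups ComplexConjugate
open UpperHalfPlane hiding I
open Filter Topology CongruenceSubgroup Function

namespace FermatAgent.ModCurveTorsion

open ModularCurve ModularCurve.Period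
open FermatAgent.ModCurve.Points
open FermatAgent.ModCurve.Forms (flipPt coe_flipPt)
open FermatAgent.ModFun (dil jFun qLaurentHom cuspRing)
open FermatAgent.Periods (mob)

local notation "ℍo" => UpperHalfPlane.upperHalfPlaneSet
local notation "M₂" => Matrix (Fin 2) (Fin 2) ℤ

/-- `F ↦ (w ↦ conj (F (-conj w)))`. -/
def reflFun (F : ℂ → ℂ) : ℂ → ℂ := fun w => conj (F (-conj w))

theorem reflFun_apply (F : ℂ → ℂ) (w : ℂ) : reflFun F w = conj (F (-conj w)) := rfl

theorem reflPt_mem {z : ℂ} (hz : z ∈ ℍo) : -conj z ∈ ℍo := by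
  show 0 < (-conj z).im
  simpa using (show 0 < z.im from hz)

theorem tendsto_reflPt (z : ℂ) :
    Tendsto (fun w => -conj w) (𝓝[≠] z) (𝓝[≠] (-conj z)) := by
  refine tendsto_nhdsWithin_iff.mpr ⟨?_, ?_⟩
  · exact ((Complex.continuous_conj.neg).tendsto z).mono_left nhdsWithin_le_nhds
  · filter_upwards [self_mem_nhdsWithin] with w hw h
    exact hw (by simpa using congrArg (fun u => -conj u) (show -conj w = -conj z from h))

theorem GermEq.reflFun {F G : ℂ → ℂ} (h : GermEq F G) :
    GermEq (FermatAgent.ModCurveTorsion.reflFun F) (FermatAgent.ModCurveTorsion.reflFun G) :=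
  fun z hz => ((h _ (reflPt_mem hz)).comp_tendsto (tendsto_reflPt z)).mono fun w hw => by
    simp only [reflFun_apply]
    exact congrArg conj hw

theorem analyticAt_reflFun {F : ℂ → ℂ} {z : ℂ} (h : AnalyticAt ℂ F (-conj z)) :
    AnalyticAt ℂ (reflFun F) z := by
  rw [Complex.analyticAt_iff_eventually_differentiableAt] at h ⊢
  have h1 := (Complex.continuous_conj.neg.tendsto z).eventually h
  filter_upwards [h1] with w hw
  have h2 : DifferentiableAt ℂ (fun u => F (-u)) (conj w) :=
    hw.comp (conj w) differentiableAt_id.neg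
  have h3 := h2.conj_conj
  rw [Complex.conj_conj] at h3
  exact h3

theorem meromorphicAt_reflFun {F : ℂ → ℂ} {z : ℂ} (h : MeromorphicAt F (-conj z)) :
    MeromorphicAt (reflFun F) z := by
  obtain ⟨n, hn⟩ := h
  refine ⟨n, ?_⟩
  have h1 : AnalyticAt ℂ (fun w => (-1 : ℂ) ^ n * reflFun
      (fun u => (u - -conj z) ^ n • F u) w) z :=
    analyticAt_const.mul (analyticAt_reflFun hn)
  refine h1.congr (Eventually.of_forall fun w => ?_)
  simp only [reflFun_apply, smul_eq_mul, map_mul, map_pow, map_sub, map_neg, Complex.conj_conj]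
  rw [← mul_assoc, ← mul_pow]
  congr 2
  ring

theorem meromorphicOn_reflFun {F : ℂ → ℂ} (h : MeromorphicOn F ℍo) :
    MeromorphicOn (reflFun F) ℍo := fun _ hz => meromorphicAt_reflFun (h _ (reflPt_mem hz))

theorem reflPt_mob (A : M₂) (w : ℂ) : -conj (mob A w) = mob (jConjMat A) (-conj w) := by
  simp only [mob, jConjMat_apply_zero_zero, jConjMat_apply_zero_one, jConjMat_apply_one_zero,
    jConjMat_apply_one_one, map_div₀, map_add, map_mul, map_intCast, Int.cast_neg]
  ring

theorem reflFun_comp_mob (F : ℂ → ℂ) (A : M₂) :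
    reflFun F ∘ mob A = reflFun (F ∘ mob (jConjMat A)) :=
  funext fun w => by simp only [Function.comp_apply, reflFun_apply, reflPt_mob]

theorem conj_qParam (τ : ℍ) :
    conj (Periodic.qParam 1 (τ : ℂ)) = Periodic.qParam 1 ((flipPt τ : ℍ) : ℂ) := by
  simp only [Periodic.qParam, ← Complex.exp_conj, coe_flipPt]
  congr 1
  simp [map_ofNat]

theorem E_flipPt {k : ℕ} (hk : 3 ≤ k) (hk2 : Even k) (τ : ℍ) :
    ModularForm.E hk (flipPt τ) = conj (ModularForm.E hk τ) := by
  have h1 := ModularForm.hasSum_qExpansion (ModularForm.E hk) one_pos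
    one_mem_strictPeriods_SL τ
  have h2 := ModularForm.hasSum_qExpansion (ModularForm.E hk) one_pos
    one_mem_strictPeriods_SL (flipPt τ)
  refine h2.unique ?_
  convert h1.map (starRingEnd ℂ) Complex.continuous_conj using 1
  funext m
  rw [Function.comp_apply, map_mul, map_pow, conj_qParam,
    EisensteinSeries.E_qExpansion_coeff hk hk2]
  congr 1
  split_ifs <;> simp [map_ofNat]

theorem discriminant_flipPt (τ : ℍ) :
    ModularForm.discriminant (flipPt τ) = conj (ModularForm.discriminant τ) := by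
  rw [disc_eq', disc_eq', map_div₀, map_sub, map_pow, map_pow, map_ofNat,
    show ModularForm.E₄ (flipPt τ) = conj (ModularForm.E₄ τ) from
      E_flipPt (k := 4) (by norm_num) ⟨2, rfl⟩ τ,
    show ModularForm.E₆ (flipPt τ) = conj (ModularForm.E₆ τ) from
      E_flipPt (k := 6) (by norm_num) ⟨3, rfl⟩ τ]

theorem jFun_flipPt (τ : ℍ) : jFun (flipPt τ) = conj (jFun τ) := by
  rw [jFun, jFun, discriminant_flipPt, map_div₀, map_pow,
    show ModularForm.E₄ (flipPt τ) = conj (ModularForm.E₄ τ) from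
      E_flipPt (k := 4) (by norm_num) ⟨2, rfl⟩ τ]

variable {N : ℕ}

theorem dil_flipPt (d : ℕ) [NeZero d] (τ : ℍ) : dil d (flipPt τ) = flipPt (dil d τ) := by
  ext
  simp [FermatAgent.ModFun.coe_dil]

theorem exists_conj_regRing (a : regRing N) : ∃ a' : regRing N,
    (∀ τ : ℍ, evalH a' τ = conj (evalH a (flipPt τ))) ∧
      qLaurentHom (a' : cuspRing) = coeffMap (starRingEnd ℂ) (qLaurentHom (a : cuspRing)) := by
  obtain ⟨f, hf⟩ := a
  show ∃ a' : regRing N, (∀ τ : ℍ, ((a' : cuspRing) : ℍ → ℂ) τ = conj ((f : ℍ → ℂ) (flipPt τ))) ∧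
    qLaurentHom (a' : cuspRing) = coeffMap (starRingEnd ℂ) (qLaurentHom f)
  rw [regRing] at hf
  induction hf using Algebra.adjoin_induction with
  | mem f hf =>
    obtain ⟨d, hd, hdN, hfd⟩ := hf
    refine ⟨⟨f, Algebra.subset_adjoin ⟨d, hd, hdN, hfd⟩⟩, fun τ => ?_, ?_⟩
    · simp only [hfd, Function.comp_apply, dil_flipPt, jFun_flipPt, Complex.conj_conj]
    · rw [qLaurentHom_gen hfd]
      exact (coeffMap_coeffEmb (Complex.conjAe.restrictScalars ℚ) _).symm
  | algebraMap c =>
    refine ⟨algebraMap ℂ (regRing N) (conj c), fun τ => rfl, ?_⟩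
    rw [AlgHom.commutes]
    show qLaurentHom (algebraMap ℂ cuspRing (conj c)) = _
    rw [AlgHom.commutes, algebraMap_laurentSeries_eq_single, algebraMap_laurentSeries_eq_single,
      coeffMap_single]
  | add f g _ _ hf hg =>
    obtain ⟨a, ha, ha'⟩ := hf
    obtain ⟨b, hb, hb'⟩ := hg
    refine ⟨a + b, fun τ => ?_, ?_⟩
    · show ((a : cuspRing) : ℍ → ℂ) τ + ((b : cuspRing) : ℍ → ℂ) τ =
        conj ((f : ℍ → ℂ) (flipPt τ) + (g : ℍ → ℂ) (flipPt τ))
      rw [map_add, ha, hb]
    · show qLaurentHom ((a : cuspRing) + b) = _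
      rw [map_add, map_add, map_add, ha', hb']
  | mul f g _ _ hf hg =>
    obtain ⟨a, ha, ha'⟩ := hf
    obtain ⟨b, hb, hb'⟩ := hg
    refine ⟨a * b, fun τ => ?_, ?_⟩
    · show ((a : cuspRing) : ℍ → ℂ) τ * ((b : cuspRing) : ℍ → ℂ) τ =
        conj ((f : ℍ → ℂ) (flipPt τ) * (g : ℍ → ℂ) (flipPt τ))
      rw [map_mul, ha, hb]
    · show qLaurentHom ((a : cuspRing) * b) = _
      rw [map_mul, map_mul, map_mul, ha', hb']

theorem evalFun_div_regRing (a b : regRing N) :
    GermEq (evalFun (toField N a / toField N b)) (evalC 1 a * (evalC 1 b)⁻¹) := by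
  rw [div_eq_mul_inv]
  refine (evalFun_mul _ _).trans ((evalFun_toField a).mul ((evalFun_inv _).trans ?_))
  intro z hz
  filter_upwards [evalFun_toField b z hz] with w hw
  simp only [Pi.inv_apply, hw]

theorem ofComplex_reflPt {w : ℂ} (hw : w ∈ ℍo) :
    ofComplex (-conj w) = flipPt (ofComplex w) := by
  ext
  rw [ofComplex_apply_of_im_pos (reflPt_mem hw), coe_flipPt, ofComplex_apply_of_im_pos hw]

/-- Conjugating coefficients of a function is reflecting it. -/
theorem evalFun_conj {f f' : FieldC N}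
    (h : (f' : LaurentSeries ℂ) = coeffMap (starRingEnd ℂ) (f : LaurentSeries ℂ)) :
    GermEq (evalFun f') (reflFun (evalFun f)) := by
  obtain ⟨a, b, -, rfl⟩ := exists_div N f
  obtain ⟨a', ha, ha'⟩ := exists_conj_regRing a
  obtain ⟨b', hb, hb'⟩ := exists_conj_regRing b
  have hf' : f' = toField N a' / toField N b' := Subtype.ext <| by
    rw [h]
    show coeffMap _ ((toField N a : LaurentSeries ℂ) / (toField N b : LaurentSeries ℂ)) =
      (toField N a' : LaurentSeries ℂ) / (toField N b' : LaurentSeries ℂ)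
    rw [map_div₀, coe_toField, coe_toField, coe_toField, coe_toField, ha', hb']
  rw [hf']
  refine (evalFun_div_regRing a' b').trans ?_
  refine GermEq.trans ?_ (evalFun_div_regRing a b).reflFun.symm
  refine GermEq.of_eqOn fun w hw => ?_
  simp only [Pi.mul_apply, Pi.inv_apply, reflFun_apply, map_mul, map_inv₀, evalC, one_smul,
    ofComplex_reflPt hw, ha, hb]

end FermatAgent.ModCurveTorsion

end
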