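import Fermat.Agent.ModCurve.Torsion.RootBall
import Mathlib.Analysis.Complex.UpperHalfPlane.Topology
import Mathlib.Analysis.Complex.Convex

/-!
A meromorphic function on the upper half plane all of whose orders are divisible by `n` has a
meromorphic `n`-th root: exhaust the half plane by nested discs and match the roots.
-/

set_option autoImplicit false

noncomputable section

namespace FermatAgent.ModCurveTorsion

open Filter Topology Metric Complex

local notation "ℍo" => UpperHalfPlane.upperHalfPlaneSet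

/-- Centre of the `m`-th exhausting disc. -/
def discCentre (m : ℕ) : ℂ := ((m : ℝ) + 2 : ℝ) * I

/-- Radius of the `m`-th exhausting disc. -/
def discRadius (m : ℕ) : ℝ := (m : ℝ) + 2 - 1 / ((m : ℝ) + 2)

theorem discRadius_pos (m : ℕ) : 0 < discRadius m := by
  have h : (2 : ℝ) ≤ (m : ℝ) + 2 := le_add_of_nonneg_left (Nat.cast_nonneg m)
  have : 1 / ((m : ℝ) + 2) ≤ 1 := by rw [div_le_one] <;> linarith
  rw [discRadius]; linarith

theorem closedBall_disc_subset (m : ℕ) : closedBall (discCentre m) (discRadius m) ⊆ ℍo := by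
  intro z hz
  rw [mem_closedBall, dist_eq_norm] at hz
  have h := (abs_le.mp ((Complex.abs_im_le_norm _).trans hz)).1
  have hpos : (0 : ℝ) < 1 / ((m : ℝ) + 2) := by positivity
  simp only [discCentre, discRadius, sub_im, mul_im, ofReal_re, I_im, mul_one, ofReal_im, I_re,
    mul_zero, add_zero] at h
  show 0 < z.im
  linarith

theorem ball_disc_subset (m : ℕ) : ball (discCentre m) (discRadius m) ⊆ ℍo :=
  ball_subset_closedBall.trans (closedBall_disc_subset m)

theorem ball_disc_mono {m k : ℕ} (h : m ≤ k) :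
    ball (discCentre m) (discRadius m) ⊆ ball (discCentre k) (discRadius k) := by
  induction h with
  | refl => exact subset_rfl
  | @step k _ ih =>
    refine ih.trans (ball_subset_ball' ?_)
    rw [dist_eq_norm, discCentre, discCentre, ← sub_mul, ← ofReal_sub, norm_mul, norm_I, mul_one,
      norm_real, Real.norm_eq_abs]
    simp only [discRadius, Nat.cast_succ]
    have h1 : 1 / ((k : ℝ) + 1 + 2) ≤ 1 / ((k : ℝ) + 2) :=
      one_div_le_one_div_of_le (by positivity) (by linarith)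
    rw [show (k : ℝ) + 2 - ((k : ℝ) + 1 + 2) = -1 by ring, abs_neg, abs_one]
    linarith

theorem exists_mem_disc {z : ℂ} (hz : z ∈ ℍo) : ∃ m, z ∈ ball (discCentre m) (discRadius m) := by
  have hz' : 0 < z.im := hz
  obtain ⟨m, hm⟩ := exists_nat_gt ((z.re ^ 2 + z.im ^ 2 + 2) / (2 * z.im))
  refine ⟨m, ?_⟩
  rw [div_lt_iff₀ (by positivity)] at hm
  have hr := discRadius_pos m
  rw [mem_ball, dist_eq_norm, Complex.norm_def, Real.sqrt_lt' hr, Complex.normSq_apply]
  simp only [discCentre, discRadius, sub_re, sub_im, mul_re, mul_im, ofReal_re, I_re, mul_zero,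
    ofReal_im, I_im, mul_one, sub_self, add_zero, sub_zero]
  set c : ℝ := (m : ℝ) + 2 with hc
  have hc0 : 0 < c := by positivity
  have h1 : (c - 1 / c) ^ 2 = c ^ 2 - 2 + (1 / c) ^ 2 := by field_simp; ring
  rw [h1]
  nlinarith [sq_nonneg (1 / c), hm, hz', mul_pos hz' (show (0 : ℝ) < 2 by norm_num)]

/-- A meromorphic function on the upper half plane whose orders are all divisible by `n` is the
`n`-th power of a meromorphic function. -/
theorem exists_meromorphic_root {n : ℕ} (hn : n ≠ 0) {f : ℂ → ℂ} (hf : MeromorphicOn f ℍo)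
    (htop : ∀ z ∈ ℍo, meromorphicOrderAt f z ≠ ⊤)
    (hdvd : ∀ z ∈ ℍo, (n : ℤ) ∣ (meromorphicOrderAt f z).untop₀) :
    ∃ g : ℂ → ℂ, MeromorphicOn g ℍo ∧ g ^ n =ᶠ[codiscreteWithin ℍo] f := by
  set B : ℕ → Set ℂ := fun m => ball (discCentre m) (discRadius m) with hB
  set IsRoot : ℕ → (ℂ → ℂ) → Prop :=
    fun m g => MeromorphicOn g (B m) ∧ ∀ z ∈ B m, g ^ n =ᶠ[𝓝[≠] z] f with hIsRoot
  have step : ∀ m g, IsRoot m g → ∃ g', IsRoot (m + 1) g' ∧ ∀ z ∈ B m, g' =ᶠ[𝓝[≠] z] g := by
    rintro m g ⟨hg, hgn⟩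
    obtain ⟨g', hg', hgn'⟩ := exists_meromorphic_root_ball hn (closedBall_disc_subset (m + 1))
      hf htop hdvd
    have hsub : B m ⊆ B (m + 1) := ball_disc_mono (Nat.le_succ m)
    have hgn'' : ∀ z ∈ B (m + 1), g' ^ n =ᶠ[𝓝[≠] z] f := fun z hz =>
      nhdsNE_of_eventuallyEq_codiscreteWithin isOpen_ball hgn' hz
    have hgtop : ∀ z ∈ B m, meromorphicOrderAt g' z ≠ ⊤ := by
      intro z hz h
      refine htop z (ball_disc_subset m hz) ?_
      rw [← meromorphicOrderAt_congr (hgn'' z (hsub hz)), meromorphicOrderAt_eq_top_iff]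
      filter_upwards [meromorphicOrderAt_eq_top_iff.mp h] with w hw
      rw [Pi.pow_apply, hw, zero_pow hn]
    obtain ⟨ζ, hζ, hζg⟩ := root_unique hn isOpen_ball (convex_ball _ _).isPreconnected
      (mem_ball_self (discRadius_pos m)) hg (hg'.mono_set hsub) hgtop
      ((eventuallyEq_codiscreteWithin_iff isOpen_ball).mpr fun z hz =>
        (hgn z hz).trans (hgn'' z (hsub hz)).symm)
    refine ⟨fun z => ζ * g' z, ⟨(MeromorphicOn.const ζ).mul hg', fun z hz => ?_⟩, fun z hz =>
      (nhdsNE_of_eventuallyEq_codiscreteWithin isOpen_ball hζg hz).symm⟩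
    filter_upwards [hgn'' z hz] with w hw
    rw [Pi.pow_apply, mul_pow, hζ, one_mul]
    exact hw
  obtain ⟨g₀, hg₀, hgn₀⟩ := exists_meromorphic_root_ball hn (closedBall_disc_subset 0) hf htop hdvd
  choose next hnext1 hnext2 using step
  let G : (m : ℕ) → {g : ℂ → ℂ // IsRoot m g} := fun m => Nat.rec
    ⟨g₀, hg₀, fun z hz => nhdsNE_of_eventuallyEq_codiscreteWithin isOpen_ball hgn₀ hz⟩
    (fun k g => ⟨next k g.1 g.2, hnext1 k g.1 g.2⟩) m
  have hGsucc : ∀ m, ∀ z ∈ B m, (G (m + 1)).1 =ᶠ[𝓝[≠] z] (G m).1 := fun m =>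
    hnext2 m (G m).1 (G m).2
  set H : ℕ → ℂ → ℂ := fun m => toMeromorphicNFOn (G m).1 (B m) with hH
  have hHG : ∀ m, ∀ z ∈ B m, H m =ᶠ[𝓝[≠] z] (G m).1 := fun m z hz =>
    (G m).2.1.toMeromorphicNFOn_eq_self_on_nhdsNE hz
  have hHeq : ∀ m k, m ≤ k → ∀ z ∈ B m, H k z = H m z := by
    intro m k hmk z hz
    have hzk : z ∈ B k := ball_disc_mono hmk hz
    have hgerm : ∀ l, m ≤ l → (G l).1 =ᶠ[𝓝[≠] z] (G m).1 := by
      intro l hl
      induction hl with
      | refl => exact EventuallyEq.rfl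
      | @step l hl ih => exact (hGsucc l z (ball_disc_mono hl hz)).trans ih
    simp only [hH]
    rw [toMeromorphicNFOn_eq_toMeromorphicNFAt (G k).2.1 hzk,
      toMeromorphicNFOn_eq_toMeromorphicNFAt (G m).2.1 hz]
    exact (toMeromorphicNFAt_eventuallyEq_nhds_congr (hgerm k hmk)).eq_of_nhds
  classical
  let g : ℂ → ℂ := fun z => if h : z ∈ ℍo then H (Nat.find (exists_mem_disc h)) z else 0
  have hgH : ∀ m, ∀ z ∈ B m, g =ᶠ[𝓝 z] H m := by
    intro m z hz
    filter_upwards [isOpen_ball.mem_nhds hz] with w hw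
    simp only [g, dif_pos (ball_disc_subset m hw)]
    rcases le_total m (Nat.find (exists_mem_disc (ball_disc_subset m hw))) with h | h
    · exact hHeq m _ h w hw
    · exact (hHeq _ m h w (Nat.find_spec (exists_mem_disc (ball_disc_subset m hw)))).symm
  refine ⟨g, fun z hz => ?_, (eventuallyEq_codiscreteWithin_iff
    UpperHalfPlane.isOpen_upperHalfPlaneSet).mpr fun z hz => ?_⟩
  all_goals obtain ⟨m, hm⟩ := exists_mem_disc hz
  all_goals have h1 : g =ᶠ[𝓝[≠] z] (G m).1 :=
    ((hgH m z hm).filter_mono nhdsWithin_le_nhds).trans (hHG m z hm)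
  · exact ((G m).2.1 z hm).congr h1.symm
  · filter_upwards [h1, (G m).2.2 z hm] with w hw hw'
    rw [Pi.pow_apply, hw]
    exact hw'

end FermatAgent.ModCurveTorsion

end
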