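import Mathlib.Analysis.Meromorphic.FactorizedRational
import Mathlib.Analysis.Meromorphic.NormalForm
import Mathlib.Analysis.Complex.HasPrimitives
import Mathlib.Analysis.SpecialFunctions.Complex.Log
import Mathlib.Analysis.SpecialFunctions.Pow.Complex

/-!
`n`-th roots of meromorphic functions with all orders divisible by `n`, on discs, and their
uniqueness up to roots of unity on connected open sets.
-/

set_option autoImplicit false

noncomputable section

namespace FermatAgent.ModCurveTorsion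

open Filter Topology Metric Complex

variable {U : Set ℂ} {f g : ℂ → ℂ}

theorem eventuallyEq_codiscreteWithin_iff (hU : IsOpen U) :
    f =ᶠ[codiscreteWithin U] g ↔ ∀ x ∈ U, f =ᶠ[𝓝[≠] x] g := by
  show {z | f z = g z} ∈ codiscreteWithin U ↔ _
  rw [mem_codiscreteWithin_iff_forall_mem_nhdsNE]
  refine forall₂_congr fun x hx => ?_
  show _ ↔ {z | f z = g z} ∈ 𝓝[≠] x
  constructor
  · intro h
    filter_upwards [h, mem_nhdsWithin_of_mem_nhds (hU.mem_nhds hx)] with z hz hzU
    exact hz.resolve_right fun hzc => hzc hzU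
  · exact fun h => mem_of_superset h Set.subset_union_left

theorem nhdsNE_of_eventuallyEq_codiscreteWithin (hU : IsOpen U)
    (h : f =ᶠ[codiscreteWithin U] g) {x : ℂ} (hx : x ∈ U) : f =ᶠ[𝓝[≠] x] g :=
  (eventuallyEq_codiscreteWithin_iff hU).mp h x hx

/-- A nonvanishing holomorphic function on a disc has a holomorphic `n`-th root. -/
theorem exists_analytic_root_ball {n : ℕ} (hn : n ≠ 0) {c : ℂ} {r : ℝ}
    (hg : AnalyticOnNhd ℂ g (ball c r)) (hg0 : ∀ z ∈ ball c r, g z ≠ 0) :
    ∃ u : ℂ → ℂ, AnalyticOnNhd ℂ u (ball c r) ∧ ∀ z ∈ ball c r, u z ^ n = g z := by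
  rcases le_or_gt r 0 with hr | hr
  · exact ⟨0, by simp [ball_eq_empty.mpr hr, AnalyticOnNhd], by simp [ball_eq_empty.mpr hr]⟩
  have hdiff : DifferentiableOn ℂ (fun z => deriv g z / g z) (ball c r) :=
    (hg.deriv.differentiableOn).div hg.differentiableOn hg0
  obtain ⟨F, hF⟩ := hdiff.isExactOn_ball
  set h : ℂ → ℂ := fun z => g z * exp (-F z) with hh
  have hder : ∀ z ∈ ball c r, HasDerivAt h 0 z := by
    intro z hz
    have h1 := (hg z hz).differentiableAt.hasDerivAt.mul (hF z hz).neg.cexp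
    refine h1.congr_deriv ?_
    have := hg0 z hz
    simp only [Pi.neg_apply]
    field_simp
    ring
  have hconst : ∀ z ∈ ball c r, h z = h c := fun z hz =>
    (convex_ball c r).is_const_of_fderivWithin_eq_zero
      (fun w hw => (hder w hw).differentiableAt.differentiableWithinAt)
      (fun w hw => by
        rw [(hder w hw).hasFDerivAt.hasFDerivWithinAt.fderivWithin
          (isOpen_ball.uniqueDiffWithinAt hw)]
        ext; simp)
      hz (mem_ball_self hr)
  obtain ⟨k, hk⟩ : ∃ k : ℂ, k ^ n = h c := ⟨h c ^ ((n : ℂ)⁻¹), cpow_nat_inv_pow _ hn⟩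
  refine ⟨fun z => k * exp (F z / n), ?_, fun z hz => ?_⟩
  · refine DifferentiableOn.analyticOnNhd (fun z hz => ?_) isOpen_ball
    exact (((hF z hz).differentiableAt.div_const _).cexp.const_mul k).differentiableWithinAt
  · rw [mul_pow, hk, ← exp_nat_mul, mul_div_cancel₀ _ (Nat.cast_ne_zero.mpr hn),
      ← hconst z hz, hh]
    simp [mul_assoc, ← exp_add]

/-- On a disc relatively compact in the domain, a meromorphic function whose orders are all
divisible by `n` is the `n`-th power of a meromorphic function. -/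
theorem exists_meromorphic_root_ball {n : ℕ} (hn : n ≠ 0) {c : ℂ} {r : ℝ}
    (hsub : closedBall c r ⊆ U) (hf : MeromorphicOn f U)
    (htop : ∀ z ∈ U, meromorphicOrderAt f z ≠ ⊤)
    (hdvd : ∀ z ∈ U, (n : ℤ) ∣ (meromorphicOrderAt f z).untop₀) :
    ∃ g : ℂ → ℂ, MeromorphicOn g (ball c r) ∧ g ^ n =ᶠ[codiscreteWithin (ball c r)] f := by
  have hball : ball c r ⊆ U := ball_subset_closedBall.trans hsub
  have hfin : (MeromorphicOn.divisor f (ball c r)).support.Finite := by
    refine Set.Finite.subset ((MeromorphicOn.divisor f (closedBall c r)).finiteSupport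
      (isCompact_closedBall c r)) fun z hz => ?_
    have hzb : z ∈ ball c r := (MeromorphicOn.divisor f (ball c r)).supportWithinDomain hz
    rw [Function.mem_support] at hz ⊢
    rwa [MeromorphicOn.divisor_apply (hf.mono_set hsub) (ball_subset_closedBall hzb),
      ← MeromorphicOn.divisor_apply (hf.mono_set hball) hzb]
  obtain ⟨u, hu, hu0, heq⟩ := (hf.mono_set hball).extract_zeros_poles
    (fun z => htop z (hball z.2)) hfin
  obtain ⟨v, hv, hvu⟩ := exists_analytic_root_ball hn hu fun z hz => hu0 ⟨z, hz⟩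
  set D : ℂ → ℤ := fun z => MeromorphicOn.divisor f (ball c r) z with hD
  have hDdvd : ∀ z, (n : ℤ) ∣ D z := by
    intro z
    by_cases hz : z ∈ ball c r
    · rw [hD]
      simp only [MeromorphicOn.divisor_apply (hf.mono_set hball) hz]
      exact hdvd z (hball hz)
    · rw [hD]
      simp [Function.locallyFinsuppWithin.apply_eq_zero_of_notMem _ hz]
  set d : ℂ → ℤ := fun z => D z / n with hd
  have hdfin : d.HasFiniteSupport := by
    refine hfin.subset fun z hz => ?_
    simp only [Function.mem_support, hd] at hz ⊢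
    intro h0
    exact hz (by simp [show D z = 0 from h0])
  refine ⟨(∏ᶠ z, (· - z) ^ d z) • v,
    ((Function.FactorizedRational.meromorphicNFOn d (ball c r)).meromorphicOn).smul
      hv.meromorphicOn, ?_⟩
  filter_upwards [heq, self_mem_codiscreteWithin (ball c r)] with z hz hzb
  have key : (∏ᶠ w, (· - w) ^ D w) z = ((∏ᶠ w, (· - w) ^ d w) z) ^ n := by
    rw [Function.FactorizedRational.finprod_eq_fun hfin,
      Function.FactorizedRational.finprod_eq_fun hdfin]
    have hs : (fun w => (z - w) ^ d w).HasFiniteMulSupport := by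
      refine hdfin.subset fun w hw => ?_
      simp only [Function.mem_mulSupport] at hw
      simp only [Function.mem_support]
      intro h0
      exact hw (by simp [h0])
    rw [finprod_pow hs]
    refine finprod_congr fun w => ?_
    rw [← zpow_natCast, ← zpow_mul, hd, Int.ediv_mul_cancel (hDdvd w)]
  simp only [Pi.smul_apply', smul_eq_mul, Pi.pow_apply, Pi.mul_apply] at hz ⊢
  rw [mul_pow, hvu z hzb, hz]
  rw [← key]

/-- On a connected open set, two meromorphic `n`-th roots of the same function differ by an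
`n`-th root of unity. -/
theorem root_unique {n : ℕ} (hn : n ≠ 0) (hU : IsOpen U) (hUc : IsPreconnected U)
    {x : ℂ} (hx : x ∈ U) {g₁ g₂ : ℂ → ℂ} (h₁ : MeromorphicOn g₁ U) (h₂ : MeromorphicOn g₂ U)
    (h₂top : ∀ z ∈ U, meromorphicOrderAt g₂ z ≠ ⊤)
    (heq : g₁ ^ n =ᶠ[codiscreteWithin U] g₂ ^ n) :
    ∃ ζ : ℂ, ζ ^ n = 1 ∧ g₁ =ᶠ[codiscreteWithin U] fun z => ζ * g₂ z := by
  set q : ℂ → ℂ := g₁ / g₂ with hq
  have hqm : MeromorphicOn q U := fun z hz => (h₁ z hz).div (h₂ z hz)
  have hne : ∀ z ∈ U, ∀ᶠ w in 𝓝[≠] z, g₂ w ≠ 0 := fun z hz =>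
    (meromorphicOrderAt_ne_top_iff_eventually_ne_zero (h₂ z hz)).mp (h₂top z hz)
  have hqn : ∀ z ∈ U, ∀ᶠ w in 𝓝[≠] z, q w ^ n = 1 := by
    intro z hz
    filter_upwards [hne z hz, nhdsNE_of_eventuallyEq_codiscreteWithin hU heq hz] with w hw hw'
    simp only [Pi.pow_apply] at hw'
    rw [hq, Pi.div_apply, div_pow, hw', div_self (pow_ne_zero n hw)]
  obtain ⟨y, hy1, hy2, hy3⟩ : ∃ y, q y ^ n = 1 ∧ y ∈ U ∧ AnalyticAt ℂ q y :=
    ((hqn x hx).and ((eventually_nhdsWithin_of_eventually_nhds (hU.mem_nhds hx)).and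
      (hqm x hx).eventually_analyticAt)).exists
  refine ⟨q y, hy1, ?_⟩
  have hroots : {a : ℂ | a ^ n = 1}.Finite :=
    (Polynomial.nthRoots n (1 : ℂ)).toFinset.finite_toSet.subset fun a ha => by
      simpa [Polynomial.mem_nthRoots (Nat.pos_of_ne_zero hn)] using ha
  have hloc : ∀ᶠ w in 𝓝[≠] y, q w - q y = 0 := by
    have hnhds : ({a : ℂ | a ^ n = 1} \ {q y})ᶜ ∈ 𝓝 (q y) :=
      (hroots.sdiff).isClosed.isOpen_compl.mem_nhds fun h => h.2 rfl
    have : ∀ᶠ w in 𝓝[≠] y, q w ∈ ({a : ℂ | a ^ n = 1} \ {q y})ᶜ :=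
      eventually_nhdsWithin_of_eventually_nhds (hy3.continuousAt.eventually hnhds)
    filter_upwards [this, hqn y hy2] with w hw hw'
    rw [sub_eq_zero]
    by_contra h
    exact hw ⟨hw', h⟩
  have hsub : MeromorphicOn (fun w => q w - q y) U := fun z hz =>
    (hqm z hz).sub (MeromorphicAt.const _ _)
  have hyt : meromorphicOrderAt (fun w => q w - q y) y = ⊤ := meromorphicOrderAt_eq_top_iff.mpr hloc
  rw [eventuallyEq_codiscreteWithin_iff hU]
  intro z hz
  have hzt : meromorphicOrderAt (fun w => q w - q y) z = ⊤ := by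
    by_contra h
    exact MeromorphicOn.meromorphicOrderAt_ne_top_of_isPreconnected hsub hUc hz hy2 h hyt
  filter_upwards [meromorphicOrderAt_eq_top_iff.mp hzt, hne z hz] with w hw hw0
  rw [sub_eq_zero, hq, Pi.div_apply, div_eq_iff hw0] at hw
  exact hw

end FermatAgent.ModCurveTorsion

end
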